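/-
MAZ (S15), chapter PT, Galois-theoretic route (PT-GAL), brick G1 ADM-SPLIT, ABSTRACT HALF (helper79;
arithmetic half: helper19).

`N` a finite abelian group with an action of a group `G`, `r` a prime, `cyc : G → ℕ` (think: the
cyclotomic exponent modulo `r ^ k`).  Two kinds of steps `U ≤ V` between `G`-stable subgroups, both of
index `r`:

* `EtStep G r U V`     : `G` acts trivially on `V / U`   (`ℤ/r`);
* `MuStep r cyc U V`   : `G` acts on `V / U` through `cyc` (`μ_r`).

(A) `exists_chain_of_eisData` : a finite module with Eichler–Shimura data at an Eisenstein prime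
    (`EisFiltration19.EisData`) has a chain of such steps from `⊥` to `⊤`
    (induction along `EisFiltration19.exists_rank_one_sub`).
(B) `admSplit_of_chain` : if an étale step below a multiplicative step can be exchanged (`hswap`: the
    length two subquotient splits, S14), a chain of multiplicative steps from `⊥` is of `μ`-type (`hmu`)
    and a chain of étale steps up to `⊤` has constant quotient (`het`), then `N` is an extension of a
    constant group by a `μ`-type group: the EXIT of G1.

Mathlib + `AdmSwap76` (bubble sort) + `Devissage95` (quotient actions) + `EisFiltration19`.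
-/
import Mathlib
import Fermat.Agent.MAZ.Desc.AdmSwap76
import Fermat.Agent.MAZ.Desc.Devissage95

set_option autoImplicit false
set_option linter.unusedSectionVars false
set_option linter.style.haveILetI false

universe u

namespace Fermat.Agent.MAZ.PT.AdmChain79

open Fermat.Agent.MAZ.Desc.AdmSwap76 Fermat.Agent.MAZ.Desc.EisFiltration19
  Fermat.Agent.MAZ.Desc.Devissage95

/-! ### The two kinds of steps -/

section Steps

variable {G : Type*} [Group G] {N : Type*} [AddCommGroup N] [DistribMulAction G N]

/-- an étale step: `U ≤ V` of index `r`, `U` stable, `G` acts trivially on `V / U`. -/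
def EtStep (G : Type*) [Group G] {N : Type*} [AddCommGroup N] [DistribMulAction G N] (r : ℕ)
    (U V : AddSubgroup N) : Prop :=
  (∀ g : G, ∀ u ∈ U, g • u ∈ U) ∧ U ≤ V ∧ Nat.card V = r * Nat.card U ∧
    ∀ g : G, ∀ v ∈ V, g • v - v ∈ U

/-- a multiplicative step: `U ≤ V` of index `r`, `U` stable, `G` acts on `V / U` through `cyc`. -/
def MuStep (r : ℕ) (cyc : G → ℕ) (U V : AddSubgroup N) : Prop :=
  (∀ g : G, ∀ u ∈ U, g • u ∈ U) ∧ U ≤ V ∧ Nat.card V = r * Nat.card U ∧
    ∀ g : G, ∀ v ∈ V, g • v - cyc g • v ∈ U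

variable {r : ℕ} {cyc : G → ℕ}

theorem EtStep.le {U V : AddSubgroup N} (h : EtStep G r U V) : U ≤ V := h.2.1

theorem MuStep.le {U V : AddSubgroup N} (h : MuStep r cyc U V) : U ≤ V := h.2.1

theorem EtStep.stable_top {U V : AddSubgroup N} (h : EtStep G r U V) :
    ∀ g : G, ∀ v ∈ V, g • v ∈ V := by
  intro g v hv
  have h1 : g • v - v ∈ V := h.2.1 (h.2.2.2 g v hv)
  have h2 := V.add_mem h1 hv
  rwa [sub_add_cancel] at h2

theorem MuStep.stable_top {U V : AddSubgroup N} (h : MuStep r cyc U V) :
    ∀ g : G, ∀ v ∈ V, g • v ∈ V := by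
  intro g v hv
  have h1 : g • v - cyc g • v ∈ V := h.2.1 (h.2.2.2 g v hv)
  have h2 := V.add_mem h1 (V.nsmul_mem hv (cyc g))
  rwa [sub_add_cancel] at h2

/-- the top of a chain starting at a stable subgroup is stable. -/
theorem Chain.stable_top {U V : AddSubgroup N} {e m : ℕ}
    (h : Chain (MuStep r cyc) (EtStep G r) U V e m) (hU : ∀ g : G, ∀ u ∈ U, g • u ∈ U) :
    ∀ g : G, ∀ v ∈ V, g • v ∈ V := by
  induction h with
  | nil => exact hU
  | consE _ hstep _ => exact hstep.stable_top
  | consM _ hstep _ => exact hstep.stable_top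

/-- concatenation of chains. -/
theorem Chain.append {E M : AddSubgroup N → AddSubgroup N → Prop} {U V W : AddSubgroup N}
    {e m e' m' : ℕ} (h : Chain E M U V e m) (h' : Chain E M V W e' m') :
    Chain E M U W (e + e') (m + m') := by
  induction h' with
  | nil => exact h
  | consE _ hstep ih => exact Chain.consE ih hstep
  | consM _ hstep ih => exact Chain.consM ih hstep

end Steps

/-! ### (B) the splitting from the chain -/

section Split

variable {G : Type*} [Group G] {N : Type*} [AddCommGroup N] [DistribMulAction G N]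
  {r : ℕ} {cyc : G → ℕ}

/-- **(B) G1, abstract form.** -/
theorem admSplit_of_chain {e m : ℕ}
    (h : Chain (MuStep r cyc) (EtStep G r) (⊥ : AddSubgroup N) ⊤ m e)
    (hswap : ∀ U W V : AddSubgroup N, EtStep G r U W → MuStep r cyc W V →
      ∃ W', MuStep r cyc U W' ∧ EtStep G r W' V)
    (hmu : ∀ (U : AddSubgroup N) (m : ℕ), Chain (MuStep r cyc) (EtStep G r) ⊥ U m 0 →
      ∀ g : G, ∀ x ∈ U, g • x = cyc g • x)
    (het : ∀ (U : AddSubgroup N) (e : ℕ), Chain (MuStep r cyc) (EtStep G r) U ⊤ 0 e →
      ∀ (g : G) (x : N), g • x - x ∈ U) :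
    ∃ U : AddSubgroup N, (∀ g : G, ∀ x ∈ U, g • x ∈ U) ∧ (∀ g : G, ∀ x ∈ U, g • x = cyc g • x) ∧
      (∀ (g : G) (x : N), g • x - x ∈ U) := by
  obtain ⟨C, h1, h2⟩ := sort hswap h
  refine ⟨C, ?_, hmu C m h1, het C e h2⟩
  refine Chain.stable_top h1 ?_
  intro g u hu
  rw [AddSubgroup.mem_bot.mp hu, smul_zero]
  exact AddSubgroup.zero_mem _

end Split

/-! ### Pulling a chain back along an equivariant surjection -/

section Comap

variable {G : Type*} [Group G] {N Q : Type*} [AddCommGroup N] [DistribMulAction G N]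
  [AddCommGroup Q] [DistribMulAction G Q]

/-- `#(f⁻¹ H) = #H · #ker f` for a surjection `f`. -/
theorem card_comap_of_surjective (f : N →+ Q) (hf : Function.Surjective f) (H : AddSubgroup Q) :
    Nat.card (H.comap f) = Nat.card f.ker * Nat.card H := by
  have hle : f.ker ≤ H.comap f := fun x hx => by
    rw [AddSubgroup.mem_comap, AddMonoidHom.mem_ker.mp hx]
    exact H.zero_mem
  refine card_of_exact (AddSubgroup.inclusion hle)
    ((f.comp (H.comap f).subtype).codRestrict H (fun x => x.2)) ?_ ?_ ?_
  · exact AddSubgroup.inclusion_injective hle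
  · intro x
    constructor
    · intro hx
      have hx' : f (x : N) = 0 := congrArg Subtype.val hx
      exact ⟨⟨x, AddMonoidHom.mem_ker.mpr hx'⟩, Subtype.ext rfl⟩
    · rintro ⟨y, rfl⟩
      exact Subtype.ext (AddMonoidHom.mem_ker.mp y.2)
  · rintro ⟨z, hz⟩
    obtain ⟨x, rfl⟩ := hf z
    exact ⟨⟨x, hz⟩, Subtype.ext rfl⟩

variable {r : ℕ} {cyc : G → ℕ}

theorem EtStep.comap (f : N →+ Q) (hf : Function.Surjective f)
    (hfG : ∀ (g : G) (x : N), f (g • x) = g • f x) {U V : AddSubgroup Q} (h : EtStep G r U V) :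
    EtStep G r (U.comap f) (V.comap f) := by
  refine ⟨fun g u hu => ?_, AddSubgroup.comap_mono h.2.1, ?_, fun g v hv => ?_⟩
  · rw [AddSubgroup.mem_comap, hfG]
    exact h.1 g _ hu
  · rw [card_comap_of_surjective f hf, card_comap_of_surjective f hf, h.2.2.1]
    ring
  · rw [AddSubgroup.mem_comap, map_sub, hfG]
    exact h.2.2.2 g _ hv

theorem MuStep.comap (f : N →+ Q) (hf : Function.Surjective f)
    (hfG : ∀ (g : G) (x : N), f (g • x) = g • f x) {U V : AddSubgroup Q}
    (h : MuStep r cyc U V) : MuStep r cyc (U.comap f) (V.comap f) := by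
  refine ⟨fun g u hu => ?_, AddSubgroup.comap_mono h.2.1, ?_, fun g v hv => ?_⟩
  · rw [AddSubgroup.mem_comap, hfG]
    exact h.1 g _ hu
  · rw [card_comap_of_surjective f hf, card_comap_of_surjective f hf, h.2.2.1]
    ring
  · rw [AddSubgroup.mem_comap, map_sub, hfG, map_nsmul]
    exact h.2.2.2 g _ hv

theorem Chain.comap (f : N →+ Q) (hf : Function.Surjective f)
    (hfG : ∀ (g : G) (x : N), f (g • x) = g • f x) {U V : AddSubgroup Q} {e m : ℕ}
    (h : Chain (MuStep r cyc) (EtStep G r) U V e m) :
    Chain (MuStep r cyc) (EtStep G r) (U.comap f) (V.comap f) e m := by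
  induction h with
  | nil => exact Chain.nil _
  | consE _ hstep ih => exact Chain.consE ih (hstep.comap f hf hfG)
  | consM _ hstep ih => exact Chain.consM ih (hstep.comap f hf hfG)

end Comap

/-! ### (A) the chain of a module with Eichler–Shimura data -/

section Exists

variable {r : ℕ} [Fact r.Prime] {G : Type*} [Group G] {T : Type*} [CommRing T]
  {π : T →+* ZMod r} {χ : G →* ZMod r} {τ δ : G → T}

theorem val_nsmul_eq_of_cast_eq {M : Type*} [AddCommGroup M] {a : ZMod r} {c : ℕ}
    (hc : (c : ZMod r) = a) {x : M} (hx : r • x = 0) : a.val • x = c • x := by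
  subst hc
  rw [ZMod.val_natCast]
  conv_rhs => rw [← Nat.mod_add_div c r]
  rw [add_nsmul, mul_nsmul, hx, smul_zero, add_zero]

/-- the induction. -/
theorem exists_chain_aux (cyc : G → ℕ) (hcyc : ∀ g, ((cyc g : ℕ) : ZMod r) = χ g) :
    ∀ (n : ℕ) (M : Type u) [AddCommGroup M] [DistribMulAction G M] [Module T M]
      [SMulCommClass G T M] [Finite M], Nat.card M = n → EisData π χ τ δ M →
      ∃ e m, Chain (MuStep r cyc) (EtStep G r) (⊥ : AddSubgroup M) ⊤ m e := by
  intro n
  induction n using Nat.strong_induction_on with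
  | _ n ih =>
    intro M _ _ _ _ _ hn D
    by_cases hsub : Subsingleton M
    · have : (⊥ : AddSubgroup M) = ⊤ := by
        ext x
        simp only [AddSubgroup.mem_bot, AddSubgroup.mem_top, iff_true]
        exact Subsingleton.elim x 0
      exact ⟨0, 0, this ▸ Chain.nil _⟩
    · haveI : Nontrivial M := not_subsingleton_iff_nontrivial.mp hsub
      obtain ⟨W, hW0, hWst, hWcard, hWT, hWG⟩ := exists_rank_one_sub D
      -- the quotient
      let Ws : Submodule T M := toSub W hWst
      letI iQ : DistribMulAction G (M ⧸ Ws) := quotDMA Ws hWst.1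
      haveI : SMulCommClass G T (M ⧸ Ws) := quot_smulCommClass Ws hWst.1
      have DQ : EisData π χ τ δ (M ⧸ Ws) := eisData_quot Ws hWst.1 D
      let p : M →+ M ⧸ Ws := Ws.mkQ.toAddMonoidHom
      have hp_surj : Function.Surjective p := Submodule.mkQ_surjective Ws
      have hpG : ∀ (g : G) (x : M), p (g • x) = g • p x := fun g x => rfl
      haveI : Finite (M ⧸ Ws) := Finite.of_surjective p hp_surj
      have hker : p.ker = W := by
        ext x
        rw [AddMonoidHom.mem_ker]
        change Ws.mkQ x = 0 ↔ _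
        rw [Submodule.mkQ_apply, Submodule.Quotient.mk_eq_zero]
        exact Iff.rfl
      have hcardM : Nat.card M = r * Nat.card (M ⧸ Ws) := by
        have h1 := card_comap_of_surjective p hp_surj ⊤
        rw [AddSubgroup.comap_top, AddSubgroup.card_top, AddSubgroup.card_top, hker, hWcard] at h1
        exact h1
      have hr1 : 1 < r := (Fact.out : r.Prime).one_lt
      have hlt : Nat.card (M ⧸ Ws) < n := by
        have hpos : 0 < Nat.card (M ⧸ Ws) := Nat.card_pos
        rw [← hn, hcardM]
        nlinarith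
      obtain ⟨e, m, hch⟩ := ih _ hlt (M ⧸ Ws) rfl DQ
      have hch' := Chain.comap (cyc := cyc) p hp_surj hpG hch
      rw [AddSubgroup.comap_top] at hch'
      have hbot : (⊥ : AddSubgroup (M ⧸ Ws)).comap p = W := by
        rw [← hker]
        rfl
      rw [hbot] at hch'
      -- the first step
      have hstab0 : ∀ g : G, ∀ u ∈ (⊥ : AddSubgroup M), g • u ∈ (⊥ : AddSubgroup M) := by
        intro g u hu
        rw [AddSubgroup.mem_bot.mp hu, smul_zero]
        exact AddSubgroup.zero_mem _
      have hcard0 : Nat.card W = r * Nat.card (⊥ : AddSubgroup M) := by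
        rw [hWcard, AddSubgroup.card_bot, mul_one]
      have hrW : ∀ w ∈ W, r • w = 0 := by
        intro w hw
        have h1 := hWT (r : T) w hw
        rw [map_natCast, ZMod.natCast_self, ZMod.val_zero, zero_smul, Nat.cast_smul_eq_nsmul] at h1
        exact h1
      rcases hWG with htriv | hchi
      · have hstep : EtStep G r (⊥ : AddSubgroup M) W := by
          refine ⟨hstab0, bot_le, hcard0, fun g v hv => ?_⟩
          rw [htriv g v hv, sub_self]
          exact AddSubgroup.zero_mem _
        have h0 : Chain (MuStep r cyc) (EtStep G r) (⊥ : AddSubgroup M) W 0 (0 + 1) :=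
          Chain.consM (Chain.nil _) hstep
        exact ⟨_, _, Chain.append h0 hch'⟩
      · have hstep : MuStep r cyc (⊥ : AddSubgroup M) W := by
          refine ⟨hstab0, bot_le, hcard0, fun g v hv => ?_⟩
          rw [hchi g v hv, val_nsmul_eq_of_cast_eq (hcyc g) (hrW v hv), sub_self]
          exact AddSubgroup.zero_mem _
        have h0 : Chain (MuStep r cyc) (EtStep G r) (⊥ : AddSubgroup M) W (0 + 1) 0 :=
          Chain.consE (Chain.nil _) hstep
        exact ⟨_, _, Chain.append h0 hch'⟩

/-- **(A)** a finite module with Eichler–Shimura data at an Eisenstein prime has a chain of étale and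
multiplicative steps from `⊥` to `⊤`. -/
theorem exists_chain_of_eisData {M : Type u} [AddCommGroup M] [DistribMulAction G M] [Module T M]
    [SMulCommClass G T M] [Finite M] (D : EisData π χ τ δ M) (cyc : G → ℕ)
    (hcyc : ∀ g, ((cyc g : ℕ) : ZMod r) = χ g) :
    ∃ e m, Chain (MuStep r cyc) (EtStep G r) (⊥ : AddSubgroup M) ⊤ m e :=
  exists_chain_aux cyc hcyc (Nat.card M) M rfl D

end Exists

end Fermat.Agent.MAZ.PT.AdmChain79
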