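/-
MAZ (S15), pole P1 (PT-GAL), brick G1 ADM-SPLIT, helper19: THE LOCAL SPLITTING AT `r`.

For a finite `G_ℚ`-module `N` and a place `A` of `ℚ̄`:
* `inertiaAug A N` : the augmentation subgroup of the inertia group at `A` (generated by the
  `σ • v - v`, `σ ∈ I_A`); it is stable under the decomposition group `D_A`
  (`smul_mem_inertiaAug_of_mem_decomposition`) and transported by conjugation
  (`inv_smul_mem_inertiaAug`).
* `star_at` : GLOBAL FORM OF THEOREM STAR (TW/FF `Unr68.star`): for `r` odd, `N` flat at `r` and killed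
  by `r`, `A ∣ r`: an element of `inertiaAug A N` fixed by `I_A` is zero.
* `exists_local_complement` : **the local splitting**: `N` of order `r²`, flat, killed by `r`,
  `W ≤ N` of order `r` with trivial action, `N/W` of cyclotomic type: then `inertiaAug A N` is a
  `D_A`-stable complement of `W` (connected-étale sequence: `N = W ⊕ N⁰`).
-/
import Mathlib
import Fermat.Agent.MAZ.Local.FlatRank68
import Fermat.Agent.Lib.InertiaCyclo69

set_option autoImplicit false
set_option linter.unusedSectionVars false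
set_option linter.style.haveILetI false

noncomputable section

namespace Fermat.Agent.MAZ.PT.LocalSplit19

open scoped Pointwise
open Fermat.Agent.TW.FF.FlatModel68 Fermat.Agent.TW.FF.Spec72
open Fermat.Agent.TW.FF.LocalOfGlobal68 Fermat.Agent.FFJ.Glue.GlobalClosure68
open Fermat.Agent.TW.Bridge.LocalInertia97 Fermat.Agent.TW.LocalQ.PlaceConj96
open Fermat.Agent.TW.LocalQ.FrobConj96 Fermat.Agent.TW.OrdLocal.PadicPlace97

local notation "Qb" => AlgebraicClosure ℚ

/-! ### The augmentation subgroup of inertia at a place -/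

section Aug

variable (A : ValuationSubring Qb) (N : Type) [AddCommGroup N] [DistribMulAction GQ N]

/-- the augmentation subgroup of the inertia group at `A`. -/
def inertiaAug : AddSubgroup N :=
  AddSubgroup.closure {w : N | ∃ σ ∈ A.inertiaSubgroupIn ℚ, ∃ v : N, w = σ • v - v}

variable {A N}

theorem smul_sub_mem_inertiaAug {σ : GQ} (hσ : σ ∈ A.inertiaSubgroupIn ℚ) (v : N) :
    σ • v - v ∈ inertiaAug A N :=
  AddSubgroup.subset_closure ⟨σ, hσ, v, rfl⟩

/-- transport by conjugation: `g • I_aug(A) ≤ I_aug(g • A)`. -/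
theorem smul_mem_inertiaAug_smul {q : ℕ} (hq : q.Prime) (hA : A.LiesOverPrime q) (g : GQ) {x : N}
    (hx : x ∈ inertiaAug A N) : g • x ∈ inertiaAug (g • A) N := by
  unfold inertiaAug at hx
  induction hx using AddSubgroup.closure_induction with
  | mem w hw =>
    obtain ⟨σ, hσ, v, rfl⟩ := hw
    have h1 : g • (σ • v - v) = (g * σ * g⁻¹) • (g • v) - g • v := by
      rw [smul_sub, mul_smul, mul_smul, inv_smul_smul]
    rw [h1]
    refine smul_sub_mem_inertiaAug ?_ _
    rw [mem_inertiaSubgroupIn_smul_iff hq hA g]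
    have e1 : g⁻¹ * (g * σ * g⁻¹) * g = σ := by group
    rw [e1]
    exact hσ
  | zero => rw [smul_zero]; exact zero_mem _
  | add a b _ _ ha hb => rw [smul_add]; exact add_mem ha hb
  | neg a _ ha => rw [smul_neg]; exact neg_mem ha

/-- `I_aug(A)` is stable under the decomposition group at `A`. -/
theorem smul_mem_inertiaAug_of_mem_decomposition {q : ℕ} (hq : q.Prime) (hA : A.LiesOverPrime q)
    {g : GQ} (hg : g ∈ A.decompositionSubgroup ℚ) {x : N} (hx : x ∈ inertiaAug A N) :
    g • x ∈ inertiaAug A N := by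
  have h1 := smul_mem_inertiaAug_smul hq hA g hx
  have h2 : g • A = A := hg
  rwa [h2] at h1

end Aug

/-! ### Theorem STAR in global form -/

section Star

variable {r : ℕ} [Fact r.Prime] {N : Type} [AddCommGroup N] [DistribMulAction GQ N] [Finite N]

/-- STAR at the standard place over `r`. -/
theorem star_padicPlace (hr2 : r ≠ 2) (hflat : FlatModel r N (fun (σ : GQ) (x : N) => σ • x))
    (hkill : ∀ x : N, r • x = 0) (x : N)
    (hx : ∀ σ ∈ (padicPlace r).inertiaSubgroupIn ℚ, σ • x = x)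
    (hcl : x ∈ inertiaAug (padicPlace r) N) : x = 0 := by
  have hloc : LocalFlatModel r N (fun τ (x : N) => (localGaloisToGlobal r τ) • x) :=
    localFlatModel_of_flatModel r hflat
  refine Fermat.Agent.TW.FF.Unr68.star r hr2 N (fun τ (x : N) => (localGaloisToGlobal r τ) • x) hloc
    hkill x ?_ ?_
  · intro τ hτ
    exact hx _ ((localGaloisToGlobal_mem_inertia_iff r τ).2 hτ)
  · unfold inertiaAug at hcl
    refine AddSubgroup.closure_mono ?_ hcl
    rintro w ⟨σ, hσ, v, rfl⟩
    obtain ⟨τ, rfl, hτ⟩ := exists_local_inertia_of_mem_inertia r hσ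
    exact ⟨τ, hτ, v, rfl⟩

/-- **STAR at every place `A ∣ r`** (`r` odd): in a flat module killed by `r`, an element of the
augmentation subgroup of `I_A` which is fixed by `I_A` is zero. -/
theorem star_at (hr2 : r ≠ 2) (hflat : FlatModel r N (fun (σ : GQ) (x : N) => σ • x))
    (hkill : ∀ x : N, r • x = 0) {A : ValuationSubring Qb} (hA : A.LiesOverPrime r) (x : N)
    (hx : ∀ σ ∈ A.inertiaSubgroupIn ℚ, σ • x = x) (hcl : x ∈ inertiaAug A N) : x = 0 := by
  have hr : r.Prime := Fact.out
  have hP := padicPlace_liesOverPrime r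
  obtain ⟨g, rfl⟩ := exists_smul_eq_of_liesOverPrime hr hP hA
  have h1 : g⁻¹ • x = 0 := by
    refine star_padicPlace hr2 hflat hkill (g⁻¹ • x) ?_ ?_
    · intro σ hσ
      have h2 : g * σ * g⁻¹ ∈ (g • padicPlace r).inertiaSubgroupIn ℚ := by
        rw [mem_inertiaSubgroupIn_smul_iff hr hP g]
        have e1 : g⁻¹ * (g * σ * g⁻¹) * g = σ := by group
        rw [e1]
        exact hσ
      have h3 := hx _ h2
      rw [mul_smul, mul_smul] at h3
      have h4 := congrArg (fun y => g⁻¹ • y) h3
      simpa using h4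
    · have h2 := smul_mem_inertiaAug_smul hr hA g⁻¹ hcl
      rwa [inv_smul_smul] at h2
  have h5 := congrArg (fun y => g • y) h1
  simpa using h5

end Star

/-! ### The local splitting -/

section Split

variable {r : ℕ} [Fact r.Prime] {N : Type} [AddCommGroup N] [DistribMulAction GQ N]

/-- in a group of order `r²`, a subgroup of order `r` and a non-trivial subgroup meeting it
trivially are complementary. -/
theorem sup_eq_top_of_card (hcard : Nat.card N = r * r) (W W' : AddSubgroup N)
    (hW : Nat.card W = r) (hdisj : W ⊓ W' = ⊥) (hne : W' ≠ ⊥) : W ⊔ W' = ⊤ := by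
  have hr : r.Prime := Fact.out
  have hfin : Finite N := by
    apply Nat.finite_of_card_ne_zero
    rw [hcard]
    exact Nat.mul_ne_zero hr.ne_zero hr.ne_zero
  have hle : W ≤ W ⊔ W' := le_sup_left
  have h1 : Nat.card W ∣ Nat.card (W ⊔ W' : AddSubgroup N) := AddSubgroup.card_dvd_of_le hle
  have h2 : Nat.card (W ⊔ W' : AddSubgroup N) ∣ Nat.card N :=
    AddSubgroup.card_addSubgroup_dvd_card _
  rw [hcard, ← sq] at h2
  obtain ⟨i, hi, hi'⟩ := (Nat.dvd_prime_pow hr).1 h2
  have hne' : W ⊔ W' ≠ W := by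
    intro h
    have h3 : W' ≤ W := by
      rw [← h]
      exact le_sup_right
    have h4 : W ⊓ W' = W' := inf_eq_right.2 h3
    rw [h4] at hdisj
    exact hne hdisj
  have hi2 : i = 2 := by
    rw [hW, hi'] at h1
    have h5 : 1 ≤ i := by
      by_contra hlt
      have : i = 0 := by omega
      rw [this, pow_zero] at h1
      exact hr.one_lt.ne' (Nat.dvd_one.1 h1)
    by_contra h6
    have h7 : i = 1 := by omega
    rw [h7, pow_one] at hi'
    apply hne'
    symm
    exact AddSubgroup.eq_of_le_of_card_ge hle (by rw [hW, hi'])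
  rw [hi2] at hi'
  apply (AddSubgroup.card_eq_iff_eq_top _).1
  rw [hi', hcard, sq]

/-- **THE LOCAL SPLITTING AT `r`** (`r` odd).  `N` flat at `r`, of order `r²`, killed by `r`; `W ≤ N` of
order `r` with trivial Galois action; `G_ℚ` acts on `N/W` through the cyclotomic exponent `ε`.  Then at
every place `A ∣ r` the augmentation subgroup of inertia is a `D_A`-stable complement of `W`. -/
theorem exists_local_complement (hr2 : r ≠ 2)
    (hflat : FlatModel r N (fun (σ : GQ) (x : N) => σ • x))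
    (hkill : ∀ x : N, r • x = 0) (hcard : Nat.card N = r * r) (W : AddSubgroup N)
    (hW : Nat.card W = r) (hWfix : ∀ g : GQ, ∀ w ∈ W, g • w = w) (ε : GQ → ℕ)
    (hε : ∀ (g : GQ) (z : Qb), z ^ r = 1 → g z = z ^ ε g)
    (hquot : ∀ (g : GQ) (x : N), g • x - ε g • x ∈ W)
    {A : ValuationSubring Qb} (hA : A.LiesOverPrime r) :
    ∃ W' : AddSubgroup N, (∀ σ ∈ A.decompositionSubgroup ℚ, ∀ x ∈ W', σ • x ∈ W') ∧
      W ⊓ W' = ⊥ ∧ W ⊔ W' = ⊤ := by
  have hr : r.Prime := Fact.out
  have hfin : Finite N := by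
    apply Nat.finite_of_card_ne_zero
    rw [hcard]
    exact Nat.mul_ne_zero hr.ne_zero hr.ne_zero
  have hdisj : W ⊓ inertiaAug A N = ⊥ := by
    rw [eq_bot_iff]
    rintro x ⟨hxW, hxA⟩
    exact star_at hr2 hflat hkill hA x (fun σ _ => hWfix σ x hxW) hxA
  refine ⟨inertiaAug A N, fun σ hσ x hx => smul_mem_inertiaAug_of_mem_decomposition hr hA hσ hx,
    hdisj, sup_eq_top_of_card hcard W _ hW hdisj ?_⟩
  -- inertia at `r` moves `N/W`
  intro hbot
  obtain ⟨σ, hσI, hσ⟩ := Fermat.Agent.Lib.InertiaCyclo69.exists_mem_inertia_apply_ne hr hr2 hA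
  obtain ⟨ζ, hζ⟩ : ∃ ζ : Qb, IsPrimitiveRoot ζ r :=
    haveI : NeZero r := ⟨hr.ne_zero⟩
    HasEnoughRootsOfUnity.exists_primitiveRoot Qb r
  have hne : σ ζ ≠ ζ := (hσ ζ hζ).2
  rw [hε σ ζ hζ.pow_eq_one] at hne
  -- `r ∤ ε σ - 1`
  have hnd : ¬ (r : ℤ) ∣ (1 - (ε σ : ℤ)) := by
    intro hd
    apply hne
    have h1 : (ε σ : ℤ) ≡ 1 [ZMOD r] := by
      apply Int.ModEq.symm
      exact (Int.modEq_iff_dvd.2 (by simpa using (dvd_neg.2 hd)))
    have h2 : ε σ ≡ 1 [MOD r] := by
      exact_mod_cast h1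
    have h3 : ζ ^ ε σ = ζ ^ 1 := by
      rw [← pow_mod_orderOf ζ (ε σ), ← pow_mod_orderOf ζ 1, ← hζ.eq_orderOf]
      exact congrArg (fun n => ζ ^ n) h2
    rw [h3, pow_one]
  have hcop : IsCoprime (r : ℤ) (1 - (ε σ : ℤ)) :=
    (Prime.coprime_iff_not_dvd (Nat.prime_iff_prime_int.1 hr)).2 hnd
  obtain ⟨u, w, huw⟩ := hcop
  -- every `v` lies in `W`
  have hall : ∀ v : N, v ∈ W := by
    intro v
    have h1 : σ • v - v ∈ inertiaAug A N := smul_sub_mem_inertiaAug hσI v
    rw [hbot, AddSubgroup.mem_bot, sub_eq_zero] at h1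
    have h2 := hquot σ v
    rw [h1] at h2
    have h3 : (1 - (ε σ : ℤ)) • v = v - ε σ • v := by
      rw [sub_smul, one_smul, natCast_zsmul]
    have h4 : v = w • ((1 - (ε σ : ℤ)) • v) := by
      have h5 : (r : ℤ) • v = 0 := by
        rw [natCast_zsmul]
        exact hkill v
      calc v = (1 : ℤ) • v := (one_smul _ _).symm
        _ = (u * (r : ℤ) + w * (1 - (ε σ : ℤ))) • v := by rw [huw]
        _ = w • ((1 - (ε σ : ℤ)) • v) := by
          rw [add_smul, mul_smul, h5, smul_zero, zero_add, mul_smul]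
    rw [h4, h3]
    exact W.zsmul_mem h2 w
  have htop : W = ⊤ := by
    rw [eq_top_iff]
    intro v _
    exact hall v
  have h6 : Nat.card W = Nat.card N := by
    rw [htop]
    exact AddSubgroup.card_top
  rw [hW, hcard] at h6
  have h7 : r * 1 = r * r := by rw [mul_one]; exact h6
  have h8 := Nat.eq_of_mul_eq_mul_left hr.pos h7
  exact hr.one_lt.ne h8

end Split

end Fermat.Agent.MAZ.PT.LocalSplit19
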