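/-
MAZ (S15), pole P1 (PT-GAL), brick G1 ADM-SPLIT, helper19: **THE RANK-TWO SPLITTING = THE S14 APPLICATION.**

`rank_two_split` : `r ≥ 3` prime, `N` a finite `G_ℚ`-module of order `r²` killed by `r`, with a finite flat
model over `ℤ_(r)`, unramified outside `r`; `W ≤ N` of order `r` with trivial Galois action, `G_ℚ` acting on
`N/W` through the cyclotomic exponent.  Then `W` has a `G_ℚ`-stable complement.
("`Ext¹(μ_r, ℤ/r) = 0` in the category of finite flat group schemes over `ℤ`": Mazur, Prop. I.(1.?);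
here it is the frozen S14 = `ExtCitation.ExtVanishingCts r`, proved on main as `Fermat.Agent.S14.result`.)

`rank_two_split_okMod` : the same in helper95's literal (hC) (`AdmStructure95`), for the class
`OkMod r k p` ∧ 'inertia at `p` acts trivially', with `χ := chiModR r`.
-/
import Mathlib
import Fermat.Agent.S14
import Fermat.Agent.MAZ.PT.LocalSplit19
import Fermat.Agent.MAZ.Desc.FlatAdm68
import Fermat.Agent.MAZ.Desc.RankOneInst19

set_option autoImplicit false
set_option linter.unusedSectionVars false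
set_option linter.style.haveILetI false

noncomputable section

namespace Fermat.Agent.MAZ.PT.AdmSplit19

open Fermat.Agent.TW.FF.FlatModel68 Fermat.Agent.MAZ.PT.LocalSplit19
open Fermat.Agent.MAZ.Desc.FlatAdm68 Fermat.Agent.MAZ.Desc.RankOneInst19

local notation "Qb" => AlgebraicClosure ℚ

variable {r : ℕ} [Fact r.Prime] {N : Type} [AddCommGroup N] [DistribMulAction GQ N]

/-- the scalar action of `ZMod r` on a group killed by `r` is by natural multiples. -/
theorem zmod_smul_eq (hkill : ∀ x : N, r • x = 0) (c : ZMod r) (x : N) :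
    letI : Module (ZMod r) N := AddCommGroup.zmodModule hkill
    c • x = c.val • x := by
  letI : Module (ZMod r) N := AddCommGroup.zmodModule hkill
  conv_lhs => rw [← ZMod.natCast_zmod_val c]
  exact Nat.cast_smul_eq_nsmul (ZMod r) c.val x

/-- the rank-two splitting, for a given `ZMod r`-module structure. -/
theorem rank_two_split_module [Module (ZMod r) N] [SMulCommClass GQ (ZMod r) N] (h3 : 3 ≤ r)
    (hflat : FlatModel r N (fun (σ : GQ) (x : N) => σ • x))
    (hunr : ∀ ℓ : ℕ, ℓ.Prime → ℓ ≠ r → ∀ A : ValuationSubring Qb, A.LiesOverPrime ℓ →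
      ∀ σ ∈ A.inertiaSubgroupIn ℚ, ∀ x : N, σ • x = x)
    (hkill : ∀ x : N, r • x = 0) (hcard : Nat.card N = r * r) (W : AddSubgroup N)
    (hW : Nat.card W = r) (hWfix : ∀ g : GQ, ∀ w ∈ W, g • w = w) (ε : GQ → ℕ)
    (hε : ∀ (g : GQ) (z : Qb), z ^ r = 1 → g z = z ^ ε g)
    (hquot : ∀ (g : GQ) (x : N), g • x - ε g • x ∈ W) :
    ∃ W' : AddSubgroup N, (∀ g : GQ, ∀ w ∈ W', g • w ∈ W') ∧ W ⊓ W' = ⊥ ∧ W ⊔ W' = ⊤ := by
  have hr : r.Prime := Fact.out
  have hr2 : r ≠ 2 := by omega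
  -- the cyclotomic exponents agree modulo `r`
  obtain ⟨ζ, hζ⟩ : ∃ ζ : Qb, IsPrimitiveRoot ζ r :=
    haveI : NeZero r := ⟨hr.ne_zero⟩
    HasEnoughRootsOfUnity.exists_primitiveRoot Qb r
  have hexp : ∀ g : GQ, ((ExtCitation.cycloExp r g : ℕ) : ZMod r) = ((ε g : ℕ) : ZMod r) := by
    intro g
    have h1 : ζ ^ ExtCitation.cycloExp r g = ζ ^ ε g := by
      rw [← Fermat.Agent.S14.Fields.apply_eq_pow_cycloExp r g hζ.pow_eq_one,
        hε g ζ hζ.pow_eq_one]
    rw [ZMod.natCast_eq_natCast_iff]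
    have e : ∀ n : ℕ, ζ ^ (n % r) = ζ ^ n := fun n => by
      conv_lhs => rw [hζ.eq_orderOf]
      exact pow_mod_orderOf ζ n
    have h2 : ExtCitation.cycloExp r g % r = ε g % r :=
      hζ.pow_inj (Nat.mod_lt _ hr.pos) (Nat.mod_lt _ hr.pos) (by rw [e, e]; exact h1)
    exact h2
  have hmemC : ∀ x : N, x ∈ AddSubgroup.toZModSubmodule r W ↔ x ∈ W :=
    fun x => AddSubgroup.mem_toZModSubmodule r
  have hadm : ExtCitation.IsAdmissibleExtensionCts r N (AddSubgroup.toZModSubmodule r W) := by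
    refine ⟨⟨?_, ?_, ?_, ?_, ?_, ?_, ?_⟩, ?_⟩
    · intro σ x hx
      rw [hmemC] at hx ⊢
      rw [hWfix σ x hx]
      exact hx
    · intro σ x hx
      exact hWfix σ x ((hmemC x).1 hx)
    · intro σ x
      rw [hmemC, hexp σ, Nat.cast_smul_eq_nsmul (ZMod r)]
      exact hquot σ x
    · exact hW
    · rw [hcard, sq]
    · intro ℓ hℓ hℓr A hA σ hσ x
      exact hunr ℓ hℓ hℓr A hA σ hσ x
    · intro A hA
      obtain ⟨W', hW'st, hdisj, hsup⟩ :=
        exists_local_complement hr2 hflat hkill hcard W hW hWfix ε hε hquot hA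
      refine ⟨AddSubgroup.toZModSubmodule r W', fun σ hσ x hx => hW'st σ hσ x hx, ?_⟩
      have hc : IsCompl W W' := by
        rw [isCompl_iff, disjoint_iff, codisjoint_iff]
        exact ⟨hdisj, hsup⟩
      exact (AddSubgroup.toZModSubmodule r).isCompl_iff.1 hc
    · obtain ⟨L, hL, hLfix⟩ := exists_fixingSubgroup_le hflat
      let K : Subgroup GQ :=
        { carrier := {σ : GQ | ∀ v : N, σ • v = v}
          one_mem' := fun v => one_smul _ v
          mul_mem' := by
            intro a b ha hb v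
            rw [mul_smul, hb v, ha v]
          inv_mem' := by
            intro a ha v
            have := congrArg (fun y => a⁻¹ • y) (ha v)
            simpa using this.symm }
      have hle : L.fixingSubgroup ≤ K := fun σ hσ v => hLfix σ hσ v
      exact Subgroup.isOpen_mono hle (IntermediateField.fixingSubgroup_isOpen L)
  obtain ⟨C', hC'st, hcompl⟩ := Fermat.Agent.S14.result h3 N _ hadm
  have h1 := (AddSubgroup.toZModSubmodule r).symm.isCompl_iff.1 hcompl
  have h2 : (AddSubgroup.toZModSubmodule r).symm (AddSubgroup.toZModSubmodule r W) = W :=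
    (AddSubgroup.toZModSubmodule r).symm_apply_apply W
  rw [h2] at h1
  exact ⟨(AddSubgroup.toZModSubmodule r).symm C', fun g w hw => hC'st g w hw,
    disjoint_iff.1 h1.disjoint, codisjoint_iff.1 h1.codisjoint⟩

/-- **THE RANK-TWO SPLITTING** (`r ≥ 3`). -/
theorem rank_two_split (h3 : 3 ≤ r)
    (hflat : FlatModel r N (fun (σ : GQ) (x : N) => σ • x))
    (hunr : ∀ ℓ : ℕ, ℓ.Prime → ℓ ≠ r → ∀ A : ValuationSubring Qb, A.LiesOverPrime ℓ →
      ∀ σ ∈ A.inertiaSubgroupIn ℚ, ∀ x : N, σ • x = x)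
    (hkill : ∀ x : N, r • x = 0) (hcard : Nat.card N = r * r) (W : AddSubgroup N)
    (hW : Nat.card W = r) (hWfix : ∀ g : GQ, ∀ w ∈ W, g • w = w) (ε : GQ → ℕ)
    (hε : ∀ (g : GQ) (z : Qb), z ^ r = 1 → g z = z ^ ε g)
    (hquot : ∀ (g : GQ) (x : N), g • x - ε g • x ∈ W) :
    ∃ W' : AddSubgroup N, (∀ g : GQ, ∀ w ∈ W', g • w ∈ W') ∧ W ⊓ W' = ⊥ ∧ W ⊔ W' = ⊤ := by
  letI : Module (ZMod r) N := AddCommGroup.zmodModule hkill
  have hsm : ∀ (c : ZMod r) (x : N), c • x = c.val • x := zmod_smul_eq hkill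
  haveI : SMulCommClass GQ (ZMod r) N := ⟨fun g c x => by
    rw [hsm, hsm]
    exact (smul_comm c.val g x).symm⟩
  exact rank_two_split_module h3 hflat hunr hkill hcard W hW hWfix ε hε hquot

/-- **(hC) of `AdmStructure95` / the core of `hswap` of `AdmChain79`**: the rank-two splitting for the
class `OkMod r k p` ∧ 'inertia at `p` acts trivially', with `χ := chiModR r`. -/
theorem rank_two_split_okMod (h3 : 3 ≤ r) {k p : ℕ} (hOk : OkMod r k p N)
    (hunrp : ∀ 𝔄 : ValuationSubring Qb, 𝔄.LiesOverPrime p →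
      ∀ σ ∈ 𝔄.inertiaSubgroupIn ℚ, ∀ x : N, σ • x = x)
    (hcard : Nat.card N = r * r) (hkill : ∀ x : N, r • x = 0) (W : AddSubgroup N)
    (hW : Nat.card W = r) (hWfix : ∀ g : GQ, ∀ w ∈ W, g • w = w) (ε : GQ → ℕ)
    (hε : ∀ g : GQ, ((ε g : ℕ) : ZMod r) = chiModR r g)
    (hquot : ∀ (g : GQ) (x : N), g • x - ε g • x ∈ W) :
    ∃ W' : AddSubgroup N, (∀ g : GQ, ∀ w ∈ W', g • w ∈ W') ∧ W ⊓ W' = ⊥ ∧ W ⊔ W' = ⊤ := by
  have hr : r.Prime := Fact.out
  refine rank_two_split h3 hOk.flat ?_ hkill hcard W hW hWfix ε ?_ hquot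
  · intro ℓ hℓ hℓr A hA σ hσ x
    by_cases hℓp : ℓ = p
    · subst hℓp
      exact hunrp A hA σ hσ x
    · exact hOk.unram ℓ hℓ hℓr hℓp A hA σ hσ x
  · intro g z hz
    rw [chiModR_spec r g z hz]
    have h1 : ε g ≡ (chiModR r g).val [MOD r] := by
      rw [← ZMod.natCast_eq_natCast_iff, hε g, ZMod.natCast_zmod_val]
    obtain ⟨a, ha⟩ : ∃ a : ℕ, ε g = (chiModR r g).val + r * a ∨ (chiModR r g).val = ε g + r * a := by
      rcases le_total (chiModR r g).val (ε g) with hle | hle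
      · obtain ⟨a, ha⟩ := (Nat.modEq_iff_dvd' hle).1 h1.symm
        exact ⟨a, Or.inl (by omega)⟩
      · obtain ⟨a, ha⟩ := (Nat.modEq_iff_dvd' hle).1 h1
        exact ⟨a, Or.inr (by omega)⟩
    rcases ha with ha | ha
    · rw [ha, pow_add, pow_mul, hz, one_pow, mul_one]
    · rw [ha, pow_add, pow_mul, hz, one_pow, mul_one]

end Fermat.Agent.MAZ.PT.AdmSplit19
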