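/-
MAZ (S15), G-side, pole P1 (PT-GAL, helper62 #2215), bricks (G1)+(G2), abstract core (helper95):
**a finite Eisenstein Galois module which is admissible over all of `Spec ℤ` is an extension of a
constant group by a `μ`-type group, and the Eisenstein ideal kills it.**
Mathlib + `EisFiltration19` + `Devissage95` (actions on sub/quotients); abstract group `G`.

`C : SubQuotClass G` is a class of `G`-modules closed under stable subgroups and quotients (think:
finite, killed by `r ^ k`, unramified outside `r`, flat at `r`).  `ε : G → ℕ` represents the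
`r ^ k`-cyclotomic character (`(ε g : ZMod r) = χ g`), `muPart ε N = {x | ∀ g, g • x = ε g • x}`.
Three inputs:
* `ConstByConst` : in the class, an extension of a constant group by a constant group is constant
  (Minkowski);
* `MuByMu` : in the class, an extension of a `μ`-type group by a `μ`-type group is `μ`-type
  (Cartier dual of the former);
* `RankTwoSplit` : in the class, an extension of `μ_r` by `ℤ/r` (order `r²`, killed by `r`) splits
  (S14).
Then (`const_mod_muPart`) for every `N` in the class with Eichler–Shimura data, `G` acts trivially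
on `N ⧸ muPart ε N`, and (`eis_kills`) `τ g • x = x + δ g • x` for all `g`, `x`: the Eisenstein
ideal `(T_ℓ - 1 - ℓ)` kills `N`.
-/
import Mathlib
import Fermat.Agent.MAZ.Desc.Devissage95

set_option autoImplicit false
set_option linter.style.haveILetI false

namespace Fermat.Agent.MAZ.PT.AdmStructure95

open Fermat.Agent.MAZ.Desc.EisFiltration19 Fermat.Agent.MAZ.Desc.Devissage95

universe u

variable {G : Type*} [Group G]

/-! ### Actions on stable subgroups and quotients -/

section Actions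

variable {Y : Type*} [AddCommGroup Y] [DistribMulAction G Y]

/-- the `G`-action on a `G`-stable subgroup. -/
@[instance_reducible]
def subAct (S : AddSubgroup Y) (hS : ∀ (g : G), ∀ s ∈ S, g • s ∈ S) : DistribMulAction G S where
  smul g s := ⟨g • (s : Y), hS g s s.2⟩
  one_smul s := Subtype.ext (one_smul G (s : Y))
  mul_smul g h s := Subtype.ext (mul_smul g h (s : Y))
  smul_zero g := Subtype.ext (smul_zero g)
  smul_add g a b := Subtype.ext (smul_add g (a : Y) b)

/-- the map induced by `g` on the quotient by a `G`-stable subgroup. -/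
def quotMapA (S : AddSubgroup Y) (hS : ∀ (g : G), ∀ s ∈ S, g • s ∈ S) (g : G) : Y ⧸ S →+ Y ⧸ S :=
  QuotientAddGroup.map S S (DistribSMul.toAddMonoidHom Y g) (fun s hs => hS g s hs)

theorem quotMapA_mk (S : AddSubgroup Y) (hS : ∀ (g : G), ∀ s ∈ S, g • s ∈ S) (g : G) (x : Y) :
    quotMapA S hS g (QuotientAddGroup.mk x) = QuotientAddGroup.mk (g • x) := rfl

/-- the `G`-action on the quotient by a `G`-stable subgroup. -/
@[instance_reducible]
def quotAct (S : AddSubgroup Y) (hS : ∀ (g : G), ∀ s ∈ S, g • s ∈ S) :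
    DistribMulAction G (Y ⧸ S) where
  smul g := quotMapA S hS g
  one_smul x := by
    obtain ⟨x, rfl⟩ := QuotientAddGroup.mk_surjective x
    change quotMapA S hS 1 (QuotientAddGroup.mk x) = _
    rw [quotMapA_mk, one_smul]
  mul_smul g h x := by
    obtain ⟨x, rfl⟩ := QuotientAddGroup.mk_surjective x
    change quotMapA S hS (g * h) (QuotientAddGroup.mk x) =
      quotMapA S hS g (quotMapA S hS h (QuotientAddGroup.mk x))
    rw [quotMapA_mk, quotMapA_mk, quotMapA_mk, mul_smul]
  smul_zero g := map_zero (quotMapA S hS g)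
  smul_add g a b := map_add (quotMapA S hS g) a b

theorem quotAct_smul_mk (S : AddSubgroup Y) (hS : ∀ (g : G), ∀ s ∈ S, g • s ∈ S) (g : G) (x : Y) :
    letI := quotAct S hS
    g • (QuotientAddGroup.mk x : Y ⧸ S) = QuotientAddGroup.mk (g • x) := rfl

end Actions

/-! ### The class and the `μ`-type part -/

/-- A class of `G`-modules of the universe `u` closed under stable subgroups and quotients. -/
structure SubQuotClass (G : Type*) [Group G] where
  Ok : ∀ (N : Type u) [AddCommGroup N] [DistribMulAction G N], Prop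
  ok_sub : ∀ {N N' : Type u} [AddCommGroup N] [DistribMulAction G N] [AddCommGroup N']
    [DistribMulAction G N'] (f : N →+ N'), (∀ (σ : G) (x : N), f (σ • x) = σ • f x) →
    Function.Injective f → Ok N' → Ok N
  ok_quot : ∀ {N N' : Type u} [AddCommGroup N] [DistribMulAction G N] [AddCommGroup N']
    [DistribMulAction G N'] (f : N →+ N'), (∀ (σ : G) (x : N), f (σ • x) = σ • f x) →
    Function.Surjective f → Ok N → Ok N'

/-- the `μ`-type part: the elements on which `G` acts through the integers `ε g`. -/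
def muPart (ε : G → ℕ) (N : Type*) [AddCommGroup N] [DistribMulAction G N] : AddSubgroup N where
  carrier := {x | ∀ g : G, g • x = ε g • x}
  zero_mem' := fun g => by rw [smul_zero, smul_zero]
  add_mem' := fun {a b} ha hb g => by rw [smul_add, ha g, hb g, smul_add]
  neg_mem' := fun {a} ha g => by rw [smul_neg, ha g, smul_neg]

theorem mem_muPart {ε : G → ℕ} {N : Type*} [AddCommGroup N] [DistribMulAction G N] {x : N} :
    x ∈ muPart ε N ↔ ∀ g : G, g • x = ε g • x := Iff.rfl

theorem smul_mem_muPart {ε : G → ℕ} {N : Type*} [AddCommGroup N] [DistribMulAction G N] (h : G)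
    {x : N} (hx : x ∈ muPart ε N) : h • x ∈ muPart ε N := by
  rw [hx h]
  exact (muPart ε N).nsmul_mem hx _

/-- in the class, an extension of a constant group by a constant group is constant. -/
def ConstByConst (C : SubQuotClass.{u} G) : Prop :=
  ∀ (N : Type u) [AddCommGroup N] [DistribMulAction G N] [Finite N], C.Ok N →
    ∀ W : AddSubgroup N, (∀ (g : G), ∀ w ∈ W, g • w = w) → (∀ (g : G) (x : N), g • x - x ∈ W) →
      ∀ (g : G) (x : N), g • x = x

/-- in the class, an extension of a `μ`-type group by a `μ`-type group is `μ`-type. -/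
def MuByMu (C : SubQuotClass.{u} G) (ε : G → ℕ) : Prop :=
  ∀ (N : Type u) [AddCommGroup N] [DistribMulAction G N] [Finite N], C.Ok N →
    ∀ W : AddSubgroup N, (∀ (g : G), ∀ w ∈ W, g • w = ε g • w) →
      (∀ (g : G) (x : N), g • x - ε g • x ∈ W) → ∀ (g : G) (x : N), g • x = ε g • x

/-- in the class, an extension of `μ_r` by `ℤ/r` splits. -/
def RankTwoSplit (C : SubQuotClass.{u} G) (ε : G → ℕ) (r : ℕ) : Prop :=
  ∀ (N : Type u) [AddCommGroup N] [DistribMulAction G N] [Finite N], C.Ok N →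
    Nat.card N = r * r → (∀ x : N, r • x = 0) →
    ∀ W : AddSubgroup N, Nat.card W = r → (∀ (g : G), ∀ w ∈ W, g • w = w) →
      (∀ (g : G) (x : N), g • x - ε g • x ∈ W) →
      ∃ W' : AddSubgroup N, (∀ (g : G), ∀ w ∈ W', g • w ∈ W') ∧ W ⊓ W' = ⊥ ∧ W ⊔ W' = ⊤

/-! ### Elementary lemmas -/

section Elem

variable {r : ℕ} [hr : Fact r.Prime]

/-- on an element killed by `r`, multiplication by an integer only depends on its class mod `r`. -/
theorem nsmul_eq_of_cast_eq {N : Type*} [AddCommGroup N] {x : N} (hx : r • x = 0) {a b : ℕ}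
    (hab : (a : ZMod r) = (b : ZMod r)) : a • x = b • x := by
  have key : ∀ c : ℕ, c • x = (c % r) • x := by
    intro c
    conv_lhs => rw [← Nat.mod_add_div c r, add_nsmul, mul_nsmul, hx, smul_zero, add_zero]
  have hmod : a % r = b % r := (ZMod.natCast_eq_natCast_iff a b r).1 hab
  rw [key a, key b, hmod]

/-- an element of a group of order `r` fixed by an integer `≢ 1 mod r` is zero. -/
theorem eq_zero_of_nsmul_eq_self {N : Type*} [AddCommGroup N] {z : N} (hz : r • z = 0) {e : ℕ}
    (he : (e : ZMod r) ≠ 1) (h : e • z = z) : z = 0 := by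
  by_contra hne
  have hord : addOrderOf z = r := addOrderOf_eq_prime hz hne
  have h1 : e • z = 1 • z := by rw [h, one_smul]
  have h2 := (nsmul_eq_nsmul_iff_modEq (x := z)).1 h1
  rw [hord] at h2
  apply he
  have := (ZMod.natCast_eq_natCast_iff e 1 r).2 h2
  rwa [Nat.cast_one] at this

end Elem

/-! ### The general splitting: `ℤ/r` below a `μ`-type group -/

section Split

variable {r : ℕ} [hr : Fact r.Prime] {χ : G →* ZMod r}

/-- **General splitting.**  In the class, if `W ≅ ℤ/r` is a constant subgroup of `Y` and `G` acts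
on `Y ⧸ W` through `ε`, then `Y = W + muPart ε Y`. -/
theorem split_of_mu_quot (C : SubQuotClass.{u} G) (ε : G → ℕ) (hε : ∀ g, (ε g : ZMod r) = χ g)
    (hχ : ∃ g, χ g ≠ 1) (hB : MuByMu C ε) (hC : RankTwoSplit C ε r) :
    ∀ (n : ℕ) (Y : Type u) [AddCommGroup Y] [DistribMulAction G Y] [Finite Y], Nat.card Y ≤ n →
      C.Ok Y → (∀ y : Y, ∃ j : ℕ, r ^ j • y = 0) →
      ∀ W : AddSubgroup Y, (∀ (g : G), ∀ w ∈ W, g • w = w) → Nat.card W = r →
        (∀ (g : G) (y : Y), g • y - ε g • y ∈ W) →
        ∀ y : Y, ∃ w ∈ W, ∃ u ∈ muPart ε Y, y = w + u := by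
  intro n
  induction n with
  | zero =>
    intro Y _ _ _ hn
    have := Nat.card_pos (α := Y)
    omega
  | succ n ih =>
    intro Y _ _ _ hn hOk htors W hWtriv hWr hWmu y
    by_cases hall : ∀ y : Y, y ∈ W
    · exact ⟨y, hall y, 0, (muPart ε Y).zero_mem, (add_zero y).symm⟩
    rw [not_forall] at hall
    obtain ⟨y₁, hy₁⟩ := hall
    obtain ⟨g₀, hg₀⟩ := hχ
    have hWkill : ∀ w ∈ W, r • w = 0 := by
      intro w hw
      have := card_nsmul_eq_zero' (G := W) (x := ⟨w, hw⟩)
      rw [hWr] at this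
      exact congrArg Subtype.val this
    have hWst : ∀ (g : G), ∀ w ∈ W, g • w ∈ W := fun g w hw => by rw [hWtriv g w hw]; exact hw
    -- `y₀ ∉ W` with `r • y₀ ∈ W`
    obtain ⟨y₀, hy₀, hry₀⟩ : ∃ y₀ : Y, y₀ ∉ W ∧ r • y₀ ∈ W := by
      obtain ⟨j, hj⟩ := htors y₁
      have hex : ∃ j : ℕ, r ^ j • y₁ ∈ W := ⟨j, by rw [hj]; exact W.zero_mem⟩
      classical
      have hj₀W : r ^ (Nat.find hex) • y₁ ∈ W := Nat.find_spec hex
      have hj₀pos : Nat.find hex ≠ 0 := by
        intro h0
        rw [h0, pow_zero, one_smul] at hj₀W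
        exact hy₁ hj₀W
      obtain ⟨i, hi⟩ := Nat.exists_eq_succ_of_ne_zero hj₀pos
      refine ⟨r ^ i • y₁, Nat.find_min hex (by omega), ?_⟩
      rw [← mul_nsmul', ← pow_succ', ← Nat.succ_eq_add_one, ← hi]
      exact hj₀W
    -- the quotient `Y ⧸ W` and the line spanned by `y₀`
    letI iQ : DistribMulAction G (Y ⧸ W) := quotAct W hWst
    set q : Y →+ Y ⧸ W := QuotientAddGroup.mk' W with hq_def
    have hq_eq : ∀ (g : G) (x : Y), q (g • x) = g • q x := fun _ _ => rfl
    have hq0 : ∀ x, q x = 0 ↔ x ∈ W := fun x => QuotientAddGroup.eq_zero_iff x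
    have hqy₀ : q y₀ ≠ 0 := fun h => hy₀ ((hq0 y₀).1 h)
    have hrqy₀ : r • q y₀ = 0 := by rw [← map_nsmul, hq0]; exact hry₀
    have hord : addOrderOf (q y₀) = r := addOrderOf_eq_prime hrqy₀ hqy₀
    have hgq : ∀ g : G, g • q y₀ = ε g • q y₀ := by
      intro g
      rw [← hq_eq, ← map_nsmul, ← sub_eq_zero, ← map_sub, hq0]
      exact hWmu g y₀
    set V : AddSubgroup Y := (AddSubgroup.zmultiples (q y₀)).comap q with hV_def
    have hVmem : ∀ x, x ∈ V ↔ ∃ m : ℤ, m • q y₀ = q x := fun x => AddSubgroup.mem_zmultiples_iff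
    have hWV : W ≤ V := by
      intro w hw
      rw [hVmem]
      exact ⟨0, by rw [zero_smul, (hq0 w).2 hw]⟩
    have hy₀V : y₀ ∈ V := (hVmem y₀).2 ⟨1, one_smul _ _⟩
    have hVst : ∀ (g : G), ∀ x ∈ V, g • x ∈ V := by
      intro g x hx
      obtain ⟨m, hm⟩ := (hVmem x).1 hx
      rw [hVmem]
      refine ⟨m * (ε g : ℤ), ?_⟩
      rw [hq_eq, ← hm, mul_smul, natCast_zsmul, ← hgq g]
      exact ((DistribSMul.toAddMonoidHom (Y ⧸ W) g).map_zsmul m (q y₀)).symm
    -- `#V = r * r`
    have hVcard : Nat.card V = r * r := by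
      have h1 := AddSubgroup.card_mul_index V
      have h2 := AddSubgroup.card_mul_index (AddSubgroup.zmultiples (q y₀))
      have h3 : V.index = (AddSubgroup.zmultiples (q y₀)).index :=
        AddSubgroup.index_comap_of_surjective _ (QuotientAddGroup.mk'_surjective W)
      have h4 := AddSubgroup.card_eq_card_quotient_mul_card_addSubgroup W
      rw [Nat.card_zmultiples, hord] at h2
      rw [hWr] at h4
      have hpos : 0 < V.index := by
        rw [Nat.pos_iff_ne_zero]
        exact AddSubgroup.index_ne_zero_of_finite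
      have : Nat.card V * V.index = r * r * V.index := by
        rw [h1, h4, ← h2, h3]
        ring
      exact Nat.eq_of_mul_eq_mul_right hpos this
    -- `V` is killed by `r`
    have hVkill : ∀ x ∈ V, r • x = 0 := by
      intro x hx
      obtain ⟨m, hm⟩ := (hVmem x).1 hx
      have hrxW : r • x ∈ W := by
        rw [← hq0, map_nsmul, ← hm, smul_comm, hrqy₀, smul_zero]
      have hfix : ε g₀ • (r • x) = r • x := by
        have h1 : g₀ • (r • x) = r • x := hWtriv g₀ _ hrxW
        have h2 : g₀ • x - ε g₀ • x ∈ W := hWmu g₀ x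
        have h3 : r • (g₀ • x - ε g₀ • x) = 0 := hWkill _ h2
        rw [smul_sub, sub_eq_zero] at h3
        rw [smul_comm (ε g₀) r x, ← h3, ← h1]
        exact (smul_comm g₀ r x).symm
      exact eq_zero_of_nsmul_eq_self (hWkill _ hrxW) (by rw [hε]; exact hg₀) hfix
    -- the rank-two splitting inside `V`
    letI iV : DistribMulAction G V := subAct V hVst
    have hOkV : C.Ok V := C.ok_sub V.subtype (fun _ _ => rfl) V.subtype_injective hOk
    set WV : AddSubgroup V := W.addSubgroupOf V with hWV_def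
    have hWVcard : Nat.card WV = r := by
      rw [← hWr]
      exact Nat.card_congr (AddSubgroup.addSubgroupOfEquivOfLe hWV).toEquiv
    obtain ⟨W', hW'st, hW'inf, hW'sup⟩ := hC V hOkV hVcard
      (fun x => Subtype.ext (hVkill x x.2)) WV hWVcard
      (fun g w hw => Subtype.ext (hWtriv g w hw))
      (fun g x => hWmu g x)
    -- the complement as a subgroup of `Y`
    set V'' : AddSubgroup Y := W'.map V.subtype with hV''_def
    have hV''mem : ∀ x, x ∈ V'' ↔ ∃ v ∈ W', (v : Y) = x := fun x => AddSubgroup.mem_map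
    have hV''st : ∀ (g : G), ∀ x ∈ V'', g • x ∈ V'' := by
      rintro g _ ⟨v, hv, rfl⟩
      exact ⟨g • v, hW'st g v hv, rfl⟩
    have hV''W : ∀ x, x ∈ V'' → x ∈ W → x = 0 := by
      rintro _ ⟨v, hv, rfl⟩ hW
      have : v ∈ WV ⊓ W' := ⟨hW, hv⟩
      rw [hW'inf, AddSubgroup.mem_bot] at this
      rw [this]
      rfl
    have hV''mu : V'' ≤ muPart ε Y := by
      intro v hv g
      have h1 : g • v - ε g • v ∈ W := hWmu g v
      have h2 : g • v - ε g • v ∈ V'' := V''.sub_mem (hV''st g v hv) (V''.nsmul_mem hv _)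
      exact sub_eq_zero.1 (hV''W _ h2 h1)
    have hV''ne : ∃ v ∈ V'', v ≠ 0 := by
      have : (⟨y₀, hy₀V⟩ : V) ∈ WV ⊔ W' := by rw [hW'sup]; exact AddSubgroup.mem_top _
      obtain ⟨a, ha, b, hb, hab⟩ := AddSubgroup.mem_sup.1 this
      refine ⟨(b : Y), ⟨b, hb, rfl⟩, fun hb0 => hy₀ ?_⟩
      have : (a : Y) + (b : Y) = y₀ := congrArg Subtype.val hab
      rw [hb0, add_zero] at this
      rw [← this]
      exact ha
    -- the quotient `Y ⧸ V''`
    letI iQ₁ : DistribMulAction G (Y ⧸ V'') := quotAct V'' hV''st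
    set q₁ : Y →+ Y ⧸ V'' := QuotientAddGroup.mk' V'' with hq₁_def
    have hq₁_eq : ∀ (g : G) (x : Y), q₁ (g • x) = g • q₁ x := fun _ _ => rfl
    have hq₁0 : ∀ x, q₁ x = 0 ↔ x ∈ V'' := fun x => QuotientAddGroup.eq_zero_iff x
    have hq₁surj : Function.Surjective q₁ := QuotientAddGroup.mk'_surjective V''
    have hcard₁ : Nat.card (Y ⧸ V'') ≤ n := by
      have h1 := AddSubgroup.card_eq_card_quotient_mul_card_addSubgroup V''
      have h2 : 2 ≤ Nat.card V'' := by
        obtain ⟨v, hv, hv0⟩ := hV''ne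
        have : Nontrivial V'' := ⟨⟨⟨v, hv⟩, 0, fun h => hv0 (congrArg Subtype.val h)⟩⟩
        exact Finite.one_lt_card
      have h3 : 0 < Nat.card (Y ⧸ V'') := Nat.card_pos
      have : 2 * Nat.card (Y ⧸ V'') ≤ Nat.card (Y ⧸ V'') * Nat.card V'' := by
        rw [mul_comm]
        exact Nat.mul_le_mul_left _ h2
      omega
    have hOk₁ : C.Ok (Y ⧸ V'') := C.ok_quot q₁ hq₁_eq hq₁surj hOk
    have htors₁ : ∀ z : Y ⧸ V'', ∃ j : ℕ, r ^ j • z = 0 := by
      intro z
      obtain ⟨x, rfl⟩ := hq₁surj z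
      obtain ⟨j, hj⟩ := htors x
      exact ⟨j, by rw [← map_nsmul, hj, map_zero]⟩
    set W₁ : AddSubgroup (Y ⧸ V'') := W.map q₁ with hW₁_def
    have hW₁triv : ∀ (g : G), ∀ w ∈ W₁, g • w = w := by
      rintro g _ ⟨w, hw, rfl⟩
      rw [← hq₁_eq, hWtriv g w hw]
    have hW₁card : Nat.card W₁ = r := by
      rw [← hWr]
      refine (Nat.card_eq_of_bijective
        (fun w : W => (⟨q₁ w, ⟨w, w.2, rfl⟩⟩ : W₁)) ⟨fun a b hab => ?_, ?_⟩).symm
      · have h1 : q₁ (a : Y) = q₁ (b : Y) := congrArg Subtype.val hab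
        have h2 : q₁ ((a : Y) - (b : Y)) = 0 := by rw [map_sub, h1, sub_self]
        have h3 := hV''W _ ((hq₁0 _).1 h2) (W.sub_mem a.2 b.2)
        exact Subtype.ext (sub_eq_zero.1 h3)
      · rintro ⟨_, w, hw, rfl⟩
        exact ⟨⟨w, hw⟩, rfl⟩
    have hW₁mu : ∀ (g : G) (z : Y ⧸ V''), g • z - ε g • z ∈ W₁ := by
      intro g z
      obtain ⟨x, rfl⟩ := hq₁surj z
      exact ⟨g • x - ε g • x, hWmu g x, by rw [map_sub, map_nsmul, hq₁_eq]⟩
    obtain ⟨wb, hwb, ub, hub, hyub⟩ := ih (Y ⧸ V'') hcard₁ hOk₁ htors₁ W₁ hW₁triv hW₁card hW₁mu (q₁ y)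
    obtain ⟨w, hw, rfl⟩ := hwb
    -- the preimage of the `μ`-type part is `μ`-type
    set P : AddSubgroup Y := (muPart ε (Y ⧸ V'')).comap q₁ with hP_def
    have hPst : ∀ (g : G), ∀ x ∈ P, g • x ∈ P := by
      intro g x hx
      change q₁ (g • x) ∈ muPart ε (Y ⧸ V'')
      rw [hq₁_eq]
      exact smul_mem_muPart g hx
    letI iP : DistribMulAction G P := subAct P hPst
    have hOkP : C.Ok P := C.ok_sub P.subtype (fun _ _ => rfl) P.subtype_injective hOk
    have hPmu : ∀ (g : G) (x : P), g • x = ε g • x := by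
      refine hB P hOkP (V''.addSubgroupOf P) (fun g v hv => Subtype.ext ?_) (fun g x => ?_)
      · exact hV''mu hv g
      · change g • (x : Y) - ε g • (x : Y) ∈ V''
        rw [← hq₁0, map_sub, map_nsmul, hq₁_eq, sub_eq_zero]
        exact x.2 g
    have hu₁P : y - w ∈ P := by
      change q₁ (y - w) ∈ muPart ε (Y ⧸ V'')
      rw [map_sub, hyub, add_sub_cancel_left]
      exact hub
    refine ⟨w, hw, y - w, fun g => ?_, (add_sub_cancel w y).symm⟩
    exact congrArg Subtype.val (hPmu g ⟨y - w, hu₁P⟩)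

end Split

/-! ### The structure theorem and the Eisenstein ideal -/

section Main

variable {T : Type*} [CommRing T] {r : ℕ} [hr : Fact r.Prime] {π : T →+* ZMod r}
  {χ : G →* ZMod r} {τ δ : G → T}

/-- a module with Eichler–Shimura data is an `r`-group. -/
theorem exists_pow_nsmul_eq_zero {N : Type*} [AddCommGroup N] [DistribMulAction G N] [Module T N]
    (E : EisData π χ τ δ N) : ∃ m : ℕ, ∀ x : N, r ^ m • x = 0 := by
  obtain ⟨m, hm⟩ := E.nil
  refine ⟨m, fun x => ?_⟩
  have hr : (r : T) ∈ RingHom.ker π := by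
    rw [RingHom.mem_ker, map_natCast, ZMod.natCast_self]
  have h1 := hm _ (Ideal.pow_mem_pow hr m) x
  rw [← Nat.cast_pow, Nat.cast_smul_eq_nsmul] at h1
  exact h1

/-- the induction for `const_mod_muPart`. -/
theorem const_mod_muPart_aux (C : SubQuotClass.{u} G) (ε : G → ℕ)
    (hε : ∀ g, (ε g : ZMod r) = χ g) (hχ : ∃ g, χ g ≠ 1) (hA : ConstByConst C)
    (hB : MuByMu C ε) (hC : RankTwoSplit C ε r) :
    ∀ (n : ℕ) (N : Type u) [AddCommGroup N] [DistribMulAction G N] [Module T N]
      [SMulCommClass G T N] [Finite N], Nat.card N ≤ n → C.Ok N → EisData π χ τ δ N →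
      ∀ (g : G) (x : N), g • x - x ∈ muPart ε N := by
  intro n
  induction n with
  | zero =>
    intro N _ _ _ _ _ hn
    have := Nat.card_pos (α := N)
    omega
  | succ n ih =>
    intro N _ _ _ _ _ hn hOk E g x
    rcases subsingleton_or_nontrivial N with hs | hnt
    · have : g • x - x = 0 := Subsingleton.elim _ _
      rw [this]
      exact (muPart ε N).zero_mem
    obtain ⟨W₀, -, hWst, hWr, -, hWact⟩ := exists_rank_one_sub E
    haveI : NeZero r := ⟨hr.out.ne_zero⟩
    have hWr' : Nat.card (toSub W₀ hWst) = r := hWr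
    letI iQ : DistribMulAction G (N ⧸ toSub W₀ hWst) := quotDMA (toSub W₀ hWst) hWst.1
    haveI := quot_smulCommClass (toSub W₀ hWst) hWst.1
    haveI : Finite (N ⧸ toSub W₀ hWst) := Finite.of_surjective _ (toSub W₀ hWst).mkQ_surjective
    have EQ : EisData π χ τ δ (N ⧸ toSub W₀ hWst) := eisData_quot (toSub W₀ hWst) hWst.1 E
    set p : N →+ N ⧸ toSub W₀ hWst := (toSub W₀ hWst).mkQ.toAddMonoidHom with hp_def
    have hp_eq : ∀ (g : G) (x : N), p (g • x) = g • p x := fun _ _ => rfl
    have hp0 : ∀ x, p x = 0 ↔ x ∈ W₀ := fun x => Submodule.Quotient.mk_eq_zero (toSub W₀ hWst)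
    have hOkQ : C.Ok (N ⧸ toSub W₀ hWst) :=
      C.ok_quot p hp_eq (toSub W₀ hWst).mkQ_surjective hOk
    have hcardQ : Nat.card (N ⧸ toSub W₀ hWst) ≤ n := by
      have hc := Submodule.card_eq_card_quotient_mul_card (toSub W₀ hWst)
      rw [hWr'] at hc
      have hr2 : 2 ≤ r := hr.out.two_le
      have hq : 0 < Nat.card (N ⧸ toSub W₀ hWst) := Nat.card_pos
      have : 2 * Nat.card (N ⧸ toSub W₀ hWst) ≤ r * Nat.card (N ⧸ toSub W₀ hWst) :=
        Nat.mul_le_mul_right _ hr2
      omega
    have IH := ih (N ⧸ toSub W₀ hWst) hcardQ hOkQ EQ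
    -- the preimage of the `μ`-type part of the quotient
    set Y' : AddSubgroup N := (muPart ε (N ⧸ toSub W₀ hWst)).comap p with hY'_def
    have hY' : ∀ (g : G) (x : N), g • x - x ∈ Y' := by
      intro g x
      change p (g • x - x) ∈ muPart ε (N ⧸ toSub W₀ hWst)
      rw [map_sub, hp_eq]
      exact IH g (p x)
    have hY'st : ∀ (g : G), ∀ x ∈ Y', g • x ∈ Y' := by
      intro g x hx
      change p (g • x) ∈ muPart ε (N ⧸ toSub W₀ hWst)
      rw [hp_eq]
      exact smul_mem_muPart g hx
    have hW₀Y' : W₀ ≤ Y' := by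
      intro w hw
      change p w ∈ muPart ε (N ⧸ toSub W₀ hWst)
      rw [(hp0 w).2 hw]
      exact (muPart ε _).zero_mem
    have hY'mu : ∀ (g : G), ∀ x ∈ Y', g • x - ε g • x ∈ W₀ := by
      intro g x hx
      rw [← hp0, map_sub, map_nsmul, hp_eq, sub_eq_zero]
      exact hx g
    have hWkill : ∀ w ∈ W₀, r • w = 0 := by
      intro w hw
      have := card_nsmul_eq_zero' (G := W₀) (x := ⟨w, hw⟩)
      rw [hWr] at this
      exact congrArg Subtype.val this
    letI iY' : DistribMulAction G Y' := subAct Y' hY'st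
    have hOkY' : C.Ok Y' := C.ok_sub Y'.subtype (fun _ _ => rfl) Y'.subtype_injective hOk
    have hWY'card : Nat.card (W₀.addSubgroupOf Y') = r := by
      rw [← hWr]
      exact Nat.card_congr (AddSubgroup.addSubgroupOfEquivOfLe hW₀Y').toEquiv
    rcases hWact with htriv | hchi
    · -- `W₀` constant: split `Y'`, then `N ⧸ muPart` is constant
      obtain ⟨m, hm⟩ := exists_pow_nsmul_eq_zero E
      have hsplit := split_of_mu_quot C ε hε hχ hB hC (Nat.card Y') Y' le_rfl hOkY'
        (fun y => ⟨m, Subtype.ext (hm (y : N))⟩) (W₀.addSubgroupOf Y')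
        (fun g w hw => Subtype.ext (htriv g w hw)) hWY'card (fun g y => hY'mu g y y.2)
      have hY'sub : ∀ y ∈ Y', ∃ w ∈ W₀, ∃ u ∈ muPart ε N, y = w + u := by
        intro y hy
        obtain ⟨w, hw, u, hu, hyu⟩ := hsplit ⟨y, hy⟩
        exact ⟨w, hw, u, fun g => congrArg Subtype.val (hu g), congrArg Subtype.val hyu⟩
      have hUst : ∀ (g : G), ∀ u ∈ muPart ε N, g • u ∈ muPart ε N :=
        fun g u hu => smul_mem_muPart g hu
      letI iQ₂ : DistribMulAction G (N ⧸ muPart ε N) := quotAct (muPart ε N) hUst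
      set q₂ : N →+ N ⧸ muPart ε N := QuotientAddGroup.mk' (muPart ε N) with hq₂_def
      have hq₂_eq : ∀ (g : G) (x : N), q₂ (g • x) = g • q₂ x := fun _ _ => rfl
      have hq₂surj : Function.Surjective q₂ := QuotientAddGroup.mk'_surjective _
      have hOk₂ : C.Ok (N ⧸ muPart ε N) := C.ok_quot q₂ hq₂_eq hq₂surj hOk
      have key := hA (N ⧸ muPart ε N) hOk₂ (W₀.map q₂)
        (by
          rintro g _ ⟨w, hw, rfl⟩
          rw [← hq₂_eq, htriv g w hw])
        (by
          intro g z
          obtain ⟨y, rfl⟩ := hq₂surj z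
          obtain ⟨w, hw, u, hu, hyu⟩ := hY'sub _ (hY' g y)
          refine ⟨w, hw, ?_⟩
          rw [← hq₂_eq, ← map_sub, hyu, map_add]
          have : q₂ u = 0 := (QuotientAddGroup.eq_zero_iff u).2 hu
          rw [this, add_zero])
      have h1 := key g (q₂ x)
      rw [← hq₂_eq, ← sub_eq_zero, ← map_sub] at h1
      exact (QuotientAddGroup.eq_zero_iff _).1 h1
    · -- `W₀` of `μ`-type: `Y'` is `μ`-type
      have hY'all : ∀ (g : G) (y : Y'), g • y = ε g • y := by
        refine hB Y' hOkY' (W₀.addSubgroupOf Y') (fun g w hw => Subtype.ext ?_)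
          (fun g y => hY'mu g y y.2)
        change g • (w : N) = ε g • (w : N)
        rw [hchi g w hw]
        refine nsmul_eq_of_cast_eq (hWkill _ hw) ?_
        rw [ZMod.natCast_zmod_val, hε]
      intro g'
      exact congrArg Subtype.val (hY'all g' ⟨g • x - x, hY' g x⟩)

/-- **(G1) The structure theorem.**  In a class of `G`-modules closed under stable subgroups and
quotients, with `ConstByConst`, `MuByMu`, `RankTwoSplit`: for every finite module `N` of the class
with Eichler–Shimura data, `G` acts trivially on `N ⧸ muPart ε N`. -/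
theorem const_mod_muPart (C : SubQuotClass.{u} G) (ε : G → ℕ) (hε : ∀ g, (ε g : ZMod r) = χ g)
    (hχ : ∃ g, χ g ≠ 1) (hA : ConstByConst C) (hB : MuByMu C ε) (hC : RankTwoSplit C ε r)
    (N : Type u) [AddCommGroup N] [DistribMulAction G N] [Module T N] [SMulCommClass G T N]
    [Finite N] (hOk : C.Ok N) (E : EisData π χ τ δ N) (g : G) (x : N) :
    g • x - x ∈ muPart ε N :=
  const_mod_muPart_aux C ε hε hχ hA hB hC (Nat.card N) N le_rfl hOk E g x

/-- **(G2) The Eisenstein ideal kills such a module**: `τ g = 1 + δ g` on `N` (for `g` a Frobenius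
at `ℓ`: `T_ℓ = 1 + ℓ`). -/
theorem eis_kills (C : SubQuotClass.{u} G) (ε : G → ℕ) (hε : ∀ g, (ε g : ZMod r) = χ g)
    (hχ : ∃ g, χ g ≠ 1) (hA : ConstByConst C) (hB : MuByMu C ε) (hC : RankTwoSplit C ε r)
    (N : Type u) [AddCommGroup N] [DistribMulAction G N] [Module T N] [SMulCommClass G T N]
    [Finite N] (hOk : C.Ok N) (E : EisData π χ τ δ N)
    (hδ : ∀ (g : G) (x : N), δ g • x = ε g • x) (g : G) (x : N) :
    τ g • x = x + δ g • x := by
  -- `δ g` is injective on `N`
  have hinj : ∀ y : N, δ g • y = 0 → y = 0 := by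
    intro y hy
    rw [hδ] at hy
    obtain ⟨m, hm⟩ := exists_pow_nsmul_eq_zero E
    have hχg : χ g ≠ 0 := ((Group.isUnit g).map χ).ne_zero
    have hndvd : ¬ r ∣ ε g := by
      intro hdvd
      apply hχg
      rw [← hε, ZMod.natCast_eq_zero_iff]
      exact hdvd
    have hcop : Nat.Coprime (r ^ m) (ε g) :=
      Nat.Coprime.pow_left m ((Nat.Prime.coprime_iff_not_dvd hr.out).2 hndvd)
    have h1 : addOrderOf y ∣ r ^ m := addOrderOf_dvd_of_nsmul_eq_zero (hm y)
    have h2 : addOrderOf y ∣ ε g := addOrderOf_dvd_of_nsmul_eq_zero hy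
    have h3 : addOrderOf y ∣ 1 := by
      rw [← hcop.gcd_eq_one]
      exact Nat.dvd_gcd h1 h2
    exact AddMonoid.addOrderOf_eq_one_iff.1 (Nat.dvd_one.1 h3)
  -- on the `μ`-type part
  have hU : ∀ u ∈ muPart ε N, τ g • u = u + δ g • u := by
    intro u hu
    have hgu : g • u = δ g • u := by rw [hu g, hδ]
    have h1 := E.rel g u
    rw [hgu, smul_comm g (δ g) u, hgu] at h1
    have h1' : δ g • (δ g • u - τ g • u + u) = 0 := by
      rw [smul_add, smul_sub, smul_comm (δ g) (τ g) u]
      exact h1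
    have h2 := hinj _ h1'
    have h3 : τ g • u - (u + δ g • u) = -(δ g • u - τ g • u + u) := by abel
    rw [h2, neg_zero] at h3
    exact sub_eq_zero.1 h3
  have hx := const_mod_muPart C ε hε hχ hA hB hC N hOk E g x
  have hgu : g • (g • x - x) = δ g • (g • x - x) := by rw [hx g, hδ]
  have hUu := hU _ hx
  have h1 := E.rel g x
  have hgx : g • x = x + (g • x - x) := by abel
  have hggx : g • g • x = x + (g • x - x) + δ g • (g • x - x) := by
    conv_lhs => rw [hgx, smul_add, hgu]
    abel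
  have hτgx : τ g • g • x = τ g • x + ((g • x - x) + δ g • (g • x - x)) := by
    conv_lhs => rw [hgx, smul_add, hUu]
  rw [hggx, hτgx] at h1
  have h2 : τ g • x - (x + δ g • x) =
      -(x + (g • x - x) + δ g • (g • x - x) -
        (τ g • x + ((g • x - x) + δ g • (g • x - x))) + δ g • x) := by abel
  rw [h1, neg_zero] at h2
  exact sub_eq_zero.1 h2

end Main

end Fermat.Agent.MAZ.PT.AdmStructure95
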