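/-
MAZ (S15) G-side, P1 / PT-GAL (T3) (BU)-INST, glue file (helper11): the two Mathlib-level bridges between
helper2's `BUSubquot2.card_le_of_subquotient` (all of inertia acts trivially on `Y / Z`; conclusion
`#Y ≤ #Z * B'`) and helper50's `ToricAlg50.BU` (one element `s` acts trivially on `Y / Z`; conclusion
`Z.relIndex Y ≤ B'`).

* `pow_smul_sub_mem`     : `s y - y ∈ Z` for all `y ∈ Y` ⟹ `s ^ j y - y ∈ Z`;
* `inertia_sub_mem`      : if every `τ ∈ I` acts on `M` as a power of `s`, then `I` acts trivially on `Y / Z`;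
* `relIndex_le_of_card_le` : `#Y ≤ #Z * B'` ⟹ `Z.relIndex Y ≤ B'`;
* `smul_eq_pow_smul`     : the generator of tame inertia of `QuadJ11.exists_generator`, transported to a
                           module `M ↪ J₀(N)[m]`.
-/
import Mathlib
import Fermat.Agent.MAZ.Desc.QuadJ11

set_option autoImplicit false
set_option linter.unusedSectionVars false
set_option linter.style.haveILetI false

noncomputable section

namespace Fermat.Agent.MAZ.PT.BUGlue11

open AlgebraicCurve ModularCurve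

local notation "Qb" => AlgebraicClosure ℚ
local notation "GQ" => (AlgebraicClosure ℚ ≃ₐ[ℚ] AlgebraicClosure ℚ)

section Abstract

variable {G : Type*} [Group G] {T : Type*} [CommRing T] {M : Type*} [AddCommGroup M]
  [DistribMulAction G M] [Module T M]

/-- `s y - y ∈ Z` for all `y ∈ Y` (both stable) ⟹ `s ^ j y - y ∈ Z`. -/
theorem pow_smul_sub_mem (s : G) (Y Z : Submodule T M)
    (hZs : ∀ z ∈ Z, s • z ∈ Z) (h : ∀ y ∈ Y, s • y - y ∈ Z) (j : ℕ) :
    ∀ y ∈ Y, s ^ j • y - y ∈ Z := by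
  induction j with
  | zero =>
    intro y _
    rw [pow_zero, one_smul, sub_self]
    exact Z.zero_mem
  | succ j ih =>
    intro y hy
    have e : s ^ (j + 1) • y - y = s • (s ^ j • y - y) + (s • y - y) := by
      rw [pow_succ', mul_smul, smul_sub]
      abel
    rw [e]
    exact Z.add_mem (hZs _ (ih y hy)) (h y hy)

/-- if every element of `I` acts on `M` as a power of `s`, and `s` acts trivially on `Y / Z`, then so
does `I`. -/
theorem inertia_sub_mem (I : Subgroup G) (s : G)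
    (hs : ∀ τ ∈ I, ∃ j : ℕ, ∀ x : M, τ • x = s ^ j • x)
    (Y Z : Submodule T M)
    (hZG : ∀ (g : G), ∀ z ∈ Z, g • z ∈ Z) (h : ∀ y ∈ Y, s • y - y ∈ Z) :
    ∀ τ ∈ I, ∀ y ∈ Y, τ • y - y ∈ Z := by
  intro τ hτ y hy
  obtain ⟨j, hj⟩ := hs τ hτ
  rw [hj y]
  exact pow_smul_sub_mem s Y Z (hZG s) h j y hy

/-- `#Y ≤ #Z * B'` ⟹ `Z.relIndex Y ≤ B'`. -/
theorem relIndex_le_of_card_le [Finite M] (Y Z : Submodule T M) (hZY : Z ≤ Y) {B' : ℕ}
    (h : Nat.card Y ≤ Nat.card Z * B') :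
    Z.toAddSubgroup.relIndex Y.toAddSubgroup ≤ B' := by
  have h1 := AddSubgroup.relIndex_mul_relIndex (⊥ : AddSubgroup M) Z.toAddSubgroup
    Y.toAddSubgroup bot_le (by exact hZY)
  rw [AddSubgroup.relIndex_bot_left, AddSubgroup.relIndex_bot_left] at h1
  have hZ0 : 0 < Nat.card Z.toAddSubgroup := Nat.card_pos
  have h2 : Nat.card Z.toAddSubgroup * Z.toAddSubgroup.relIndex Y.toAddSubgroup ≤
      Nat.card Z.toAddSubgroup * B' := by
    rw [h1]
    exact h
  exact Nat.le_of_mul_le_mul_left h2 hZ0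

end Abstract

/-! ### The generator of tame inertia on a module `M ↪ J₀(N)[m]` -/

section Generator

variable {N : ℕ} [NeZero N] {M : Type*} [AddCommGroup M] [DistribMulAction GQ M]
  (ι : M →+ JZero N) (hι : Function.Injective ι)
  (hιG : ∀ (g : GQ) (x : M), ι (g • x) = g • ι x)
  {m : ℕ} (hιm : ∀ x : M, m • ι x = 0)

include hι hιG hιm in
/-- **the generator of tame inertia at `q ∥ N`, `q ∤ m`, on `M ↪ J₀(N)[m]`**: every `τ ∈ I_A` acts on
`M` as a power of `s`, and `(s - 1)² = 0` on `M`. -/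
theorem exists_generator {q : ℕ} (hq : q.Prime) (hqN : q ∣ N) (hq2 : ¬ q ^ 2 ∣ N)
    (A : ValuationSubring Qb) (hA : A.LiesOverPrime q) (hm : ¬ q ∣ m) :
    ∃ s ∈ A.inertiaSubgroupIn ℚ, (∀ τ ∈ A.inertiaSubgroupIn ℚ, ∃ j : ℕ, ∀ x : M, τ • x = s ^ j • x) ∧
      ∀ x : M, s • (s • x - x) - (s • x - x) = 0 := by
  obtain ⟨s, hsI, hs⟩ := Fermat.Agent.MAZ.Desc.QuadJ11.exists_generator (N := N) (m := m)
    hq hqN hq2 A hA hm
  refine ⟨s, hsI, fun τ hτ => ?_, fun x => ?_⟩
  · obtain ⟨j, hj⟩ := hs τ hτ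
    refine ⟨j, fun x => hι ?_⟩
    rw [hιG, hιG, hj (ι x) (hιm x)]
  · apply hι
    rw [map_sub, map_zero, hιG, map_sub, hιG]
    have := Fermat.Agent.MAZ.Desc.QuadJ11.quad (N := N) (m := m) hq hqN hq2 A hA hm hsI hsI
      (hιm x)
    rw [this, sub_self]

end Generator

end Fermat.Agent.MAZ.PT.BUGlue11
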