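/-
MAZ (S15) G-side, P1 / PT-GAL (T3) (BU)-INST, prep file (helper11): **the plug-in hypotheses of
helper2's abstract `BUSubquot2.card_le_of_subquotient` in the vocabulary of `J₀(p)`**, in the style of
`EisData55` (an abstract `(G_ℚ, T)`-module `M` with an equivariant injection `ι : M →+ J₀(p)`, `T`
acting on `J₀(p)` through `ev`).

* `frob ℓ`                : a chosen Frobenius element at a chosen place over `ℓ`;
* `frob_rel`              : Eichler–Shimura for `frob ℓ` on `J₀(N)[m]` (`hφrel` on `J₀(N)`);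
* `frob_rel_module`       : the same on `M` (`hφrel`);
* `frob_mu`, `mu_inj`     : `frob ℓ` acts on `μ_n` through `ℓ`, which is injective (`hφC`, `hℓC`);
* `card_mu_nsmul`         : `hMC`;
* `hidx_of_eisIndex`      : `hidx` from the conclusion of (C2) (`HomMuFrob11.EisIndex`);
* `card_torsion_le`       : `#M[n'] ≤ #J₀(p)[n']`.
-/
import Mathlib
import Fermat.Agent.MAZ.Desc.MuModule11
import Fermat.Agent.MAZ.Desc.HomMuFrob11

set_option autoImplicit false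
set_option linter.unusedSectionVars false
set_option linter.style.haveILetI false

noncomputable section

namespace Fermat.Agent.MAZ.PT.BUPlug11

open AlgebraicCurve ModularCurve
open Fermat.Agent.MAZ.Desc.MuModule11 Fermat.Agent.MAZ.Desc.HomMuFrob11

local notation "Qb" => AlgebraicClosure ℚ
local notation "GQ" => (AlgebraicClosure ℚ ≃ₐ[ℚ] AlgebraicClosure ℚ)

/-! ### Chosen Frobenius elements -/

theorem exists_frob (ℓ : Nat.Primes) : ∃ σ : GQ, ∃ A : ValuationSubring Qb,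
    A.LiesOverPrime ℓ ∧ A.IsFrobeniusAt σ ℓ := by
  obtain ⟨A, σ, hA, hσ⟩ := Fermat.Agent.Lib.exists_isFrobeniusAt ℓ ℓ.2
  exact ⟨σ, A, hA, hσ⟩

/-- a chosen Frobenius element at (a chosen place over) `ℓ`. -/
def frob (ℓ : Nat.Primes) : GQ := Classical.choose (exists_frob ℓ)

theorem frob_spec (ℓ : Nat.Primes) : ∃ A : ValuationSubring Qb,
    A.LiesOverPrime ℓ ∧ A.IsFrobeniusAt (frob ℓ) ℓ := Classical.choose_spec (exists_frob ℓ)

/-- **Eichler–Shimura for the chosen Frobenius** on `J₀(N)[m]`, `ℓ ∤ N m`. -/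
theorem frob_rel {N : ℕ} [NeZero N] (ℓ : Nat.Primes) (hℓN : ¬ (ℓ : ℕ) ∣ N) {m : ℕ}
    (hℓm : ¬ (ℓ : ℕ) ∣ m) {x : JZero N} (hx : m • x = 0) :
    frob ℓ • frob ℓ • x - heckeOperatorBar N ℓ (frob ℓ • x) + (ℓ : ℕ) • x = 0 := by
  obtain ⟨A, hA, hσ⟩ := frob_spec ℓ
  exact Fermat.Agent.ES.TOP.TorsionGalois12.frobenius_relation ℓ.2 hℓN hA hℓm hx hσ

/-- the chosen Frobenius acts on `μ_n` through `ℓ`, `ℓ ∤ n`. -/
theorem frob_mu {n : ℕ} (ℓ : Nat.Primes) (hℓn : ¬ (ℓ : ℕ) ∣ n) (c : Mu n) :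
    frob ℓ • c = (ℓ : ℕ) • c := by
  obtain ⟨A, hA, hσ⟩ := frob_spec ℓ
  exact Mu.smul_eq_nsmul_of_isFrobeniusAt ℓ.2 hℓn A hA hσ c

/-- a prime different from `r` does not divide `r ^ k`. -/
theorem not_dvd_pow {r : ℕ} (hr : r.Prime) (ℓ : Nat.Primes) (hℓr : (ℓ : ℕ) ≠ r) (k : ℕ) :
    ¬ (ℓ : ℕ) ∣ r ^ k := fun h =>
  hℓr ((Nat.prime_dvd_prime_iff_eq ℓ.2 hr).mp (ℓ.2.dvd_of_dvd_pow h))

/-- `ℓ ≠ r` is injective on `μ_{r^k}`. -/
theorem mu_inj {r : ℕ} (hr : r.Prime) (ℓ : Nat.Primes) (hℓr : (ℓ : ℕ) ≠ r) (k : ℕ)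
    (c : Mu (r ^ k)) (hc : (ℓ : ℕ) • c = 0) : c = 0 := by
  refine Mu.eq_zero_of_nsmul_eq_zero ?_ c hc
  apply Nat.Coprime.pow_right
  rw [Nat.coprime_primes ℓ.2 hr]
  exact hℓr

/-! ### The module `M ↪ J₀(p)` -/

section Module

variable {p : ℕ} [NeZero p] {T : Type*} [CommRing T] (ev : T →+* Module.End ℤ (JZero p))
  {M : Type*} [AddCommGroup M] [DistribMulAction GQ M] [Module T M]
  (ι : M →+ JZero p) (hι : Function.Injective ι)
  (hιG : ∀ (g : GQ) (x : M), ι (g • x) = g • ι x)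
  (hιT : ∀ (t : T) (x : M), ι (t • x) = ev t (ι x))
  {m : ℕ} (hιm : ∀ x : M, m • ι x = 0)

include hι hιG hιT hιm in
/-- **`hφrel`**: Eichler–Shimura for the chosen Frobenius on `M`. -/
theorem frob_rel_module (ℓ : Nat.Primes) (hℓp : ¬ (ℓ : ℕ) ∣ p) (hℓm : ¬ (ℓ : ℕ) ∣ m)
    (t : T) (ht : ev t = heckeOperatorBar p ℓ) (x : M) :
    frob ℓ • frob ℓ • x - t • frob ℓ • x + (ℓ : ℕ) • x = 0 := by
  apply hι
  rw [map_add, map_sub, map_zero, map_nsmul, hιG, hιG, hιT, hιG, ht]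
  exact frob_rel ℓ hℓp hℓm (hιm x)

include hιm in
/-- **`hMC`** for `C = μ_m`. -/
theorem card_mu_nsmul [NeZero m] (hι : Function.Injective ι) (x : M) :
    Nat.card (Mu m) • x = 0 := by
  apply hι
  rw [Mu.card_mu, map_nsmul, map_zero]
  exact hιm x

include hι in
/-- `#M[n] ≤ #J₀(p)[n]`. -/
theorem card_torsion_le (n : ℕ) [NeZero n] :
    Nat.card {x : M // n • x = 0} ≤ Nat.card {y : JZero p // n • y = 0} := by
  haveI : Finite {y : JZero p // n • y = 0} :=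
    (Fermat.Agent.ES.KUM.FiniteTorsion15.finite_setOf_nsmul_eq_zero p n).to_subtype
  refine Nat.card_le_card_of_injective (fun x => ⟨ι x.1, by rw [← map_nsmul, x.2, map_zero]⟩) ?_
  intro x y hxy
  apply Subtype.ext
  apply hι
  exact congrArg (fun z : {y : JZero p // n • y = 0} => (z : JZero p)) hxy

/-- the index set of the Eisenstein generators: primes outside `S`. -/
abbrev Idx (S : Finset ℕ) : Type := {ℓ : Nat.Primes // (ℓ : ℕ) ∉ S}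

include hι hιT hιm in
/-- **`hidx`**: the Eisenstein index on every `T`-submodule of `M`, from the conclusion of (C2). -/
theorem hidx_of_eisIndex (S : Finset ℕ) (t : Idx S → T)
    (ht : ∀ i : Idx S, ev (t i) = heckeOperatorBar p i.1) (n' : ℕ)
    (hC2 : ∀ M₀ : AddSubgroup (JZero p), (∀ x ∈ M₀, m • x = 0) →
      (∀ (ℓ : ℕ) (hℓ : ℓ.Prime), ℓ ∉ S → ∀ x ∈ M₀, heckeOperatorBar p ⟨ℓ, hℓ⟩ x ∈ M₀) →
      EisIndex p S n' M₀)
    (Y : Submodule T M) (y : M) (hy : y ∈ Y) :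
    n' • y ∈ AddSubgroup.closure {z : M | ∃ i : Idx S, ∃ y' ∈ Y,
      z = t i • y' - (1 + ((i.1 : Nat.Primes) : ℕ)) • y'} := by
  set A : Set M := {z : M | ∃ i : Idx S, ∃ y' ∈ Y,
      z = t i • y' - (1 + ((i.1 : Nat.Primes) : ℕ)) • y'} with hA
  set M₀ : AddSubgroup (JZero p) := Y.toAddSubgroup.map ι with hM₀
  have h1 : ∀ x ∈ M₀, m • x = 0 := by
    rintro _ ⟨x, -, rfl⟩
    exact hιm x
  have h2 : ∀ (ℓ : ℕ) (hℓ : ℓ.Prime), ℓ ∉ S → ∀ x ∈ M₀, heckeOperatorBar p ⟨ℓ, hℓ⟩ x ∈ M₀ := by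
    rintro ℓ hℓ hℓS _ ⟨x, hx, rfl⟩
    refine ⟨t ⟨⟨ℓ, hℓ⟩, hℓS⟩ • x, Y.smul_mem _ hx, ?_⟩
    rw [hιT, ht]
  have h3 := hC2 M₀ h1 h2 (ι y) ⟨y, hy, rfl⟩
  have h4 : {z : JZero p | ∃ (ℓ : ℕ) (hℓ : ℓ.Prime), ℓ ∉ S ∧
      ∃ y ∈ M₀, z = heckeOperatorBar p ⟨ℓ, hℓ⟩ y - (1 + ℓ) • y} ⊆ ι '' A := by
    rintro z ⟨ℓ, hℓ, hℓS, _, ⟨y', hy', rfl⟩, rfl⟩
    refine ⟨t ⟨⟨ℓ, hℓ⟩, hℓS⟩ • y' - (1 + ℓ) • y', ⟨⟨⟨ℓ, hℓ⟩, hℓS⟩, y', hy', rfl⟩, ?_⟩
    rw [map_sub, map_nsmul, hιT, ht]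
  have h5 := AddSubgroup.closure_mono h4 h3
  rw [← AddMonoidHom.map_closure] at h5
  obtain ⟨w, hw, hwy⟩ := h5
  have : w = n' • y := hι (by rw [hwy, map_nsmul])
  rw [← this]
  exact hw

end Module

end Fermat.Agent.MAZ.PT.BUPlug11
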