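/-
MAZ (S15) G-side, P1 / PT-GAL (T3) **(BU)-INST** (helper11): *bounded unramified*, instantiated for
`J₀(p)`.  For a `(G_ℚ, T)`-module `M` with an equivariant injection `ι : M →+ J₀(p)[r^k]` on which a
power of `ker π` acts as zero (e.g. the `ker π`-primary part of `J₀(p)[r^k]`), and `s` the generator of
the tame inertia at `𝔄 ∣ p` (`p ≠ r`):

* `exists_chData_bu` : there are `τ δ : G_ℚ → T` and `s ∈ I_𝔄` such that every element of `I_𝔄` acts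
  on `M` as a power of `s`, `ToricAlg50.CHData τ δ s M` holds (Cayley–Hamilton for every `g`, `δ`
  multiplicative, `δ_s = 1`, `(s - 1)² = 0`), and **`ToricAlg50.BU s T M B`** holds with
  `B = (#J₀(p)[n'])²`, `n'` the Eisenstein index of (C2): *independent of `k` and of `M`*;
* `exists_card_ker_sq_le` : hence (`ToricAlg50.card_ker_sq_le`) `(#M^{I_𝔄})² ≤ #M · #M[Q]`,
  `Q ≤ (B²) ^ d`, `d` the number of generators of `M`: (PT) on the Eisenstein part.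

Inputs kept as hypotheses (in the literal shapes of their owners): `hR : RankOneBound` (helper19, P2),
`hOk : F.Ok (M × Dual M μ_{r^k})` (CARTIER, helper68 `CartierOk68.admFamily_ok_prod_dual`), `hC2` (the
conclusion of helper85's `EisTransferFinal85.exists_eis_index`).  Everything else is cited:
`BUSubquot2.card_le_of_subquotient` (helper2), `EisRelInt55.exists_tau_delta_full` (helper55),
`QuadJ11`, `MuModule11`, `BUPlug11`, `BUGlue11`.
-/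
import Mathlib
import Fermat.Agent.MAZ.Desc.BUSubquot2
import Fermat.Agent.MAZ.Desc.ToricAlg50
import Fermat.Agent.MAZ.Hecke.EisRelInt55
import Fermat.Agent.MAZ.PT.BUPlug11
import Fermat.Agent.MAZ.PT.BUGlue11

set_option autoImplicit false
set_option linter.unusedSectionVars false
set_option linter.style.haveILetI false

noncomputable section

namespace Fermat.Agent.MAZ.PT.BUInst11

open AlgebraicCurve ModularCurve
open Fermat.Agent.MAZ.Desc Fermat.Agent.MAZ.Desc.SelmerCone95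
  Fermat.Agent.MAZ.Desc.EisFiltration19 Fermat.Agent.MAZ.Desc.Devissage95
  Fermat.Agent.MAZ.Desc.DualModule2 Fermat.Agent.MAZ.Desc.DualDevissage2
  Fermat.Agent.MAZ.Desc.MuModule11 Fermat.Agent.MAZ.Desc.HomMuFrob11
  Fermat.Agent.MAZ.Desc.ToricAlg50 Fermat.Agent.MAZ.Hecke.EisRel55
  Fermat.Agent.MAZ.Hecke.EisRelInt55 Fermat.Agent.MAZ.PT.BUPlug11

local notation "Qb" => AlgebraicClosure ℚ
local notation "GQ" => (AlgebraicClosure ℚ ≃ₐ[ℚ] AlgebraicClosure ℚ)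

variable {p : ℕ} [NeZero p]

/-- **(BU)-INST.** -/
theorem exists_chData_bu (hp : p.Prime) {r : ℕ} [hr : Fact r.Prime] (hrp : r ≠ p) (k : ℕ)
    (hk : k ≠ 0)
    {T : Type*} [CommRing T] (ev : T →+* Module.End ℤ (JZero p)) (π : T →+* ZMod r)
    (hev : ∀ ℓ : Nat.Primes, (ℓ : ℕ) ≠ p → ¬ (ℓ : ℕ) ∣ r ^ k →
      ∃ t : T, ev t = heckeOperatorBar p ℓ ∧ π t = ((ℓ : ℕ) : ZMod r) + 1)
    (M : Type) [AddCommGroup M] [DistribMulAction GQ M] [Module T M] [SMulCommClass GQ T M]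
    (ι : M →+ JZero p) (hι : Function.Injective ι)
    (hιG : ∀ (g : GQ) (x : M), ι (g • x) = g • ι x)
    (hιT : ∀ (t : T) (x : M), ι (t • x) = ev t (ι x))
    (hιm : ∀ x : M, r ^ k • ι x = 0)
    (hnil : ∃ n : ℕ, ∀ t ∈ (RingHom.ker π) ^ n, ∀ x : M, t • x = 0)
    (𝔄 : ValuationSubring Qb) (h𝔄 : 𝔄.LiesOverPrime p)
    (F : AdmFamily.{0} GQ) (φ₀ : GQ)
    (hR : RankOneBound F (𝔄.decompositionSubgroup ℚ) (𝔄.inertiaSubgroupIn ℚ) r (chiMod r) φ₀)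
    (hOk : F.Ok (M × Dual M (Mu (r ^ k))))
    (S : Finset ℕ) (hpS : p ∈ S) (hrS : r ∈ S) (n' : ℕ) (hn' : 0 < n')
    (hC2 : ∀ M₀ : AddSubgroup (JZero p), (∀ x ∈ M₀, r ^ k • x = 0) →
      (∀ (ℓ : ℕ) (hℓ : ℓ.Prime), ℓ ∉ S → ∀ x ∈ M₀, heckeOperatorBar p ⟨ℓ, hℓ⟩ x ∈ M₀) →
      EisIndex p S n' M₀) :
    ∃ (τ δ : GQ → T) (s : GQ), s ∈ 𝔄.inertiaSubgroupIn ℚ ∧
      (∀ σ ∈ 𝔄.inertiaSubgroupIn ℚ, ∃ j : ℕ, ∀ x : M, σ • x = s ^ j • x) ∧
      EisData π (chiMod r) τ δ M ∧ CHData τ δ s M ∧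
      BU s T M (Nat.card {y : JZero p // n' • y = 0} ^ 2) := by
  classical
  have hr' := hr.out
  set m : ℕ := r ^ k with hm
  have hm0 : m ≠ 0 := pow_ne_zero _ hr'.ne_zero
  haveI : NeZero m := ⟨hm0⟩
  have hrm : r ∣ m := dvd_pow_self r hk
  have hpm : ¬ p ∣ m := fun h =>
    hrp ((Nat.prime_dvd_prime_iff_eq hp hr').mp (hp.dvd_of_dvd_pow h)).symm
  have hfin : {y : JZero p | m • y = 0}.Finite :=
    Fermat.Agent.ES.KUM.FiniteTorsion15.finite_setOf_nsmul_eq_zero p m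
  haveI hfinM : Finite M := by
    have : Finite {y : JZero p // m • y = 0} := hfin.to_subtype
    exact Finite.of_injective (fun x : M => (⟨ι x, hιm x⟩ : {y : JZero p // m • y = 0}))
      fun x y hxy => hι (congrArg Subtype.val hxy)
  -- Eichler–Shimura data
  obtain ⟨τ, δ, u, hτ, hδπ, huχ, hu, hδu, hrel, -, -, -⟩ :=
    exists_tau_delta_full hp hm0 hrm hfin ev π hev (chiMod r) (fun g n h => chiMod_eq r g n h)
  have hMm : ∀ x : M, m • x = 0 := fun x => hι (by rw [map_nsmul, map_zero]; exact hιm x)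
  have E : EisData π (chiMod r) τ δ M := by
    refine ⟨hnil, hτ, hδπ, fun g x => hι ?_⟩
    rw [map_add, map_sub, map_zero, hιG, hιG, hιT, hιT, hιG]
    exact hrel g (ι x) (hιm x)
  -- the generator of tame inertia
  obtain ⟨s, hsI, hsgen, hsnil⟩ := Fermat.Agent.MAZ.PT.BUGlue11.exists_generator ι hι hιG hιm
    hp (dvd_refl p) (fun h => by
      have h1 : p ^ 2 ≤ p := Nat.le_of_dvd hp.pos h
      have h2 : p < p ^ 2 := by
        calc p = p ^ 1 := (pow_one p).symm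
          _ < p ^ 2 := Nat.pow_lt_pow_right hp.one_lt (by norm_num)
      omega) 𝔄 h𝔄 hpm
  refine ⟨τ, δ, s, hsI, hsgen, E, ?_, ?_⟩
  · -- `CHData`
    refine ⟨E.rel, fun g h x => delta_mul_smul hm0 hδu hu g h (hMm x),
      fun x => delta_inertia_smul hδu hu hp hpm 𝔄 h𝔄 hsI (hMm x), fun x => ?_⟩
    rw [nil_apply, nil_apply]
    exact hsnil x
  · -- `BU`
    intro Y Z hYG hZG hZY hnilYZ
    -- the Frobenius family
    choose tt htt using fun i : Idx S => hev i.1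
      (fun h => i.2 (h ▸ hpS))
      (not_dvd_pow hr' i.1 (fun h => i.2 (h ▸ hrS)) k)
    have hI : ∀ σ ∈ 𝔄.inertiaSubgroupIn ℚ, ∀ y ∈ Y, σ • y - y ∈ Z :=
      Fermat.Agent.MAZ.PT.BUGlue11.inertia_sub_mem (𝔄.inertiaSubgroupIn ℚ) s hsgen Y Z hZG
        (fun y hy => by have := hnilYZ y hy; rwa [nil_apply] at this)
    have hcore := Fermat.Agent.MAZ.Desc.BUSubquot2.card_le_of_subquotient
      (D := 𝔄.decompositionSubgroup ℚ) (I := 𝔄.inertiaSubgroupIn ℚ) (π := π) (χ := chiMod r)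
      (τ := τ) (δ := δ) F φ₀ hR M (Mu m)
      (fun x => card_mu_nsmul ι hιm hι x)
      (fun σ hσ c => Mu.smul_eq_of_mem_inertia hp hpm 𝔄 h𝔄 hσ c)
      (fun g => ⟨u g, huχ g, fun c => by
        apply Mu.ext
        rw [Mu.val_smul, Mu.val_nsmul]
        exact hu g _ c.val_pow, fun x => delta_smul hδu g x⟩)
      E hOk (fun i : Idx S => frob i.1) tt (fun i : Idx S => ((i.1 : Nat.Primes) : ℕ))
      (fun i x => frob_rel_module ev ι hι hιG hιT hιm i.1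
        (fun h => i.2 (((Nat.prime_dvd_prime_iff_eq i.1.2 hp).mp h) ▸ hpS))
        (not_dvd_pow hr' i.1 (fun h => i.2 (h ▸ hrS)) k) (tt i) (htt i).1 x)
      (fun i c => frob_mu i.1 (not_dvd_pow hr' i.1 (fun h => i.2 (h ▸ hrS)) k) c)
      (fun i c hc => mu_inj hr' i.1 (fun h => i.2 (h ▸ hrS)) k c hc)
      n'
      (fun Y' _ y hy => hidx_of_eisIndex ev ι hι hιT hιm S tt (fun i => (htt i).1) n' hC2 Y' y hy)
      Y Z hZY hYG hZG hI
    refine Fermat.Agent.MAZ.PT.BUGlue11.relIndex_le_of_card_le Y Z hZY (le_trans hcore ?_)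
    refine Nat.mul_le_mul_left _ (Nat.pow_le_pow_left ?_ 2)
    haveI : NeZero n' := ⟨hn'.ne'⟩
    exact card_torsion_le ι hι n'

/-- **(PT) on the Eisenstein part of `J₀(p)[r^k]`**: `(#M^{I_𝔄})² ≤ #M · #M[Q]` with
`Q ≤ (B²) ^ d`, `B = (#J₀(p)[n'])²`, `d` the number of generators of the `T`-module `M`. -/
theorem exists_card_ker_sq_le (hp : p.Prime) {r : ℕ} [hr : Fact r.Prime] (hrp : r ≠ p) (k : ℕ)
    (hk : k ≠ 0)
    {T : Type*} [CommRing T] (ev : T →+* Module.End ℤ (JZero p)) (π : T →+* ZMod r)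
    (hev : ∀ ℓ : Nat.Primes, (ℓ : ℕ) ≠ p → ¬ (ℓ : ℕ) ∣ r ^ k →
      ∃ t : T, ev t = heckeOperatorBar p ℓ ∧ π t = ((ℓ : ℕ) : ZMod r) + 1)
    (M : Type) [AddCommGroup M] [DistribMulAction GQ M] [Module T M] [SMulCommClass GQ T M]
    (ι : M →+ JZero p) (hι : Function.Injective ι)
    (hιG : ∀ (g : GQ) (x : M), ι (g • x) = g • ι x)
    (hιT : ∀ (t : T) (x : M), ι (t • x) = ev t (ι x))
    (hιm : ∀ x : M, r ^ k • ι x = 0)
    (hnil : ∃ n : ℕ, ∀ t ∈ (RingHom.ker π) ^ n, ∀ x : M, t • x = 0)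
    (𝔄 : ValuationSubring Qb) (h𝔄 : 𝔄.LiesOverPrime p)
    (F : AdmFamily.{0} GQ) (φ₀ : GQ)
    (hR : RankOneBound F (𝔄.decompositionSubgroup ℚ) (𝔄.inertiaSubgroupIn ℚ) r (chiMod r) φ₀)
    (hOk : F.Ok (M × Dual M (Mu (r ^ k))))
    (S : Finset ℕ) (hpS : p ∈ S) (hrS : r ∈ S) (n' : ℕ) (hn' : 0 < n')
    (hC2 : ∀ M₀ : AddSubgroup (JZero p), (∀ x ∈ M₀, r ^ k • x = 0) →
      (∀ (ℓ : ℕ) (hℓ : ℓ.Prime), ℓ ∉ S → ∀ x ∈ M₀, heckeOperatorBar p ⟨ℓ, hℓ⟩ x ∈ M₀) →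
      EisIndex p S n' M₀) :
    ∃ s ∈ 𝔄.inertiaSubgroupIn ℚ,
      (∀ σ ∈ 𝔄.inertiaSubgroupIn ℚ, ∃ j : ℕ, ∀ x : M, σ • x = s ^ j • x) ∧
      ∃ Q : ℕ, 0 < Q ∧
        Q ≤ (Nat.card {y : JZero p // n' • y = 0} ^ 2 * Nat.card {y : JZero p // n' • y = 0} ^ 2) ^
          (⊤ : Submodule T M).spanFinrank ∧
        Nat.card (nil T s : M →ₗ[T] M).toAddMonoidHom.ker ^ 2 ≤
          Nat.card M * Nat.card (nsmulAddMonoidHom Q : M →+ M).ker := by
  obtain ⟨τ, δ, s, hsI, hsgen, -, hCH, hBU⟩ := exists_chData_bu hp hrp k hk ev π hev M ι hι hιG hιT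
    hιm hnil 𝔄 h𝔄 F φ₀ hR hOk S hpS hrS n' hn' hC2
  haveI hfinM : Finite M := by
    haveI : NeZero (r ^ k) := ⟨pow_ne_zero _ hr.out.ne_zero⟩
    have : Finite {y : JZero p // r ^ k • y = 0} :=
      (Fermat.Agent.ES.KUM.FiniteTorsion15.finite_setOf_nsmul_eq_zero p (r ^ k)).to_subtype
    exact Finite.of_injective (fun x : M => (⟨ι x, hιm x⟩ : {y : JZero p // r ^ k • y = 0}))
      fun x y hxy => hι (congrArg Subtype.val hxy)
  obtain ⟨Q, hQ0, hQB, hQ⟩ := card_ker_sq_le hCH hBU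
  exact ⟨s, hsI, hsgen, Q, hQ0, hQB, hQ⟩

end Fermat.Agent.MAZ.PT.BUInst11
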