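/-
MAZ (S15) G-side (helper11): the (HOM-μ) bound and (BU)-INST with the Eisenstein index (C2)
DISCHARGED by helper85's unconditional `EisTransferFinal85.exists_eis_index`.

* `exists_homMu_bound` : **(HOM-μ), unconditional**: for `S ⊇ {q ∣ N}` one `B` such that for every
  prime `r ∈ S`, every `k` and every `G_ℚ`-module `M'` with an equivariant injection into `J₀(N)[r^k]`
  whose image is stable under the `T_ℓ`, `ℓ ∉ S`:  `# Hom_{G_ℚ}(M', μ_{r^k}) ≤ B`.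
* `exists_homMu_bound_pair` : the same at prime level `p`, `S = {p, r}`.
* `exists_eisIndex` : (C2) in the `HomMuFrob11.EisIndex` vocabulary.
* `exists_chData_bu` / `exists_card_ker_sq_le` : `BUInst11` with `hC2` discharged: one `n' > 0`
  (depending on `p`, `S` only) such that for all `k ≠ 0` and all `(G_ℚ, T)`-modules `M ↪ J₀(p)[r^k]`
  (nilpotent for `ker π`) the toric data `CHData` + `BU s T M ((#J₀(p)[n'])²)` exist; remaining
  hypotheses: `hR` (RANK-ONE) and `hOk` (CARTIER) only.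
-/
import Mathlib
import Fermat.Agent.MAZ.Hecke.EisTransferFinal85
import Fermat.Agent.MAZ.Desc.HomMuDual11
import Fermat.Agent.MAZ.PT.BUInst11

set_option autoImplicit false
set_option linter.unusedSectionVars false
set_option linter.style.haveILetI false

noncomputable section

namespace Fermat.Agent.MAZ.PT.BUFinal11

open AlgebraicCurve ModularCurve
open Fermat.Agent.MAZ.Desc Fermat.Agent.MAZ.Desc.SelmerCone95
  Fermat.Agent.MAZ.Desc.EisFiltration19 Fermat.Agent.MAZ.Desc.Devissage95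
  Fermat.Agent.MAZ.Desc.DualModule2 Fermat.Agent.MAZ.Desc.DualDevissage2
  Fermat.Agent.MAZ.Desc.MuModule11 Fermat.Agent.MAZ.Desc.HomMuFrob11
  Fermat.Agent.MAZ.Desc.ToricAlg50 Fermat.Agent.MAZ.Hecke.EisRel55
  Fermat.Agent.MAZ.Hecke.EisRelInt55 Fermat.Agent.MAZ.PT.BUPlug11

local notation "Qb" => AlgebraicClosure ℚ
local notation "GQ" => (AlgebraicClosure ℚ ≃ₐ[ℚ] AlgebraicClosure ℚ)

/-- **(HOM-μ), unconditional.** -/
theorem exists_homMu_bound (N : ℕ) [NeZero N] (S : Finset ℕ)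
    (hS : ∀ q : ℕ, q.Prime → q ∣ N → q ∈ S) :
    ∃ B : ℕ, ∀ (r : ℕ) [Fact r.Prime], r ∈ S → ∀ (k : ℕ) (M' : Type) [AddCommGroup M']
      [DistribMulAction GQ M'] (ι : M' →+ JZero N), Function.Injective ι →
      (∀ (σ : GQ) (x : M'), ι (σ • x) = σ • ι x) → (∀ x : M', r ^ k • ι x = 0) →
      (∀ (ℓ : ℕ) (hℓ : ℓ.Prime), ℓ ∉ S → ∀ x : M', ∃ y : M',
        ι y = heckeOperatorBar N ⟨ℓ, hℓ⟩ (ι x)) →
      Nat.card ↥(equivariantHoms GQ M' (Mu (r ^ k))) ≤ B :=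
  Fermat.Agent.MAZ.Desc.HomMuDual11.exists_bound N S hS
    (Fermat.Agent.MAZ.Hecke.EisTransferFinal85.exists_eis_index N S hS)

/-- **(HOM-μ), unconditional, prime level `p`, `S = {p, r}`.** -/
theorem exists_homMu_bound_pair (p : ℕ) [NeZero p] (hp : p.Prime) (r : ℕ) [Fact r.Prime] :
    ∃ B : ℕ, ∀ (k : ℕ) (M' : Type) [AddCommGroup M']
      [DistribMulAction GQ M'] (ι : M' →+ JZero p), Function.Injective ι →
      (∀ (σ : GQ) (x : M'), ι (σ • x) = σ • ι x) → (∀ x : M', r ^ k • ι x = 0) →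
      (∀ ℓ : Nat.Primes, (ℓ : ℕ) ≠ p → (ℓ : ℕ) ≠ r → ∀ x : M', ∃ y : M',
        ι y = heckeOperatorBar p ℓ (ι x)) →
      Nat.card ↥(equivariantHoms GQ M' (Mu (r ^ k))) ≤ B := by
  obtain ⟨B, hB⟩ := exists_homMu_bound p ({p, r} : Finset ℕ) (fun q hq hqp => by
    have : q = p := (Nat.prime_dvd_prime_iff_eq hq hp).mp hqp
    simp [this])
  refine ⟨B, fun k M' _ _ ι hι hιG hιm hιT => ?_⟩
  refine hB r (by simp) k M' ι hι hιG hιm (fun ℓ hℓ hℓS x => ?_)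
  refine hιT ⟨ℓ, hℓ⟩ (fun h => hℓS ?_) (fun h => hℓS ?_) x
  · simp only [Finset.mem_insert, Finset.mem_singleton]; exact Or.inl h
  · simp only [Finset.mem_insert, Finset.mem_singleton]; exact Or.inr h

/-- **(C2)** in the `EisIndex` vocabulary, unconditional. -/
theorem exists_eisIndex (N : ℕ) [NeZero N] (S : Finset ℕ)
    (hS : ∀ q : ℕ, q.Prime → q ∣ N → q ∈ S) :
    ∃ n' : ℕ, 0 < n' ∧ ∀ (r : ℕ) [Fact r.Prime] (k : ℕ) (M₀ : AddSubgroup (JZero N)),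
      (∀ x ∈ M₀, r ^ k • x = 0) →
      (∀ (ℓ : ℕ) (hℓ : ℓ.Prime), ℓ ∉ S → ∀ x ∈ M₀, heckeOperatorBar N ⟨ℓ, hℓ⟩ x ∈ M₀) →
      EisIndex N S n' M₀ :=
  Fermat.Agent.MAZ.Hecke.EisTransferFinal85.exists_eis_index N S hS

variable {p : ℕ} [NeZero p]

/-- **(BU)-INST with (C2) discharged**: one `n' > 0`, depending only on `p` and `S ∋ p`, for all
primes `r ∈ S`, `r ≠ p`, all levels `k ≠ 0` and all `M`. -/
theorem exists_chData_bu (hp : p.Prime) (S : Finset ℕ) (hpS : p ∈ S) :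
    ∃ n' : ℕ, 0 < n' ∧ ∀ {r : ℕ} [Fact r.Prime] (_hrp : r ≠ p) (_hrS : r ∈ S) (k : ℕ)
      (_hk : k ≠ 0)
      {T : Type*} [CommRing T] (ev : T →+* Module.End ℤ (JZero p)) (π : T →+* ZMod r)
      (_hev : ∀ ℓ : Nat.Primes, (ℓ : ℕ) ≠ p → ¬ (ℓ : ℕ) ∣ r ^ k →
        ∃ t : T, ev t = heckeOperatorBar p ℓ ∧ π t = ((ℓ : ℕ) : ZMod r) + 1)
      (M : Type) [AddCommGroup M] [DistribMulAction GQ M] [Module T M] [SMulCommClass GQ T M]
      (ι : M →+ JZero p) (_hι : Function.Injective ι)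
      (_hιG : ∀ (g : GQ) (x : M), ι (g • x) = g • ι x)
      (_hιT : ∀ (t : T) (x : M), ι (t • x) = ev t (ι x))
      (_hιm : ∀ x : M, r ^ k • ι x = 0)
      (_hnil : ∃ n : ℕ, ∀ t ∈ (RingHom.ker π) ^ n, ∀ x : M, t • x = 0)
      (𝔄 : ValuationSubring Qb) (_h𝔄 : 𝔄.LiesOverPrime p)
      (F : AdmFamily.{0} GQ) (φ₀ : GQ)
      (_hR : RankOneBound F (𝔄.decompositionSubgroup ℚ) (𝔄.inertiaSubgroupIn ℚ) r (chiMod r) φ₀)
      (_hOk : F.Ok (M × Dual M (Mu (r ^ k)))),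
      ∃ (τ δ : GQ → T) (s : GQ), s ∈ 𝔄.inertiaSubgroupIn ℚ ∧
        (∀ σ ∈ 𝔄.inertiaSubgroupIn ℚ, ∃ j : ℕ, ∀ x : M, σ • x = s ^ j • x) ∧
        EisData π (chiMod r) τ δ M ∧ CHData τ δ s M ∧
        BU s T M (Nat.card {y : JZero p // n' • y = 0} ^ 2) := by
  obtain ⟨n', hn', h⟩ := exists_eisIndex p S (fun q hq hqp => by
    have : q = p := (Nat.prime_dvd_prime_iff_eq hq hp).mp hqp
    rw [this]; exact hpS)
  refine ⟨n', hn', ?_⟩
  intro r hr hrp hrS k hk T _ ev π hev M _ _ _ _ ι hι hιG hιT hιm hnil 𝔄 h𝔄 F φ₀ hR hOk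
  exact Fermat.Agent.MAZ.PT.BUInst11.exists_chData_bu hp hrp k hk ev π hev M ι hι hιG hιT hιm hnil
    𝔄 h𝔄 F φ₀ hR hOk S hpS hrS n' hn' (fun M₀ h1 h2 => h r k M₀ h1 h2)

/-- **(PT) on the Eisenstein part with (C2) discharged**: `(#M^{I_𝔄})² ≤ #M · #M[Q]` with
`Q ≤ (B²)^d`, `B = (#J₀(p)[n'])²`, `n'` uniform in `r ∈ S`, `k`, `M`. -/
theorem exists_card_ker_sq_le (hp : p.Prime) (S : Finset ℕ) (hpS : p ∈ S) :
    ∃ n' : ℕ, 0 < n' ∧ ∀ {r : ℕ} [Fact r.Prime] (_hrp : r ≠ p) (_hrS : r ∈ S) (k : ℕ)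
      (_hk : k ≠ 0)
      {T : Type*} [CommRing T] (ev : T →+* Module.End ℤ (JZero p)) (π : T →+* ZMod r)
      (_hev : ∀ ℓ : Nat.Primes, (ℓ : ℕ) ≠ p → ¬ (ℓ : ℕ) ∣ r ^ k →
        ∃ t : T, ev t = heckeOperatorBar p ℓ ∧ π t = ((ℓ : ℕ) : ZMod r) + 1)
      (M : Type) [AddCommGroup M] [DistribMulAction GQ M] [Module T M] [SMulCommClass GQ T M]
      (ι : M →+ JZero p) (_hι : Function.Injective ι)
      (_hιG : ∀ (g : GQ) (x : M), ι (g • x) = g • ι x)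
      (_hιT : ∀ (t : T) (x : M), ι (t • x) = ev t (ι x))
      (_hιm : ∀ x : M, r ^ k • ι x = 0)
      (_hnil : ∃ n : ℕ, ∀ t ∈ (RingHom.ker π) ^ n, ∀ x : M, t • x = 0)
      (𝔄 : ValuationSubring Qb) (_h𝔄 : 𝔄.LiesOverPrime p)
      (F : AdmFamily.{0} GQ) (φ₀ : GQ)
      (_hR : RankOneBound F (𝔄.decompositionSubgroup ℚ) (𝔄.inertiaSubgroupIn ℚ) r (chiMod r) φ₀)
      (_hOk : F.Ok (M × Dual M (Mu (r ^ k)))),
      ∃ s ∈ 𝔄.inertiaSubgroupIn ℚ,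
        (∀ σ ∈ 𝔄.inertiaSubgroupIn ℚ, ∃ j : ℕ, ∀ x : M, σ • x = s ^ j • x) ∧
        ∃ Q : ℕ, 0 < Q ∧
          Q ≤ (Nat.card {y : JZero p // n' • y = 0} ^ 2 *
              Nat.card {y : JZero p // n' • y = 0} ^ 2) ^ (⊤ : Submodule T M).spanFinrank ∧
          Nat.card (nil T s : M →ₗ[T] M).toAddMonoidHom.ker ^ 2 ≤
            Nat.card M * Nat.card (nsmulAddMonoidHom Q : M →+ M).ker := by
  obtain ⟨n', hn', h⟩ := exists_eisIndex p S (fun q hq hqp => by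
    have : q = p := (Nat.prime_dvd_prime_iff_eq hq hp).mp hqp
    rw [this]; exact hpS)
  refine ⟨n', hn', ?_⟩
  intro r hr hrp hrS k hk T _ ev π hev M _ _ _ _ ι hι hιG hιT hιm hnil 𝔄 h𝔄 F φ₀ hR hOk
  exact Fermat.Agent.MAZ.PT.BUInst11.exists_card_ker_sq_le hp hrp k hk ev π hev M ι hι hιG hιT hιm
    hnil 𝔄 h𝔄 F φ₀ hR hOk S hpS hrS n' hn' (fun M₀ h1 h2 => h r k M₀ h1 h2)

end Fermat.Agent.MAZ.PT.BUFinal11
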