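/-
Program MAZ (S15), G-side, brick (PT) "purely toric", sub-brick (B0) INJ (helper12).

**`Cart 1` has no torsion of order prime to the residue characteristic.**

Setting of `M1/Car/Defs43` on a nodal two-chart model (`ES/N34/NumData13.NodalNumData`): `Cart 1` is
the subgroup of `Pic0 K F` of the classes having a representative `E` with, at every closed point
of the special fibre, a local equation `h ≡ 1 mod π` on every branch through the point (the classes
which are trivial on the special fibre).  If `m` is invertible in `R`, `x ∈ Cart 1` and `m • x = 0`,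
then `x = 0`.  This is the field `inj` of `MAZ/Toric/PTCountAbs90.ToricFrame` with `P1 := Cart 1`, and
the prime-to-`p` companion of `M1/Car/TorsInst15.cart_torsion_free_of_numData`.

Proof.  `x = [E]`, `m E = div f` with `f` a unit along both components
(`TorsClass43.exists_normalized`).  At a closed point with local equation `h`, the quotient
`f / h ^ m` has trivial divisor near the point and no vertical part, so it lies in the local ring
(Hartogs, `Frame.hart`), and `f ≡ f / h ^ m` modulo `π` on the branches through the point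
(`local_unit`).  Hence `f` is a regular function on each component of the special fibre, i.e. a
constant `r_j` modulo `π O_j` (`Frame.const1/2`), and the two constants agree modulo `π` because the
components meet (`node_compare`): `f ≡ r mod π (O1 ⊓ O2)` (`exists_const`), `r` a unit of `R`.  Then
`u := f / r` satisfies (U1) `u ≡ 1`, (U2) `m ∣ ord_v u`, (U3) with `g := h⁻¹` at the nodes, and
`NodalNumData.cl` gives `u = c · s ^ m`, whence `E = div s`.
-/
import Mathlib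
import Fermat.Agent.M1.Car.TorsInst15

set_option autoImplicit false

namespace Fermat.Agent.MAZ.PT.CartInj12

open AlgebraicCurve Fermat.Agent.ES.N34.NodalCore13 Fermat.Agent.ES.N34.NodalCL13
  Fermat.Agent.ES.N34.NumData13 Fermat.Agent.M1.Car.Defs43 Fermat.Agent.M1.Mon.WildPL43
  Fermat.Agent.M1.Node.Thick25

section Local

variable {R K F : Type*} [CommRing R] [Field K] [Field F] [Algebra K F] [Algebra R F]
variable {π : R} {B0 B1 : Subalgebra R F} {O1 O2 : ValuationSubring F}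

/-- One branch: if `h ≡ 1 mod π O_j` (or the branch misses the point) and `f ∈ O_j`, then
`f / h ^ m ∈ O_j` and `f ≡ f / h ^ m mod π O_j`. -/
theorem branch_of_strict {B : Subalgebra R F} {𝔪 : Ideal B} {Oj : ValuationSubring F}
    (hπ : algebraMap R F π ∈ Oj) (m : ℕ) {f h : F} (hfj : f ∈ Oj)
    (hs : StrictOn π B Oj 𝔪 1 h) :
    (OffBranch π B Oj 𝔪 ∨ f / h ^ m ∈ Oj) ∧
      (OffBranch π B Oj 𝔪 ∨ ∃ c ∈ Oj, f - f / h ^ m = algebraMap R F π * c) := by
  rcases hs.pow hπ m with hoff | ⟨h0, hinv, c, hc, hhc⟩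
  · exact ⟨Or.inl hoff, Or.inl hoff⟩
  · have hw : f / h ^ m ∈ Oj := by
      rw [div_eq_mul_inv]
      exact Oj.mul_mem _ _ hfj hinv
    refine ⟨Or.inr hw, Or.inr ⟨f / h ^ m * c, Oj.mul_mem _ _ hw hc, ?_⟩⟩
    rw [pow_one] at hhc
    have e : f - f / h ^ m = f / h ^ m * (h ^ m - 1) := by
      field_simp
    rw [e, hhc]
    ring

/-- **The local step**: at a closed point of the special fibre with a level-one local equation `h`
of `E`, where `m E = div f` and `f` is regular along both components, the function `f / h ^ m` lies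
in the local ring and `f ≡ f / h ^ m` modulo `π` on every branch through the point. -/
theorem local_unit (M : Frame (K := K) π B0 B1 O1 O2) {B : Subalgebra R F}
    (hB : B = B0 ∨ B = B1) {𝔪 : Ideal B} (h𝔪 : 𝔪.IsMaximal) (hπ𝔪 : algebraMap R B π ∈ 𝔪)
    {m : ℕ} {E : Divisor K F} {f : F} (hf : f ≠ 0) (hf1 : f ∈ O1) (hf2 : f ∈ O2)
    (hdiv : ∀ P : Place K F, (m • E) P = P.ord f) {h : F} (hh : IsLocEq B 𝔪 E h)
    (h1 : StrictOn π B O1 𝔪 1 h) (h2 : StrictOn π B O2 𝔪 1 h) :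
    InLocal B 𝔪 (f / h ^ m) ∧
      (OffBranch π B O1 𝔪 ∨ ∃ c ∈ O1, f - f / h ^ m = algebraMap R F π * c) ∧
      (OffBranch π B O2 𝔪 ∨ ∃ c ∈ O2, f - f / h ^ m = algebraMap R F π * c) := by
  obtain ⟨a1, b1⟩ := branch_of_strict M.pi_mem1 m hf1 h1
  obtain ⟨a2, b2⟩ := branch_of_strict M.pi_mem2 m hf2 h2
  have hpow0 : h ^ m ≠ 0 := pow_ne_zero m hh.1
  refine ⟨M.hart B hB 𝔪 h𝔪 hπ𝔪 _ (div_ne_zero hf hpow0) (fun P hP => ?_) a1 a2, b1, b2⟩
  have e1 : (m • E) P = (m : ℤ) * E P := by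
    rw [Finsupp.smul_apply, nsmul_eq_mul]
  rw [div_eq_mul_inv, P.ord_mul hf (inv_ne_zero hpow0), P.ord_inv, ← zpow_natCast, P.ord_zpow,
    hh.2 P hP, ← hdiv P, e1]
  exact le_of_eq (add_neg_cancel _).symm

/-- **`f` is constant on the special fibre**: if `m E = div f` with `E` of level one and `f` regular
along both components, then `f ≡ r mod π (O1 ⊓ O2)` for a constant `r ∈ R`. -/
theorem exists_const (M : Frame (K := K) π B0 B1 O1 O2) {Bs : Subalgebra R F} {𝔪s : Ideal Bs}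
    (hs : IsNode π B0 B1 O1 O2 Bs 𝔪s) {m : ℕ} {E : Divisor K F}
    (hE : HasLevel π B0 B1 O1 O2 1 E) {f : F} (hf : f ≠ 0) (hf1 : f ∈ O1) (hf2 : f ∈ O2)
    (hdiv : ∀ P : Place K F, (m • E) P = P.ord f) :
    ∃ r : R, PiO π O1 O2 (f - algebraMap R F r) := by
  have hp0 : algebraMap R F π ≠ 0 := M.unif1.ne_zero
  have hlev : ∀ B : Subalgebra R F, B = B0 ∨ B = B1 → ChartLevel π B O1 O2 1 E := by
    rintro B (rfl | rfl)
    · exact hE.1
    · exact hE.2
  obtain ⟨r1, c1, hc1, hfr1⟩ := M.const1 f hf1 (by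
    intro B hB 𝔪 h𝔪 hπ𝔪 hon
    obtain ⟨h, hh, h1, h2⟩ := hlev B hB 𝔪 h𝔪 hπ𝔪
    obtain ⟨hw, b1, -⟩ := local_unit M hB h𝔪 hπ𝔪 hf hf1 hf2 hdiv hh h1 h2
    exact ⟨_, hw, b1.resolve_left hon⟩)
  obtain ⟨r2, c2, hc2, hfr2⟩ := M.const2 f hf2 (by
    intro B hB 𝔪 h𝔪 hπ𝔪 hon
    obtain ⟨h, hh, h1, h2⟩ := hlev B hB 𝔪 h𝔪 hπ𝔪
    obtain ⟨hw, -, b2⟩ := local_unit M hB h𝔪 hπ𝔪 hf hf1 hf2 hdiv hh h1 h2
    exact ⟨_, hw, b2.resolve_left hon⟩)
  -- the two constants agree modulo `π`: compare at the node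
  obtain ⟨h, hh, h1, h2⟩ := hlev Bs hs.chart 𝔪s hs.max hs.pi_mem
  obtain ⟨hw, b1, b2⟩ := local_unit M hs.chart hs.max hs.pi_mem hf hf1 hf2 hdiv hh h1 h2
  obtain ⟨d1, hd1, hfd1⟩ := b1.resolve_left hs.on1
  obtain ⟨d2, hd2, hfd2⟩ := b2.resolve_left hs.on2
  have hdvd : π ∣ r1 - r2 :=
    node_compare hs.max M.dvrR (M.le1 Bs hs.chart) (M.le2 Bs hs.chart) hs.on1 hs.on2 hw
      ⟨c1 - d1, sub_mem hc1 hd1, by linear_combination hfr1 - hfd1⟩
      ⟨c2 - d2, sub_mem hc2 hd2, by linear_combination hfr2 - hfd2⟩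
  obtain ⟨s, hs'⟩ := hdvd
  have e : algebraMap R F r1 - algebraMap R F r2 = algebraMap R F π * algebraMap R F s := by
    rw [← map_sub, hs', map_mul]
  have hc12 : c1 = c2 - algebraMap R F s := by
    apply mul_left_cancel₀ hp0
    linear_combination (-1 : F) * hfr1 + hfr2 - e
  refine ⟨r1, c1, hc1, ?_, hfr1⟩
  rw [hc12]
  exact sub_mem hc2 (M.algebraMap_mem2 s)

/-- A constant of `R` congruent modulo `π O` to a unit of the Gauss ring `O` is a unit of `R`. -/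
theorem isUnit_of_congr (dvrR : ∀ r : R, r ≠ 0 → ∃ (k : ℕ) (v : Rˣ), r = π ^ k * v)
    {O : ValuationSubring F} (hu : IsUnifOf O (algebraMap R F π))
    (hR : ∀ r : R, algebraMap R F r ∈ O) {f : F} (hf0 : f ≠ 0) (hf' : f⁻¹ ∈ O) {r : R} {c : F}
    (hc : c ∈ O) (hfr : f - algebraMap R F r = algebraMap R F π * c) : IsUnit r := by
  by_contra hr
  have hdvd : π ∣ r := by
    by_cases hr0 : r = 0
    · rw [hr0]
      exact dvd_zero π
    obtain ⟨k, v, hkv⟩ := dvrR r hr0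
    rcases Nat.eq_zero_or_pos k with rfl | hk
    · exfalso
      apply hr
      rw [hkv, pow_zero, one_mul]
      exact v.isUnit
    · rw [hkv]
      exact Dvd.dvd.mul_right (dvd_pow_self π hk.ne') _
  obtain ⟨r', rfl⟩ := hdvd
  apply hu.nonunit
  have hf'' : f = algebraMap R F π * (algebraMap R F r' + c) := by
    rw [map_mul] at hfr
    linear_combination hfr
  have hne : algebraMap R F r' + c ≠ 0 := by
    intro h0
    rw [h0, mul_zero] at hf''
    exact hf0 hf''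
  have e : (algebraMap R F π)⁻¹ = f⁻¹ * (algebraMap R F r' + c) := by
    rw [hf'', mul_inv, mul_assoc, inv_mul_cancel₀ hne, mul_one]
  rw [e]
  exact O.mul_mem _ _ hf' (O.add_mem _ _ (hR r') hc)

end Local

section Main

variable {R K F : Type*} [CommRing R] [Field K] [Field F] [Algebra R K] [Algebra K F]
  [Algebra R F] [IsScalarTower R K F]
variable {π : R} {t : F} {B0 B1 : Subalgebra R F} {O1 O2 : ValuationSubring F}

/-- A nonzero constant has order zero at every place. -/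
theorem ord_algebraMap_eq_zero (P : Place K F) (c : K) : P.ord (algebraMap K F c) = 0 :=
  Fermat.Agent.M1.Car.SmoothEq53.ord_eq_zero_of_mem_of_inv_mem P (P.algebraMap_mem' c)
    (by rw [← map_inv₀]; exact P.algebraMap_mem' _)

/-- **(B0), divisor form.**  On a nodal two-chart model, if `m` is invertible in `R`, `E` has level
one and `m E = div f` with `f` a unit along the first component and regular along the second, then
`E` is principal. -/
theorem principal_of_level_one (N : NodalNumData R K F π t B0 B1 O1 O2)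
    (M : Frame (K := K) π B0 B1 O1 O2) {Bs : Subalgebra R F} {𝔪s : Ideal Bs}
    (hs : IsNode π B0 B1 O1 O2 Bs 𝔪s) {m : ℕ} (hm : 0 < m) (minv : R)
    (hminv : (m : R) * minv = 1) {E : Divisor K F} (hE : HasLevel π B0 B1 O1 O2 1 E) {f : F}
    (hf : f ≠ 0) (hf1 : f ∈ O1) (hf1' : f⁻¹ ∈ O1) (hf2 : f ∈ O2)
    (hdiv : ∀ P : Place K F, (m • E) P = P.ord f) :
    ∃ s : F, s ≠ 0 ∧ ∀ P : Place K F, E P = P.ord s := by
  have hp0 : algebraMap R F π ≠ 0 := M.unif1.ne_zero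
  obtain ⟨r, c, hc1, hc2, hfr⟩ := exists_const M hs hE hf hf1 hf2 hdiv
  have hru : IsUnit r := isUnit_of_congr M.dvrR M.unif1 M.algebraMap_mem1 hf hf1' hc1 hfr
  obtain ⟨v, rfl⟩ := hru
  set ρ : F := algebraMap R F ((v⁻¹ : Rˣ) : R) with hρ
  have hvρ : algebraMap R F (v : R) * ρ = 1 := by
    rw [hρ, ← map_mul, Units.mul_inv, map_one]
  have hρ0 : ρ ≠ 0 := right_ne_zero_of_mul_eq_one hvρ
  have hordρ : ∀ P : Place K F, P.ord ρ = 0 := fun P =>
    Fermat.Agent.M1.Car.LocFrameInst53.ord_pi_eq_zero _ P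
  have hmE : ∀ P : Place K F, (m • E) P = (m : ℤ) * E P := fun P => by
    rw [Finsupp.smul_apply, nsmul_eq_mul]
  -- the normalised function
  have hu0 : f * ρ ≠ 0 := mul_ne_zero hf hρ0
  have hu1 : PiO π O1 O2 (f * ρ - 1) :=
    ⟨c * ρ, O1.mul_mem _ _ hc1 (M.algebraMap_mem1 _), O2.mul_mem _ _ hc2 (M.algebraMap_mem2 _), by
      linear_combination ρ * hfr + hvρ⟩
  have hordu : ∀ P : Place K F, P.ord (f * ρ) = (m : ℤ) * E P := fun P => by
    rw [P.ord_mul hf hρ0, hordρ, add_zero, ← hdiv P, hmE]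
  have hu2 : ∀ P : Place K F, (m : ℤ) ∣ P.ord (f * ρ) := fun P => by
    rw [hordu]
    exact dvd_mul_right _ _
  -- (U3) at the nodes
  have hU3 : ∀ B : Subalgebra R F, B = B0 ∨ B = B1 → ∀ 𝔪 : Ideal B, 𝔪.IsMaximal →
      algebraMap R B π ∈ 𝔪 → ¬ OffBranch π B O1 𝔪 → ¬ OffBranch π B O2 𝔪 →
      NodeDatum π B O1 O2 m (f * ρ) 𝔪 := by
    intro B hB 𝔪 h𝔪 hπ𝔪 hon1 hon2
    have hlev : ChartLevel π B O1 O2 1 E := by
      rcases hB with rfl | rfl
      · exact hE.1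
      · exact hE.2
    obtain ⟨h, hh, h1, h2⟩ := hlev 𝔪 h𝔪 hπ𝔪
    obtain ⟨⟨a, d, hd, had⟩, -, -⟩ := local_unit M hB h𝔪 hπ𝔪 hf hf1 hf2 hdiv hh h1 h2
    obtain ⟨h0, hi1, e1, he1, hhe1⟩ := h1.resolve_left hon1
    obtain ⟨-, hi2, e2, he2, hhe2⟩ := h2.resolve_left hon2
    rw [pow_one] at hhe1 hhe2
    have he12 : e1 = e2 := mul_left_cancel₀ hp0 (by rw [← hhe1, ← hhe2])
    refine ⟨h⁻¹, ⟨-(e1 * h⁻¹), O1.neg_mem _ (O1.mul_mem _ _ he1 hi1),
      O2.neg_mem _ (O2.mul_mem _ _ (he12 ▸ he2) hi2), ?_⟩,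
      0, a * algebraMap R B ((v⁻¹ : Rˣ) : R), d, hd, ?_⟩
    · have e : h⁻¹ - 1 = -((h - 1) * h⁻¹) := by
        field_simp
        ring
      rw [e, hhe1]
      ring
    · have ecoe : ((a * algebraMap R B ((v⁻¹ : Rˣ) : R) : B) : F) = (a : F) * ρ := rfl
      rw [ecoe, ← had, pow_zero, one_mul, div_eq_mul_inv, inv_pow]
      ring
  obtain ⟨s, hs0, c', hc'0, hsc⟩ := N.cl m hm minv hminv (f * ρ) hu1 hu2
    (fun 𝔪 h𝔪 hπ𝔪 n1 n2 _ => hU3 B0 (Or.inl rfl) 𝔪 h𝔪 hπ𝔪 n1 n2)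
    (fun 𝔪 h𝔪 hπ𝔪 n1 n2 _ => hU3 B1 (Or.inr rfl) 𝔪 h𝔪 hπ𝔪 n1 n2)
  refine ⟨s, hs0, fun P => ?_⟩
  have hc0F : algebraMap K F c' ≠ 0 := (map_ne_zero _).mpr hc'0
  have key : (m : ℤ) * P.ord s = (m : ℤ) * E P := by
    rw [← P.ord_zpow, zpow_natCast, hsc, P.ord_mul hc0F hu0, ord_algebraMap_eq_zero, zero_add,
      hordu]
  have hm0 : (m : ℤ) ≠ 0 := by exact_mod_cast hm.ne'
  exact (mul_left_cancel₀ hm0 key).symm

/-- **(B0) INJ: `Cart 1` has no `m`-torsion for `m` invertible in `R`** (nodal two-chart model,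
algebraically closed residue fields of the two components, at least one node). -/
theorem cart_one_torsion_free_of_numData (N : NodalNumData R K F π t B0 B1 O1 O2)
    (hac1 : Fermat.Agent.M1.Fib.Constants98.ResidueAlgClosed π O1)
    (hac2 : Fermat.Agent.M1.Fib.Constants98.ResidueAlgClosed π O2)
    (hnode : Fermat.Agent.M1.Fib.H0k98.HasNode π B0 B1 O1 O2)
    {hπ1 : algebraMap R F π ∈ O1} {hπ2 : algebraMap R F π ∈ O2}
    {m : ℕ} (hm : 0 < m) (minv : R) (hminv : (m : R) * minv = 1)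
    {x : Pic0 K F} (hx : x ∈ Cart π B0 B1 O1 O2 hπ1 hπ2 1) (hmx : m • x = 0) : x = 0 := by
  obtain ⟨D, rfl, hD⟩ := hx
  have M := Fermat.Agent.M1.Fib.FrameInst98.frame_of_numData N hac1 hac2
  obtain ⟨Bs, 𝔪s, hs⟩ := Fermat.Agent.M1.Car.TorsInst15.node_of_hasNode hnode
  obtain ⟨f, hf, hf1, hf1', hf2, -, hdiv⟩ :=
    Fermat.Agent.M1.Car.TorsClass43.exists_normalized M ⟨Bs, 𝔪s, hs⟩
      (Fermat.Agent.M1.Car.LocFrameInst53.ord_pi_eq_zero π) le_rfl D hmx hD
  obtain ⟨s, hs0, hsE⟩ := principal_of_level_one N M hs hm minv hminv hD hf hf1 hf1' hf2 hdiv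
  exact (QuotientAddGroup.eq_zero_iff _).mpr (AddSubgroup.mem_addSubgroupOf.mpr ⟨s, hs0, hsE⟩)

/-- The same with `IsUnit (m : R)`. -/
theorem cart_one_torsion_free_of_isUnit (N : NodalNumData R K F π t B0 B1 O1 O2)
    (hac1 : Fermat.Agent.M1.Fib.Constants98.ResidueAlgClosed π O1)
    (hac2 : Fermat.Agent.M1.Fib.Constants98.ResidueAlgClosed π O2)
    (hnode : Fermat.Agent.M1.Fib.H0k98.HasNode π B0 B1 O1 O2)
    {hπ1 : algebraMap R F π ∈ O1} {hπ2 : algebraMap R F π ∈ O2}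
    {m : ℕ} (hm : 0 < m) (hmu : IsUnit (m : R))
    {x : Pic0 K F} (hx : x ∈ Cart π B0 B1 O1 O2 hπ1 hπ2 1) (hmx : m • x = 0) : x = 0 := by
  obtain ⟨minv, hminv⟩ := hmu.exists_right_inv
  exact cart_one_torsion_free_of_numData N hac1 hac2 hnode hm minv hminv hx hmx

end Main

end Fermat.Agent.MAZ.PT.CartInj12
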