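/-
Programme MAZ (S15), G-side pole (PT) "purely toric reduction", brick **(B0) INJ** of report #2091 —
helper36 (cross-programme architect; audit #2153, item (S3)).

**`Cart n` (`n ≥ 1`) of a nodal two-chart model has no `m`-torsion for `m` invertible on the base.**

This is NOT new geometry: it is the class-level (T7) of programme M1
(`M1/Car/TorsInst15.cart_torsion_free_of_numData`: `Cart n [p] = 0` when `(p : R) = π ^ e * u` and
`n + e < p * n`) instantiated at ramification exponent `e = 0`, i.e. at a prime `r` which is a UNIT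
of the base `R` (`(r : R) = π ^ 0 * r`, and `n + 0 < r * n` holds for every `n ≥ 1`).  The general
`m` follows by induction on `m` (split off one prime factor).

* `cart_prime_unit_torsion_free` : `r` prime, `(r : R)` a unit, `x ∈ Cart n`, `r • x = 0 ⟹ x = 0`.
* `cart_unit_torsion_free`       : the same for every `m : ℕ` with `(m : R)` a unit.
* `cart_prime_pow_torsion_free`  : the `r ^ k` form consumed by (PT) (`Cart 1 ∩ Pic⁰[r^k] = 0`).
-/
import Mathlib
import Fermat.Agent.M1.Car.TorsInst15

set_option autoImplicit false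

namespace Fermat.Agent.MAZ.PT.CartNoTors36

open AlgebraicCurve Fermat.Agent.ES.N34.NodalCore13 Fermat.Agent.ES.N34.NumData13
  Fermat.Agent.M1.Car.Defs43 Fermat.Agent.M1.Fib.H0k98 Fermat.Agent.M1.Fib.Seminormal98
  Fermat.Agent.M1.Fib.Constants98

variable {R K F : Type*} [CommRing R] [Field K] [Field F] [Algebra R K] [Algebra K F]
  [Algebra R F] [IsScalarTower R K F]
variable {π : R} {t : F} {B0 B1 : Subalgebra R F} {O1 O2 : ValuationSubring F}

/-- **(B0), prime case** = (T7) of M1 at `e = 0`. -/
theorem cart_prime_unit_torsion_free [HasPrincipalDivisors K F]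
    (N : NodalNumData R K F π t B0 B1 O1 O2)
    (hac1 : ResidueAlgClosed π O1) (hac2 : ResidueAlgClosed π O2)
    (hnode : HasNode π B0 B1 O1 O2)
    {hπ1 : algebraMap R F π ∈ O1} {hπ2 : algebraMap R F π ∈ O2}
    {r n : ℕ} (hr : r.Prime) (hu : IsUnit (r : R)) (hn : 1 ≤ n)
    {x : Pic0 K F} (hx : x ∈ Cart π B0 B1 O1 O2 hπ1 hπ2 n) (hrx : r • x = 0) : x = 0 := by
  obtain ⟨u, hu'⟩ := hu
  refine Fermat.Agent.M1.Car.TorsInst15.cart_torsion_free_of_numData N hac1 hac2 hnode
    (p := r) (e := 0) (n := n) hr u ?_ hn ?_ hx hrx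
  · rw [pow_zero, one_mul, hu']
  · have h2 : 2 ≤ r := hr.two_le
    nlinarith

/-- **(B0), general form**: `Cart n` (`n ≥ 1`) has no `m`-torsion for `m` invertible in `R`. -/
theorem cart_unit_torsion_free [HasPrincipalDivisors K F]
    (N : NodalNumData R K F π t B0 B1 O1 O2)
    (hac1 : ResidueAlgClosed π O1) (hac2 : ResidueAlgClosed π O2)
    (hnode : HasNode π B0 B1 O1 O2)
    {hπ1 : algebraMap R F π ∈ O1} {hπ2 : algebraMap R F π ∈ O2}
    {n : ℕ} (hn : 1 ≤ n) :
    ∀ (m : ℕ), IsUnit (m : R) → ∀ {x : Pic0 K F}, x ∈ Cart π B0 B1 O1 O2 hπ1 hπ2 n →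
      m • x = 0 → x = 0 := by
  intro m
  induction m using Nat.strong_induction_on with
  | _ m ih =>
    intro hm x hx hmx
    rcases Nat.lt_or_ge m 2 with hlt | hge
    · interval_cases m
      · -- `m = 0`: `(0 : R)` is a unit, so `R` is trivial, so is `F`
        exfalso
        have h0 : IsUnit (0 : R) := by simpa using hm
        have hR : (1 : R) = 0 := by
          obtain ⟨v, hv⟩ := h0
          have := v.mul_inv
          rw [hv, zero_mul] at this
          exact this.symm
        have hF : (1 : F) = 0 := by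
          rw [← map_one (algebraMap R F), hR, map_zero]
        exact one_ne_zero hF
      · simpa using hmx
    · obtain ⟨r, hr, hrm⟩ := Nat.exists_prime_and_dvd (by omega : m ≠ 1)
      obtain ⟨m', rfl⟩ := hrm
      have hru : IsUnit (r : R) := by
        have : IsUnit ((r : R) * (m' : R)) := by simpa [Nat.cast_mul] using hm
        exact isUnit_of_mul_isUnit_left this
      have hmu : IsUnit (m' : R) := by
        have : IsUnit ((r : R) * (m' : R)) := by simpa [Nat.cast_mul] using hm
        exact isUnit_of_mul_isUnit_right this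
      have hm'pos : 0 < m' := by
        rcases Nat.eq_zero_or_pos m' with h | h
        · subst h; omega
        · exact h
      have hlt : m' < r * m' := by
        have h2 : 2 ≤ r := hr.two_le
        nlinarith
      have hx' : m' • x ∈ Cart π B0 B1 O1 O2 hπ1 hπ2 n := AddSubgroup.nsmul_mem _ hx m'
      have h1 : m' • x = 0 :=
        cart_prime_unit_torsion_free N hac1 hac2 hnode hr hru hn hx' (by rw [← mul_nsmul']; exact hmx)
      exact ih m' hlt hmu hx h1

/-- **(B0) in the form consumed by (PT)**: `Cart n ∩ Pic⁰[r ^ k] = 0` for a prime `r` invertible on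
the base (`n ≥ 1`). -/
theorem cart_prime_pow_torsion_free [HasPrincipalDivisors K F]
    (N : NodalNumData R K F π t B0 B1 O1 O2)
    (hac1 : ResidueAlgClosed π O1) (hac2 : ResidueAlgClosed π O2)
    (hnode : HasNode π B0 B1 O1 O2)
    {hπ1 : algebraMap R F π ∈ O1} {hπ2 : algebraMap R F π ∈ O2}
    {r n : ℕ} (hu : IsUnit (r : R)) (hn : 1 ≤ n) (k : ℕ)
    {x : Pic0 K F} (hx : x ∈ Cart π B0 B1 O1 O2 hπ1 hπ2 n) (hrx : r ^ k • x = 0) : x = 0 :=
  cart_unit_torsion_free N hac1 hac2 hnode hn (r ^ k) (by rw [Nat.cast_pow]; exact hu.pow k) hx hrx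

end Fermat.Agent.MAZ.PT.CartNoTors36
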