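/-
Programme MAZ (S15), G-side, route PT-GAL, brick (G1) suppliers (hA) and (hB) (helper63).

The two inputs `ConstByConst` and `MuByMu` of helper95's `AdmStructure95` (an admissible module over all
of `Spec ℤ` is an extension of a constant group by a `μ`-type group), for the concrete class
`FlatAdm68.OkMod r k p` ∧ "inertia at `p` acts trivially", `r` odd:

* `const_by_const_okMod` (hA): an extension of a constant module by a constant module is constant
  (general-exponent (R1) at `r` = `FlatUnip63`, `OkMod.unram` away from `r`, `p`, the hypothesis at `p`,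
  finite level from flatness, Minkowski = `Minkowski19.hom_eq_one_of_unramified`);
* `mu_by_mu_okMod` (hB): an extension of a `μ`-type module by a `μ`-type module is `μ`-type
  ((hA) on the Cartier dual `Dual N C`, which is again in the class by `CartierOk68.okMod_dual`;
  characters separate points).
-/
import Mathlib
import Fermat.Agent.MAZ.Local.FlatUnip63
import Fermat.Agent.MAZ.Desc.FlatAdm68
import Fermat.Agent.MAZ.Desc.Minkowski19
import Fermat.Agent.MAZ.Flat.CartierOk68

set_option autoImplicit false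
set_option linter.unusedSectionVars false
set_option linter.style.haveILetI false

noncomputable section

namespace Fermat.Agent.MAZ.PT.ConstMu63

open Fermat.Agent.TW.FF.FlatModel68 Fermat.Agent.MAZ.Desc.FlatAdm68
open Fermat.Agent.MAZ.Desc.DualModule2 Fermat.Agent.MAZ.Flat.CartierOk68

local notation "Qb" => AlgebraicClosure ℚ

variable {r : ℕ} [Fact r.Prime] {k p : ℕ}

/-! ### (hA) constant by constant -/

section ConstByConst

variable {N : Type} [AddCommGroup N] [DistribMulAction GQ N]

/-- **(hA)** In the class `OkMod r k p` ∧ "unramified at `p`" (`r` odd), an extension of a constant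
module by a constant module is constant. -/
theorem const_by_const_okMod (hr2 : r ≠ 2) (hOk : OkMod r k p N)
    (hunrp : ∀ 𝔄 : ValuationSubring Qb, 𝔄.LiesOverPrime p →
      ∀ σ ∈ 𝔄.inertiaSubgroupIn ℚ, ∀ x : N, σ • x = x)
    (W : AddSubgroup N) (hW : ∀ g : GQ, ∀ w ∈ W, g • w = w)
    (hNW : ∀ (g : GQ) (x : N), g • x - x ∈ W) : ∀ (g : GQ) (x : N), g • x = x := by
  haveI := hOk.finite
  let f : GQ →* Equiv.Perm N := MulAction.toPermHom GQ N
  have hf : ∀ (σ : GQ) (x : N), f σ x = σ • x := fun σ x => rfl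
  have hopen : ∃ L : IntermediateField ℚ Qb, FiniteDimensional ℚ L ∧ L.fixingSubgroup ≤ f.ker := by
    obtain ⟨L, hL, hfix⟩ := exists_fixingSubgroup_le hOk.flat
    refine ⟨L, hL, fun σ hσ => ?_⟩
    rw [MonoidHom.mem_ker]
    ext x
    rw [hf]
    exact hfix σ hσ x
  have hunr : ∀ ℓ : ℕ, ℓ.Prime → ∀ A : ValuationSubring Qb, A.LiesOverPrime ℓ →
      ∀ σ ∈ A.inertiaSubgroupIn ℚ, f σ = 1 := by
    intro ℓ hℓ A hA σ hσ
    ext x
    rw [hf]
    change σ • x = x
    by_cases hℓr : ℓ = r
    · subst hℓr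
      exact Fermat.Agent.MAZ.Local.FlatUnip63.act_eq_of_flat_of_unipotent_pow hr2 hOk.flat k
        hOk.killed hA W (fun σ' _ w hw => hW σ' w hw) (fun σ' _ e => hNW σ' e) σ hσ x
    · by_cases hℓp : ℓ = p
      · subst hℓp
        exact hunrp A hA σ hσ x
      · exact hOk.unram ℓ hℓ hℓr hℓp A hA σ hσ x
  intro g x
  have h := Fermat.Agent.MAZ.Desc.Minkowski19.hom_eq_one_of_unramified f hopen hunr g
  have h2 := congrArg (fun e : Equiv.Perm N => e x) h
  simpa [hf] using h2

end ConstByConst

/-! ### Characters separate points -/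

section Separation

variable {N : Type} [AddCommGroup N] [Finite N]
variable (C : Type) [AddCommGroup C] [Finite C] [IsAddCyclic C]

/-- characters with values in a cyclic group `C` separate the points of a finite group killed by
`#C`. -/
theorem eq_zero_of_forall_dual_eq_zero (hNC : ∀ x : N, Nat.card C • x = 0) (y : N)
    (hy : ∀ d : Dual N C, d.hom y = 0) : y = 0 := by
  classical
  let S : AddSubgroup N := AddSubgroup.zmultiples y
  have htop : Dual.ann C S = ⊤ := by
    rw [eq_top_iff]
    intro d _ x hx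
    obtain ⟨n, rfl⟩ := AddSubgroup.mem_zmultiples_iff.1 hx
    rw [map_zsmul, hy d, smul_zero]
  have h1 : Nat.card (Dual.ann C S) = Nat.card (N ⧸ S) := card_ann C hNC S
  have h2 : Nat.card (Dual.ann C S) = Nat.card N := by
    rw [htop, ← card_dual C hNC]
    exact Nat.card_congr (AddSubgroup.topEquiv (G := Dual N C)).toEquiv
  have h3 : Nat.card S * Nat.card (N ⧸ S) = Nat.card N :=
    (AddSubgroup.card_eq_card_quotient_mul_card_addSubgroup S).symm ▸ (Nat.mul_comm _ _)
  have hpos : 0 < Nat.card N := Nat.card_pos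
  have h4 : Nat.card S = 1 := by
    rw [← h1, h2] at h3
    have : Nat.card S * Nat.card N = 1 * Nat.card N := by rw [h3, one_mul]
    exact Nat.eq_of_mul_eq_mul_right hpos this
  have h5 : S = ⊥ := AddSubgroup.card_eq_one.1 h4
  have hyS : y ∈ S := AddSubgroup.mem_zmultiples y
  rw [h5, AddSubgroup.mem_bot] at hyS
  exact hyS

end Separation

/-! ### (hB) `μ` by `μ` -/

section MuByMu

variable {N : Type} [AddCommGroup N] [DistribMulAction GQ N]
variable {C : Type} [AddCommGroup C] [DistribMulAction GQ C] [Finite C] [IsAddCyclic C]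

/-- **(hB)** In the class `OkMod r k p` ∧ "unramified at `p`" (`r` odd), an extension of a `μ`-type
module by a `μ`-type module is `μ`-type.  `C` is a cyclic group of roots of unity (embedding `j`),
unramified outside `r` (hypotheses `hC`, `hCp`), on which `g` acts through the integer `ε g`, and whose
order kills `N` (`C = μ_{r^k}`). -/
theorem mu_by_mu_okMod (hr2 : r ≠ 2) (hOk : OkMod r k p N)
    (hunrp : ∀ 𝔄 : ValuationSubring Qb, 𝔄.LiesOverPrime p →
      ∀ σ ∈ 𝔄.inertiaSubgroupIn ℚ, ∀ x : N, σ • x = x)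
    (hNC : ∀ x : N, Nat.card C • x = 0)
    (j : C → Qb) (j_add : ∀ c c', j (c + c') = j c * j c') (j_zero : j 0 = 1)
    (j_smul : ∀ (σ : GQ) c, j (σ • c) = σ (j c)) (j_inj : Function.Injective j)
    (hC : ∀ q : ℕ, q.Prime → q ≠ r → q ≠ p → ∀ A : ValuationSubring Qb, A.LiesOverPrime q →
      ∀ σ ∈ A.inertiaSubgroupIn ℚ, ∀ c : C, σ • c = c)
    (hCp : ∀ 𝔄 : ValuationSubring Qb, 𝔄.LiesOverPrime p →
      ∀ σ ∈ 𝔄.inertiaSubgroupIn ℚ, ∀ c : C, σ • c = c)
    (ε : GQ → ℕ) (hεC : ∀ (g : GQ) (c : C), g • c = ε g • c)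
    (W : AddSubgroup N) (hW : ∀ g : GQ, ∀ w ∈ W, g • w = ε g • w)
    (hNW : ∀ (g : GQ) (x : N), g • x - ε g • x ∈ W) : ∀ (g : GQ) (x : N), g • x = ε g • x := by
  haveI := hOk.finite
  -- the dual module is in the class
  have hOkD : OkMod r k p (Dual N C) := okMod_dual hOk j j_add j_zero j_smul j_inj hC
  have hunrpD : ∀ 𝔄 : ValuationSubring Qb, 𝔄.LiesOverPrime p →
      ∀ σ ∈ 𝔄.inertiaSubgroupIn ℚ, ∀ d : Dual N C, σ • d = d := by
    intro 𝔄 h𝔄 σ hσ d
    apply Dual.ext
    intro x
    rw [Dual.smul_hom, hunrp 𝔄 h𝔄 σ⁻¹ (inv_mem hσ) x, hCp 𝔄 h𝔄 σ hσ]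
  -- `W` is stable under `G`
  have hWst : ∀ (g : GQ), ∀ w ∈ W, g • w ∈ W := fun g w hw => by
    rw [hW g w hw]
    exact W.nsmul_mem hw _
  -- `g` acts trivially on the annihilator of `W`
  have hann : ∀ g : GQ, ∀ d ∈ Dual.ann C W, g • d = d := by
    intro g d hd
    apply Dual.ext
    intro x
    rw [Dual.smul_hom, hεC, ← map_nsmul]
    have h1 : x - ε g • g⁻¹ • x ∈ W := by
      have := hNW g (g⁻¹ • x)
      rwa [smul_inv_smul] at this
    have h2 : d.hom (x - ε g • g⁻¹ • x) = 0 := hd _ h1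
    rw [map_sub, sub_eq_zero] at h2
    exact h2.symm
  -- `g • d - d` kills `W`
  have hsub : ∀ (g : GQ) (d : Dual N C), g • d - d ∈ Dual.ann C W := by
    intro g d w hw
    rw [Dual.hom_sub, Dual.smul_hom, hεC, ← map_nsmul, sub_eq_zero]
    have h1 : g⁻¹ • w ∈ W := hWst g⁻¹ w hw
    have h2 : g • g⁻¹ • w = ε g • g⁻¹ • w := hW g _ h1
    rw [smul_inv_smul] at h2
    rw [← h2]
  -- (hA) on the dual
  have hD := const_by_const_okMod hr2 hOkD hunrpD (Dual.ann C W) hann hsub
  -- back to `N`
  intro g x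
  have key : ∀ d : Dual N C, d.hom (g • x - ε g • x) = 0 := by
    intro d
    have h4 := hD g d
    have h5 : (g • d).hom (g • x) = d.hom (g • x) := by rw [h4]
    rw [Dual.smul_hom, inv_smul_smul, hεC] at h5
    rw [map_sub, map_nsmul, sub_eq_zero]
    exact h5.symm
  have h0 := eq_zero_of_forall_dual_eq_zero C hNC (g • x - ε g • x) key
  exact sub_eq_zero.1 h0

end MuByMu

end Fermat.Agent.MAZ.PT.ConstMu63
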