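/-
Program MAZ (S15), PT-GAL brick (G5) HALF-RANK (helper32) -- STOPPED by ruling #2346 (the
finite-level route needs no half-rank count).  Only the reusable Mathlib-level core is kept:

* `exists_annihilator_eq_bot` : a faithful module over a reduced commutative Artinian ring contains
  an element with zero annihilator (so the ring embeds in the module);
* `finrank_le_of_faithful` : hence `dim_K A ≤ dim_K M` for a faithful module `M` over a reduced
  finite-dimensional commutative `K`-algebra `A`.

Mathlib only.
-/
import Mathlib

set_option autoImplicit false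

namespace Fermat.Agent.MAZ.PT.HalfRank32

open Module

section Artinian

variable {A : Type*} [CommRing A] [IsArtinianRing A] [IsReduced A]
  {M : Type*} [AddCommGroup M] [Module A M]

/-- A faithful module over a reduced commutative Artinian ring contains an element with zero
annihilator. -/
theorem exists_annihilator_eq_bot (hfaith : ∀ a : A, (∀ m : M, a • m = 0) → a = 0) :
    ∃ m : M, ∀ a : A, a • m = 0 → a = 0 := by
  classical
  let _ : ∀ I : MaximalSpectrum A, Field (A ⧸ I.asIdeal) := fun I =>
    Ideal.Quotient.field I.asIdeal
  have : Fintype (MaximalSpectrum A) := Fintype.ofFinite _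
  set e := IsArtinianRing.equivPi A with he
  set ε : MaximalSpectrum A → A := fun I => e.symm (Pi.single I 1) with hε
  have hεmul : ∀ I J, I ≠ J → ε I * ε J = 0 := by
    intro I J hIJ
    apply e.injective
    rw [map_mul, map_zero]
    simp only [hε, AlgEquiv.apply_symm_apply]
    rw [← Pi.single_mul_left, Pi.single_eq_of_ne hIJ, mul_zero, Pi.single_zero]
  have hεsq : ∀ I, ε I * ε I = ε I := by
    intro I
    apply e.injective
    rw [map_mul]
    simp only [hε, AlgEquiv.apply_symm_apply]
    rw [← Pi.single_mul, one_mul]
  have hεne : ∀ I, ε I ≠ 0 := by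
    intro I h
    have h1 : e (ε I) I = 0 := by rw [h, map_zero]; rfl
    simp only [hε, AlgEquiv.apply_symm_apply, Pi.single_eq_same] at h1
    exact one_ne_zero h1
  have hex : ∀ I, ∃ m : M, ε I • m ≠ 0 := by
    intro I
    by_contra h
    push Not at h
    exact hεne I (hfaith _ h)
  choose mI hmI using hex
  refine ⟨∑ J, ε J • mI J, fun a ha => ?_⟩
  apply e.injective
  rw [map_zero]
  funext I
  by_contra hne
  change e a I ≠ 0 at hne
  -- multiply by `ε I`
  have h1 : (a * ε I) • mI I = 0 := by
    have h2 : ε I • (a • ∑ J, ε J • mI J) = 0 := by rw [ha, smul_zero]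
    rw [Finset.smul_sum, Finset.smul_sum] at h2
    rw [Finset.sum_eq_single I] at h2
    · rw [smul_smul, smul_smul] at h2
      rw [← h2]
      congr 1
      rw [mul_comm (ε I) a, mul_assoc, hεsq]
    · intro J _ hJ
      rw [smul_smul, smul_smul, mul_comm (ε I) a, mul_assoc, hεmul I J (Ne.symm hJ), mul_zero,
        zero_smul]
    · intro h; exact absurd (Finset.mem_univ I) h
  set b : A := e.symm (Pi.single I (e a I)⁻¹) with hb
  have h3 : b * (a * ε I) = ε I := by
    apply e.injective
    rw [map_mul, map_mul]
    simp only [hb, hε, AlgEquiv.apply_symm_apply]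
    funext J
    by_cases hJ : J = I
    · subst hJ
      simp only [Pi.mul_apply, Pi.single_eq_same, mul_one]
      exact inv_mul_cancel₀ hne
    · simp only [Pi.mul_apply, Pi.single_eq_of_ne hJ, mul_zero]
  apply hmI I
  rw [← h3, mul_smul, h1, smul_zero]

end Artinian

section Dim

variable {K : Type*} [Field K] {A : Type*} [CommRing A] [Algebra K A] [FiniteDimensional K A]
  [IsReduced A] {M : Type*} [AddCommGroup M] [Module K M] [Module A M] [IsScalarTower K A M]
  [FiniteDimensional K M]

/-- A faithful module over a reduced finite-dimensional commutative algebra has at least the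
dimension of the algebra. -/
theorem finrank_le_of_faithful (hfaith : ∀ a : A, (∀ m : M, a • m = 0) → a = 0) :
    finrank K A ≤ finrank K M := by
  have : IsArtinianRing A := IsArtinianRing.of_finite K A
  obtain ⟨m, hm⟩ := exists_annihilator_eq_bot (A := A) (M := M) hfaith
  let f : A →ₗ[K] M :=
    { toFun := fun a => a • m
      map_add' := fun a b => add_smul a b m
      map_smul' := fun c a => by simp only [RingHom.id_apply, smul_assoc] }
  refine LinearMap.finrank_le_finrank_of_injective (f := f) ?_
  rw [injective_iff_map_eq_zero]
  intro a ha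
  exact hm a ha

end Dim

end Fermat.Agent.MAZ.PT.HalfRank32

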