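/-
Programme MAZ (S15), pole P1 (PT), route PT-GAL, brick (G4-a) = (M1) (helper22):
**multiplicity one at prime level, basic form.**

`eq_zero_of_qCoeff_coprime` : a weight 2 cusp form on `Γ₀(p)` whose `q`-expansion coefficients `a_n`
vanish for all `n` prime to `p` is zero.  (The proof only uses `p ≠ 0`: `eq_zero_of_qCoeff_not_dvd`.)

Proof.  Put `δ = diag(1, p) ∈ GL₂(ℝ)` and `g := f ∣[2] δ` (`g(z) = f(z/p)/p`).
* `f(w + 1/p) = f(w)` : compare the two `q`-expansions termwise (`a_m = 0` unless `p ∣ m`, and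
  `exp(2πi m/p) = 1` when `p ∣ m`), i.e. `f ∣[2] [[1,1/p],[0,1]] = f`; since
  `δ T = [[1,1/p],[0,1]] δ` this gives `g ∣[2] T = g`;
* `δ [[1,0],[1,1]] = [[1,0],[p,1]] δ` and `[[1,0],[p,1]] ∈ Γ₀(p)` give `g ∣[2] [[1,0],[1,1]] = g`;
* `S = T⁻¹ [[1,0],[1,1]] T⁻¹`, and `S, T` generate `SL₂(ℤ)`, so `g` is a cusp form of level one and
  weight 2, hence zero (Mathlib: `CuspForm.rank_eq_zero_of_weight_lt_twelve`); `f = g ∣[2] δ⁻¹ = 0`.

Mathlib + Prelude (`ModularFormClass.qCoeff`) only.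
-/
import Mathlib
import Fermat.Prelude.Def_FLTPrelim_Modularity

set_option autoImplicit false
set_option linter.unusedSectionVars false
set_option linter.unusedSimpArgs false
set_option linter.style.haveILetI false

open UpperHalfPlane ModularForm CongruenceSubgroup Matrix MatrixGroups Complex

noncomputable section

namespace Fermat.Agent.MAZ.PT.MultOne22

local notation "𝕢" => Function.Periodic.qParam

/-! ### 1. The period `1/p` from the `q`-expansion -/

theorem qParam_vadd_pow {p : ℕ} (hp : p ≠ 0) (τ : ℍ) (j : ℕ) :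
    𝕢 1 (↑(((p : ℝ)⁻¹) +ᵥ τ) : ℂ) ^ (p * j) = 𝕢 1 (τ : ℂ) ^ (p * j) := by
  have hpc : (p : ℂ) ≠ 0 := Nat.cast_ne_zero.mpr hp
  have h1 : 𝕢 1 (↑(((p : ℝ)⁻¹) +ᵥ τ) : ℂ) =
      𝕢 1 (τ : ℂ) * Complex.exp (2 * Real.pi * Complex.I / p) := by
    unfold Function.Periodic.qParam
    rw [← Complex.exp_add]
    congr 1
    rw [UpperHalfPlane.coe_vadd]
    push_cast
    field_simp
    ring
  rw [h1, mul_pow]
  have h2 : Complex.exp (2 * Real.pi * Complex.I / p) ^ (p * j) = 1 := by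
    rw [pow_mul, ← Complex.exp_nat_mul]
    have : (p : ℂ) * (2 * Real.pi * Complex.I / p) = 2 * Real.pi * Complex.I := by
      field_simp
    rw [this, Complex.exp_two_pi_mul_I, one_pow]
  rw [h2, mul_one]

theorem one_mem_strictPeriods (N : ℕ) :
    (1 : ℝ) ∈ ((Gamma0 N : Subgroup SL(2, ℤ)) : Subgroup (GL (Fin 2) ℝ)).strictPeriods := by
  rw [strictPeriods_Gamma0]
  exact AddSubgroup.mem_zmultiples 1

theorem isCusp_infty (N : ℕ) :
    Fact (IsCusp OnePoint.infty ((Gamma0 N : Subgroup SL(2, ℤ)) : Subgroup (GL (Fin 2) ℝ))) :=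
  ⟨Subgroup.isCusp_of_mem_strictPeriods one_pos (one_mem_strictPeriods N)⟩

/-- if all coefficients of index not divisible by `p` vanish, then `f` has period `1/p`. -/
theorem vadd_inv_apply {p : ℕ} (hp : p ≠ 0) (f : CuspForm (Gamma0 p) 2)
    (h : ∀ n : ℕ, ¬ p ∣ n → ModularFormClass.qCoeff f n = 0) (τ : ℍ) :
    f (((p : ℝ)⁻¹) +ᵥ τ) = f τ := by
  haveI := isCusp_infty p
  have hs1 := ModularForm.hasSum_qExpansion f one_pos (one_mem_strictPeriods p)
    (((p : ℝ)⁻¹) +ᵥ τ)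
  have hs2 := ModularForm.hasSum_qExpansion f one_pos (one_mem_strictPeriods p) τ
  have heq : (fun m => (PowerSeries.coeff m) (qExpansion 1 ⇑f) *
        𝕢 1 (↑(((p : ℝ)⁻¹) +ᵥ τ) : ℂ) ^ m) =
      fun m => (PowerSeries.coeff m) (qExpansion 1 ⇑f) * 𝕢 1 (τ : ℂ) ^ m := by
    funext m
    by_cases hm : p ∣ m
    · obtain ⟨j, rfl⟩ := hm
      rw [qParam_vadd_pow hp]
    · have := h m hm
      unfold ModularFormClass.qCoeff at this
      rw [this, zero_mul, zero_mul]
  rw [heq] at hs1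
  exact hs1.unique hs2

/-! ### 2. Matrix identities -/

/-- `diag(1, p)` in `GL₂(ℝ)`. -/
def delta (p : ℕ) [NeZero p] : GL (Fin 2) ℝ :=
  Matrix.GeneralLinearGroup.mkOfDetNeZero !![1, 0; 0, (p : ℝ)] (by
    simp [Matrix.det_fin_two_of, NeZero.ne p])

/-- `[[1,0],[1,1]]` in `SL₂(ℤ)`. -/
def lowerOne : SL(2, ℤ) := ⟨!![1, 0; 1, 1], by simp [Matrix.det_fin_two_of]⟩

/-- `[[1,0],[p,1]]` in `SL₂(ℤ)`. -/
def lowerP (p : ℕ) : SL(2, ℤ) := ⟨!![1, 0; (p : ℤ), 1], by simp [Matrix.det_fin_two_of]⟩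

theorem lowerP_mem (p : ℕ) : lowerP p ∈ Gamma0 p := by
  rw [Gamma0_mem]
  simp [lowerP]

theorem S_eq : ModularGroup.S = ModularGroup.T⁻¹ * lowerOne * ModularGroup.T⁻¹ := by
  apply Subtype.ext
  rw [Matrix.SpecialLinearGroup.coe_mul, Matrix.SpecialLinearGroup.coe_mul, ← _root_.zpow_neg_one,
    ModularGroup.coe_T_zpow, ModularGroup.coe_S]
  simp [lowerOne, Matrix.mul_fin_two]

theorem coe_mapGL (g : SL(2, ℤ)) (i j : Fin 2) :
    ((Matrix.SpecialLinearGroup.mapGL ℝ g : GL (Fin 2) ℝ) : Matrix (Fin 2) (Fin 2) ℝ) i j =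
      ((g : Matrix (Fin 2) (Fin 2) ℤ) i j : ℝ) := by
  rw [Matrix.SpecialLinearGroup.mapGL_coe_matrix]
  simp

theorem delta_mul_T (p : ℕ) [NeZero p] :
    delta p * Matrix.SpecialLinearGroup.mapGL ℝ ModularGroup.T =
      Matrix.GeneralLinearGroup.upperRightHom ((p : ℝ)⁻¹) * delta p := by
  apply Units.ext
  have hp : (p : ℝ) ≠ 0 := Nat.cast_ne_zero.mpr (NeZero.ne p)
  ext i j
  rw [Units.val_mul, Units.val_mul, Matrix.mul_apply, Matrix.mul_apply, Fin.sum_univ_two,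
    Fin.sum_univ_two, coe_mapGL, coe_mapGL, ModularGroup.coe_T]
  fin_cases i <;> fin_cases j <;>
    simp [delta, hp]

theorem delta_mul_lowerOne (p : ℕ) [NeZero p] :
    delta p * Matrix.SpecialLinearGroup.mapGL ℝ lowerOne =
      Matrix.SpecialLinearGroup.mapGL ℝ (lowerP p) * delta p := by
  apply Units.ext
  ext i j
  rw [Units.val_mul, Units.val_mul, Matrix.mul_apply, Matrix.mul_apply, Fin.sum_univ_two,
    Fin.sum_univ_two, coe_mapGL, coe_mapGL, coe_mapGL, coe_mapGL]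
  fin_cases i <;> fin_cases j <;>
    simp [delta, lowerOne, lowerP]

/-! ### 3. Slash invariance of the translate -/

/-- the slash action of a translation matrix. -/
theorem slash_upperRightHom (f : ℍ → ℂ) (k : ℤ) (x : ℝ) :
    f ∣[k] Matrix.GeneralLinearGroup.upperRightHom x = fun τ => f (x +ᵥ τ) := by
  funext τ
  have hsmul : Matrix.GeneralLinearGroup.upperRightHom x • τ = x +ᵥ τ := by
    ext
    simp [σ, num, denom, coe_vadd, UpperHalfPlane.coe_smul, add_comm]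
  simp_rw [ModularForm.slash_def, hsmul]
  simp [σ, denom, Matrix.GeneralLinearGroup.val_det_apply]

variable {p : ℕ} [NeZero p]

/-- `f ∣ [[1,1/p],[0,1]] = f` when the coefficients of index not divisible by `p` vanish. -/
theorem slash_upper_eq (f : CuspForm (Gamma0 p) 2)
    (h : ∀ n : ℕ, ¬ p ∣ n → ModularFormClass.qCoeff f n = 0) :
    (⇑f) ∣[(2 : ℤ)] Matrix.GeneralLinearGroup.upperRightHom ((p : ℝ)⁻¹) = ⇑f := by
  rw [slash_upperRightHom]
  funext τ
  exact vadd_inv_apply (NeZero.ne p) f h τ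

theorem slash_lowerP_eq (f : CuspForm (Gamma0 p) 2) :
    (⇑f) ∣[(2 : ℤ)] (Matrix.SpecialLinearGroup.mapGL ℝ (lowerP p)) = ⇑f :=
  SlashInvariantFormClass.slash_action_eq f _ (Subgroup.mem_map_of_mem _ (lowerP_mem p))

/-- the translate `g = f ∣ diag(1,p)`, `g(z) = f(z/p)/p`. -/
def gfun (f : CuspForm (Gamma0 p) 2) : ℍ → ℂ := (⇑f) ∣[(2 : ℤ)] delta p

theorem gfun_slash_T (f : CuspForm (Gamma0 p) 2)
    (h : ∀ n : ℕ, ¬ p ∣ n → ModularFormClass.qCoeff f n = 0) :
    gfun f ∣[(2 : ℤ)] ModularGroup.T = gfun f := by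
  change (gfun f) ∣[(2 : ℤ)] (Matrix.SpecialLinearGroup.mapGL ℝ ModularGroup.T) = gfun f
  unfold gfun
  rw [← SlashAction.slash_mul, delta_mul_T, SlashAction.slash_mul, slash_upper_eq f h]

theorem gfun_slash_lowerOne (f : CuspForm (Gamma0 p) 2) :
    gfun f ∣[(2 : ℤ)] lowerOne = gfun f := by
  change (gfun f) ∣[(2 : ℤ)] (Matrix.SpecialLinearGroup.mapGL ℝ lowerOne) = gfun f
  unfold gfun
  rw [← SlashAction.slash_mul, delta_mul_lowerOne, SlashAction.slash_mul, slash_lowerP_eq f]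

theorem gfun_slash_T_inv (f : CuspForm (Gamma0 p) 2)
    (h : ∀ n : ℕ, ¬ p ∣ n → ModularFormClass.qCoeff f n = 0) :
    gfun f ∣[(2 : ℤ)] ModularGroup.T⁻¹ = gfun f := by
  conv_lhs => rw [← gfun_slash_T f h]
  rw [← SlashAction.slash_mul, mul_inv_cancel, SlashAction.slash_one]

theorem gfun_slash_S (f : CuspForm (Gamma0 p) 2)
    (h : ∀ n : ℕ, ¬ p ∣ n → ModularFormClass.qCoeff f n = 0) :
    gfun f ∣[(2 : ℤ)] ModularGroup.S = gfun f := by
  rw [S_eq, SlashAction.slash_mul, SlashAction.slash_mul, gfun_slash_T_inv f h,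
    gfun_slash_lowerOne, gfun_slash_T_inv f h]

theorem gfun_slash_SL (f : CuspForm (Gamma0 p) 2)
    (h : ∀ n : ℕ, ¬ p ∣ n → ModularFormClass.qCoeff f n = 0) (γ : SL(2, ℤ)) :
    gfun f ∣[(2 : ℤ)] γ = gfun f :=
  SlashInvariantForm.slash_action_generators_SL2Z (gfun_slash_S f h) (gfun_slash_T f h) γ

/-! ### 4. The level one form and the conclusion -/

theorem delta_one_zero : (delta p) 1 0 = 0 := by
  simp [delta]

theorem isZeroAtImInfty_gfun (f : CuspForm (Gamma0 p) 2) : IsZeroAtImInfty (gfun f) := by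
  haveI := isCusp_infty p
  exact UpperHalfPlane.IsZeroAtImInfty.slash 2 delta_one_zero (CuspFormClass.zero_at_infty f)

/-- the level one cusp form with underlying function `gfun f`. -/
def levelOne (f : CuspForm (Gamma0 p) 2)
    (h : ∀ n : ℕ, ¬ p ∣ n → ModularFormClass.qCoeff f n = 0) : CuspForm 𝒮ℒ 2 where
  toFun := gfun f
  slash_action_eq' γ hγ := by
    obtain ⟨γ', rfl⟩ := hγ
    exact gfun_slash_SL f h γ'
  holo' := (ModularFormClass.holo f).slash 2 (delta p)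
  zero_at_cusps' {c} hc := by
    rw [OnePoint.isZeroAt_iff_exists_SL2Z hc]
    obtain ⟨γ, rfl⟩ := isCusp_SL2Z_iff'.mp hc
    refine ⟨γ, rfl, ?_⟩
    rw [gfun_slash_SL f h γ]
    exact isZeroAtImInfty_gfun f

theorem gfun_eq_zero (f : CuspForm (Gamma0 p) 2)
    (h : ∀ n : ℕ, ¬ p ∣ n → ModularFormClass.qCoeff f n = 0) : gfun f = 0 := by
  have h0 : levelOne f h = 0 :=
    rank_zero_iff_forall_zero.mp (CuspForm.rank_eq_zero_of_weight_lt_twelve (by norm_num)) _
  have := congrArg (fun F : CuspForm 𝒮ℒ 2 => (⇑F : ℍ → ℂ)) h0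
  exact this

/-- **(M1), general level**: a weight 2 cusp form on `Γ₀(N)`, `N ≠ 0`, all of whose `q`-expansion
coefficients of index not divisible by `N` vanish is zero. -/
theorem eq_zero_of_qCoeff_not_dvd (f : CuspForm (Gamma0 p) 2)
    (h : ∀ n : ℕ, ¬ p ∣ n → ModularFormClass.qCoeff f n = 0) : f = 0 := by
  have hg := gfun_eq_zero f h
  have h1 : (gfun f) ∣[(2 : ℤ)] (delta p)⁻¹ = ⇑f := by
    unfold gfun
    rw [← SlashAction.slash_mul, mul_inv_cancel, SlashAction.slash_one]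
  apply DFunLike.coe_injective
  rw [← h1, hg, SlashAction.zero_slash]
  rfl

end Fermat.Agent.MAZ.PT.MultOne22

namespace Fermat.Agent.MAZ.PT.MultOne22

/-! ### 5. The literal forms -/

/-- **(M1) Multiplicity one at prime level, basic form** (literal of #2238/#2242). -/
theorem eq_zero_of_qCoeff_coprime {p : ℕ} (hp : p.Prime)
    (f : CuspForm (CongruenceSubgroup.Gamma0 p) 2)
    (h : ∀ n : ℕ, ¬ p ∣ n → ModularFormClass.qCoeff f n = 0) : f = 0 := by
  haveI : NeZero p := ⟨hp.ne_zero⟩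
  exact eq_zero_of_qCoeff_not_dvd f h

/-- the same with the hypothesis in the form `Nat.Coprime n p` (literal of #2228). -/
theorem eq_zero_of_qCoeff_coprime_eq_zero {p : ℕ} (hp : p.Prime)
    (f : CuspForm (CongruenceSubgroup.Gamma0 p) 2)
    (h : ∀ n : ℕ, Nat.Coprime n p → ModularFormClass.qCoeff f n = 0) : f = 0 :=
  eq_zero_of_qCoeff_coprime hp f fun n hn =>
    h n ((Nat.Prime.coprime_iff_not_dvd hp).mpr hn).symm

theorem qCoeff_sub {N : ℕ} (f g : CuspForm (CongruenceSubgroup.Gamma0 N) 2) (n : ℕ) :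
    ModularFormClass.qCoeff (⇑(f - g)) n =
      ModularFormClass.qCoeff f n - ModularFormClass.qCoeff g n := by
  unfold ModularFormClass.qCoeff
  rw [FunLike.coe_sub, ModularForm.qExpansion_sub one_pos (one_mem_strictPeriods N) f g]
  simp

/-- two weight 2 cusp forms on `Γ₀(p)` with the same coefficients of index prime to `p` are equal. -/
theorem eq_of_qCoeff_coprime_eq {p : ℕ} (hp : p.Prime)
    (f g : CuspForm (CongruenceSubgroup.Gamma0 p) 2)
    (h : ∀ n : ℕ, ¬ p ∣ n → ModularFormClass.qCoeff f n = ModularFormClass.qCoeff g n) :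
    f = g := by
  have h0 : f - g = 0 := eq_zero_of_qCoeff_coprime hp (f - g) fun n hn => by
    rw [qCoeff_sub, h n hn, sub_self]
  exact sub_eq_zero.mp h0

end Fermat.Agent.MAZ.PT.MultOne22
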