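/-
MAZ (S15), PT-GAL brick (G4a) (helper80): **multiplicity one for the anemic Hecke algebra at prime
level.**
-/
import Mathlib
import Fermat.Prelude.Def_CuspForm_HeckeAlgebra
import Fermat.Prelude.Thm_ModularFormClass_qCoeff_heckeT
import Fermat.Prelude.Thm_CongruenceSubgroup_one_mem_strictPeriods_Gamma0

set_option autoImplicit false
set_option linter.unusedSectionVars false

namespace Fermat.Agent.MAZ.PT.MultOne80

open CuspForm CongruenceSubgroup ModularFormClass UpperHalfPlane ModularForm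
open scoped MatrixGroups ModularForm

/-! ### Matrices -/

/-- the lower unipotent matrix `[[1,0],[1,1]]`. -/
def Lmat : SL(2, ℤ) := ⟨!![1, 0; 1, 1], by simp [Matrix.det_fin_two_of]⟩

/-- the lower unipotent matrix `[[1,0],[p,1]]`. -/
def Lp (p : ℕ) : SL(2, ℤ) := ⟨!![1, 0; (p : ℤ), 1], by simp [Matrix.det_fin_two_of]⟩

theorem Lp_mem (p : ℕ) : Lp p ∈ Gamma0 p := by
  rw [Gamma0_mem]
  simp [Lp]

theorem S_eq : ModularGroup.S = ModularGroup.T⁻¹ * Lmat * ModularGroup.T⁻¹ := by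
  apply Subtype.ext
  rw [Matrix.SpecialLinearGroup.coe_mul, Matrix.SpecialLinearGroup.coe_mul, ModularGroup.coe_S,
    ModularGroup.coe_T_inv]
  show _ = !![1, -1; 0, 1] * !![1, 0; 1, 1] * !![1, -1; 0, 1]
  simp

theorem val_coe (g : SL(2, ℤ)) (i j : Fin 2) :
    ((g : GL (Fin 2) ℝ) : Matrix (Fin 2) (Fin 2) ℝ) i j = ((g.1 i j : ℤ) : ℝ) := rfl

theorem val_Lmat : ((Lmat : GL (Fin 2) ℝ) : Matrix (Fin 2) (Fin 2) ℝ) = !![1, 0; 1, 1] := by
  ext i j
  rw [val_coe]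
  fin_cases i <;> fin_cases j <;> simp [Lmat]

theorem val_Lp (p : ℕ) :
    ((Lp p : GL (Fin 2) ℝ) : Matrix (Fin 2) (Fin 2) ℝ) = !![1, 0; (p : ℝ), 1] := by
  ext i j
  rw [val_coe]
  fin_cases i <;> fin_cases j <;> simp [Lp]

theorem heckeMatrix_mul_T {p : ℕ} (hp : p ≠ 0) :
    heckeMatrix p 0 * (ModularGroup.T : GL (Fin 2) ℝ) = heckeMatrix p 1 := by
  apply Units.ext
  rw [Units.val_mul, val_heckeMatrix hp, val_heckeMatrix hp]
  ext i j
  fin_cases i <;> fin_cases j <;> simp [Matrix.mul_apply, Fin.sum_univ_two, ModularGroup.coe_T]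

theorem heckeMatrix_mul_L {p : ℕ} (hp : p ≠ 0) :
    heckeMatrix p 0 * (Lmat : GL (Fin 2) ℝ) = (Lp p : GL (Fin 2) ℝ) * heckeMatrix p 0 := by
  apply Units.ext
  rw [Units.val_mul, Units.val_mul, val_heckeMatrix hp, val_Lmat, val_Lp]
  ext i j
  fin_cases i <;> fin_cases j <;> simp [Matrix.mul_apply, Fin.sum_univ_two]

/-! ### The `q`-parameter -/

theorem qParam_pow_eq {p : ℕ} (hp : p ≠ 0) (τ : ℍ) :
    Function.Periodic.qParam 1 ((heckeMatrix p 1 • τ : ℍ) : ℂ) ^ p =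
      Function.Periodic.qParam 1 ((heckeMatrix p 0 • τ : ℍ) : ℂ) ^ p := by
  have hp' : (p : ℂ) ≠ 0 := by exact_mod_cast hp
  rw [coe_heckeMatrix_smul hp, coe_heckeMatrix_smul hp]
  unfold Function.Periodic.qParam
  rw [← Complex.exp_nat_mul, ← Complex.exp_nat_mul]
  have e1 : (p : ℂ) * (2 * Real.pi * Complex.I * (((τ : ℂ) + ((1 : ℕ) : ℂ)) / p) / ((1 : ℝ) : ℂ)) =
      (p : ℂ) * (2 * Real.pi * Complex.I * (((τ : ℂ) + ((0 : ℕ) : ℂ)) / p) / ((1 : ℝ) : ℂ)) +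
        2 * Real.pi * Complex.I := by
    field_simp
    push_cast
    ring
  rw [e1, Complex.exp_add, Complex.exp_two_pi_mul_I, mul_one]

/-! ### Invariance of `f(τ/p)` under `T` -/

variable {p : ℕ}

instance fact_isCusp_Gamma0 (N : ℕ) : Fact (IsCusp OnePoint.infty
    (Subgroup.map (Matrix.SpecialLinearGroup.mapGL ℝ) (Gamma0 N))) :=
  ⟨Subgroup.isCusp_of_mem_strictPeriods one_pos (one_mem_strictPeriods_Gamma0 N)⟩

/-- if `a_n(f) = 0` for `p ∤ n` then `f((τ+1)/p) = f(τ/p)`. -/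
theorem apply_heckeMatrix_one (hp : p ≠ 0) (f : CuspForm (Gamma0 p) 2)
    (h : ∀ n : ℕ, ¬ p ∣ n → qCoeff f n = 0) (τ : ℍ) :
    f (heckeMatrix p 1 • τ) = f (heckeMatrix p 0 • τ) := by
  have h1 := ModularForm.hasSum_qExpansion (f := f) one_pos (one_mem_strictPeriods_Gamma0 p)
    (heckeMatrix p 1 • τ)
  have h0 := ModularForm.hasSum_qExpansion (f := f) one_pos (one_mem_strictPeriods_Gamma0 p)
    (heckeMatrix p 0 • τ)
  have hterm : (fun m : ℕ => (qExpansion 1 f).coeff m *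
      Function.Periodic.qParam 1 ((heckeMatrix p 1 • τ : ℍ) : ℂ) ^ m) =
      fun m : ℕ => (qExpansion 1 f).coeff m *
        Function.Periodic.qParam 1 ((heckeMatrix p 0 • τ : ℍ) : ℂ) ^ m := by
    funext m
    by_cases hm : p ∣ m
    · obtain ⟨j, rfl⟩ := hm
      rw [pow_mul, pow_mul, qParam_pow_eq hp]
    · have : (qExpansion 1 f).coeff m = 0 := h m hm
      rw [this, zero_mul, zero_mul]
  rw [hterm] at h1
  exact h1.unique h0

/-- the function `τ ↦ p⁻¹ f(τ/p)`. -/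
noncomputable def down (p : ℕ) (f : CuspForm (Gamma0 p) 2) : ℍ → ℂ :=
  ⇑f ∣[(2 : ℤ)] heckeMatrix p 0

theorem down_apply (hp : p ≠ 0) (f : CuspForm (Gamma0 p) 2) (τ : ℍ) :
    down p f τ = (p : ℂ)⁻¹ * f (heckeMatrix p 0 • τ) :=
  slash_heckeMatrix_apply 2 hp 0 f τ

theorem down_slash_T (hp : p ≠ 0) (f : CuspForm (Gamma0 p) 2)
    (h : ∀ n : ℕ, ¬ p ∣ n → qCoeff f n = 0) :
    down p f ∣[(2 : ℤ)] ModularGroup.T = down p f := by
  rw [ModularForm.SL_slash]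
  unfold down
  rw [← SlashAction.slash_mul, heckeMatrix_mul_T hp]
  funext τ
  rw [slash_heckeMatrix_apply 2 hp, slash_heckeMatrix_apply 2 hp, apply_heckeMatrix_one hp f h]

theorem down_slash_L (hp : p ≠ 0) (f : CuspForm (Gamma0 p) 2) :
    down p f ∣[(2 : ℤ)] Lmat = down p f := by
  rw [ModularForm.SL_slash]
  unfold down
  rw [← SlashAction.slash_mul, heckeMatrix_mul_L hp, SlashAction.slash_mul]
  congr 1
  exact SlashInvariantFormClass.slash_action_eq f _ (Subgroup.mem_map_of_mem _ (Lp_mem p))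

theorem slash_inv_of_slash {F : ℍ → ℂ} {k : ℤ} {g : SL(2, ℤ)} (hg : F ∣[k] g = F) :
    F ∣[k] g⁻¹ = F := by
  conv_lhs => rw [← hg]
  rw [ModularForm.SL_slash, ModularForm.SL_slash, ← SlashAction.slash_mul]
  have e : (g : GL (Fin 2) ℝ) * ((g⁻¹ : SL(2, ℤ)) : GL (Fin 2) ℝ) = 1 := by
    show Matrix.SpecialLinearGroup.mapGL ℝ g * Matrix.SpecialLinearGroup.mapGL ℝ g⁻¹ = 1
    rw [← map_mul, mul_inv_cancel, map_one]
  rw [e, SlashAction.slash_one]

theorem slash_mul_of_slash {F : ℍ → ℂ} {k : ℤ} {g g' : SL(2, ℤ)} (hg : F ∣[k] g = F)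
    (hg' : F ∣[k] g' = F) : F ∣[k] (g * g') = F := by
  have e : ((g * g' : SL(2, ℤ)) : GL (Fin 2) ℝ) = (g : GL (Fin 2) ℝ) * (g' : GL (Fin 2) ℝ) :=
    map_mul (Matrix.SpecialLinearGroup.mapGL ℝ) g g'
  rw [ModularForm.SL_slash, e, SlashAction.slash_mul, ← ModularForm.SL_slash,
    ← ModularForm.SL_slash, hg, hg']

theorem down_slash_S (hp : p ≠ 0) (f : CuspForm (Gamma0 p) 2)
    (h : ∀ n : ℕ, ¬ p ∣ n → qCoeff f n = 0) :
    down p f ∣[(2 : ℤ)] ModularGroup.S = down p f := by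
  rw [S_eq]
  have hT := slash_inv_of_slash (down_slash_T hp f h)
  exact slash_mul_of_slash (slash_mul_of_slash hT (down_slash_L hp f)) hT

theorem down_slash (hp : p ≠ 0) (f : CuspForm (Gamma0 p) 2)
    (h : ∀ n : ℕ, ¬ p ∣ n → qCoeff f n = 0) (γ : SL(2, ℤ)) :
    down p f ∣[(2 : ℤ)] γ = down p f :=
  SlashInvariantForm.slash_action_generators_SL2Z (down_slash_S hp f h) (down_slash_T hp f h) γ

theorem tendsto_heckeMatrix_smul (hp : p ≠ 0) :
    Filter.Tendsto (fun τ : ℍ => heckeMatrix p 0 • τ) atImInfty atImInfty := by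
  rw [atImInfty, Filter.tendsto_comap_iff]
  have him : (UpperHalfPlane.im ∘ fun τ : ℍ => heckeMatrix p 0 • τ) = fun τ : ℍ => τ.im / p := by
    funext τ
    show ((heckeMatrix p 0 • τ : ℍ) : ℂ).im = τ.im / p
    rw [coe_heckeMatrix_smul hp]
    simp
  rw [him]
  exact Filter.Tendsto.atTop_div_const (by exact_mod_cast Nat.pos_of_ne_zero hp)
    Filter.tendsto_comap

theorem down_isZeroAtImInfty (hp : p ≠ 0) (f : CuspForm (Gamma0 p) 2) :
    IsZeroAtImInfty (down p f) := by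
  have hf : IsZeroAtImInfty (⇑f) := CuspFormClass.zero_at_infty f
  have h1 : Filter.Tendsto (fun τ : ℍ => f (heckeMatrix p 0 • τ)) atImInfty (nhds 0) :=
    hf.comp (tendsto_heckeMatrix_smul hp)
  have h2 : Filter.Tendsto (fun τ : ℍ => (p : ℂ)⁻¹ * f (heckeMatrix p 0 • τ)) atImInfty
      (nhds ((p : ℂ)⁻¹ * 0)) := h1.const_mul _
  rw [mul_zero] at h2
  have : down p f = fun τ : ℍ => (p : ℂ)⁻¹ * f (heckeMatrix p 0 • τ) :=
    funext (down_apply hp f)
  rw [this]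
  exact h2

/-- `τ ↦ p⁻¹ f(τ/p)` as a cusp form of level one. -/
noncomputable def downForm (hp : p ≠ 0) (f : CuspForm (Gamma0 p) 2)
    (h : ∀ n : ℕ, ¬ p ∣ n → qCoeff f n = 0) : CuspForm 𝒮ℒ 2 where
  toFun := down p f
  slash_action_eq' γ hγ := by
    obtain ⟨g, rfl⟩ := hγ
    exact down_slash hp f h g
  holo' := (ModularFormClass.holo f).slash 2 (heckeMatrix p 0)
  zero_at_cusps' {c} hc := by
    obtain ⟨g, rfl⟩ := isCusp_SL2Z_iff'.mp hc
    refine (OnePoint.isZeroAt_iff_exists_SL2Z hc).mpr ⟨g, rfl, ?_⟩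
    have := down_slash hp f h g
    show IsZeroAtImInfty (down p f ∣[(2 : ℤ)] g)
    rw [this]
    exact down_isZeroAtImInfty hp f

theorem down_eq_zero (hp : p ≠ 0) (f : CuspForm (Gamma0 p) 2)
    (h : ∀ n : ℕ, ¬ p ∣ n → qCoeff f n = 0) : down p f = 0 := by
  have h0 : downForm hp f h = 0 :=
    rank_zero_iff_forall_zero.mp (CuspForm.rank_eq_zero_of_weight_lt_twelve (by norm_num)) _
  have := congrArg (fun G : CuspForm 𝒮ℒ 2 => (G : ℍ → ℂ)) h0
  exact this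

/-- **(M1) multiplicity one, coefficient form**: a weight-two cusp form of prime level `p` all of
whose `q`-coefficients of index prime to `p` vanish is zero. (`p` only needs to be nonzero.) -/
theorem eq_zero_of_qCoeff_coprime (hp : p ≠ 0) (f : CuspForm (Gamma0 p) 2)
    (h : ∀ n : ℕ, ¬ p ∣ n → qCoeff f n = 0) : f = 0 := by
  have hp' : (p : ℂ) ≠ 0 := by exact_mod_cast hp
  have hd := down_eq_zero hp f h
  apply DFunLike.coe_injective
  funext w
  have h1 := down_apply hp f ((heckeMatrix p 0)⁻¹ • w)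
  rw [hd, smul_smul, mul_inv_cancel, one_smul] at h1
  have h2 : (p : ℂ)⁻¹ * f w = 0 := h1.symm
  rcases mul_eq_zero.mp h2 with h3 | h3
  · exact absurd h3 (inv_ne_zero hp')
  · exact h3

/-! ### `q`-coefficients: linearity -/

section Coeff

variable {N : ℕ}

theorem qCoeff_smul (c : ℂ) (f : CuspForm (Gamma0 N) 2) (n : ℕ) :
    qCoeff (⇑(c • f)) n = c * qCoeff f n := by
  unfold ModularFormClass.qCoeff
  rw [FunLike.coe_smul, ModularForm.qExpansion_smul one_pos (one_mem_strictPeriods_Gamma0 N) c f]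
  simp

theorem qCoeff_sub (f g : CuspForm (Gamma0 N) 2) (n : ℕ) :
    qCoeff (⇑(f - g)) n = qCoeff f n - qCoeff g n := by
  unfold ModularFormClass.qCoeff
  rw [FunLike.coe_sub, ModularForm.qExpansion_sub one_pos (one_mem_strictPeriods_Gamma0 N) f g]
  simp

end Coeff

/-! ### The Hecke recursion -/

/-- `a_{mℓ}(f) = a_m(T_ℓ f) - [ℓ ∣ m] ℓ a_{m/ℓ}(f)`. -/
theorem qCoeff_mul_prime (f : CuspForm (Gamma0 p) 2) {ℓ : ℕ} (hℓ : ℓ.Prime) (hℓp : ¬ ℓ ∣ p)
    (m : ℕ) :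
    qCoeff f (m * ℓ) = qCoeff (CuspForm.heckeTLin 2 hℓ hℓp f) m -
      if ℓ ∣ m then (ℓ : ℂ) * qCoeff f (m / ℓ) else 0 := by
  have h1 : qCoeff (ModularForm.heckeT 2 ℓ ⇑f) m =
      ModularForm.coeffHeckeT 2 ℓ (qCoeff f) m :=
    ModularFormClass.qCoeff_heckeT f (one_mem_strictPeriods_Gamma0 p) hℓ.ne_zero m
  have h2 : (ModularForm.heckeT 2 ℓ ⇑f : ℍ → ℂ) = ⇑(CuspForm.heckeTLin 2 hℓ hℓp f) := rfl
  rw [h2, ModularForm.coeffHeckeT_apply] at h1
  rw [h1]
  norm_num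

/-- **the abstract multiplicity-one principle**: a Hecke-stable property of cusp forms of prime
level which forces `a₁ = 0` forces the form to vanish. -/
theorem eq_zero_of_stable (hp : p.Prime) (P : CuspForm (Gamma0 p) 2 → Prop)
    (h1 : ∀ f, P f → qCoeff f 1 = 0)
    (hT : ∀ f, P f → ∀ (ℓ : ℕ) (hℓ : ℓ.Prime) (hℓp : ¬ ℓ ∣ p), P (CuspForm.heckeTLin 2 hℓ hℓp f))
    (f : CuspForm (Gamma0 p) 2) (hf : P f) : f = 0 := by
  have key : ∀ n : ℕ, ¬ p ∣ n → ∀ f : CuspForm (Gamma0 p) 2, P f → qCoeff f n = 0 := by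
    intro n
    induction n using Nat.strong_induction_on with
    | _ n ih =>
      intro hn f hf
      rcases Nat.lt_or_ge n 2 with hlt | hge
      · interval_cases n
        · exact absurd (dvd_zero p) hn
        · exact h1 f hf
      · have hn1 : n ≠ 1 := by omega
        set ℓ := n.minFac with hℓdef
        have hℓ : ℓ.Prime := Nat.minFac_prime hn1
        obtain ⟨m, hm⟩ : ℓ ∣ n := Nat.minFac_dvd n
        have hℓp : ¬ ℓ ∣ p := by
          intro hd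
          have : ℓ = p := (Nat.prime_dvd_prime_iff_eq hℓ hp).mp hd
          exact hn (this ▸ Nat.minFac_dvd n)
        have hm0 : m ≠ 0 := by
          rintro rfl
          omega
        have hmn : m < n := by
          rw [hm]
          have := hℓ.two_le
          nlinarith [Nat.pos_of_ne_zero hm0]
        have hpm : ¬ p ∣ m := fun hd => hn (hm ▸ Dvd.dvd.mul_left hd ℓ)
        have hrec := qCoeff_mul_prime f hℓ hℓp m
        rw [mul_comm m ℓ, ← hm] at hrec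
        rw [hrec, ih m hmn hpm _ (hT f hf ℓ hℓ hℓp), zero_sub, neg_eq_zero]
        split_ifs with hd
        · obtain ⟨j, rfl⟩ := hd
          have hj : ℓ * j / ℓ = j := Nat.mul_div_cancel_left j hℓ.pos
          rw [hj]
          have hjn : j < n := lt_of_le_of_lt (Nat.le_mul_of_pos_left j hℓ.pos) hmn
          have hpj : ¬ p ∣ j := fun hd => hpm (Dvd.dvd.mul_left hd ℓ)
          rw [ih j hjn hpj f hf, mul_zero]
        · rfl
  exact eq_zero_of_qCoeff_coprime hp.ne_zero f fun n hn => key n hn f hf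

/-! ### Eigenforms -/

/-- `f` is an eigenform for all `T_ℓ`, `ℓ ≠ p`, with eigenvalues `lam ℓ`. -/
def IsEigen (p : ℕ) (lam : ℕ → ℂ) (f : CuspForm (Gamma0 p) 2) : Prop :=
  ∀ (ℓ : ℕ) (hℓ : ℓ.Prime) (hℓp : ¬ ℓ ∣ p), CuspForm.heckeTLin 2 hℓ hℓp f = lam ℓ • f

theorem IsEigen.smul {lam : ℕ → ℂ} {f : CuspForm (Gamma0 p) 2} (hf : IsEigen p lam f) (c : ℂ) :
    IsEigen p lam (c • f) := fun ℓ hℓ hℓp => by
  rw [map_smul, hf ℓ hℓ hℓp, smul_comm]

theorem IsEigen.sub {lam : ℕ → ℂ} {f g : CuspForm (Gamma0 p) 2} (hf : IsEigen p lam f)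
    (hg : IsEigen p lam g) : IsEigen p lam (f - g) := fun ℓ hℓ hℓp => by
  rw [map_sub, hf ℓ hℓ hℓp, hg ℓ hℓ hℓp, smul_sub]

/-- an anemic eigenform of prime level with `a₁ = 0` vanishes. -/
theorem IsEigen.eq_zero (hp : p.Prime) {lam : ℕ → ℂ} {f : CuspForm (Gamma0 p) 2}
    (hf : IsEigen p lam f) (h1 : qCoeff f 1 = 0) : f = 0 := by
  refine eq_zero_of_stable hp (fun g => IsEigen p lam g ∧ qCoeff g 1 = 0) (fun g hg => hg.2)
    (fun g hg ℓ hℓ hℓp => ?_) f ⟨hf, h1⟩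
  rw [hg.1 ℓ hℓ hℓp]
  exact ⟨hg.1.smul _, by rw [qCoeff_smul, hg.2, mul_zero]⟩

/-- **(M2) multiplicity one, eigenform form**: two anemic eigenforms of prime level with the same
eigenvalues (at all primes `ℓ ≠ p`) are proportional. -/
theorem IsEigen.smul_eq_smul (hp : p.Prime) {lam : ℕ → ℂ} {f g : CuspForm (Gamma0 p) 2}
    (hf : IsEigen p lam f) (hg : IsEigen p lam g) : qCoeff g 1 • f = qCoeff f 1 • g := by
  have h : IsEigen p lam (qCoeff g 1 • f - qCoeff f 1 • g) := (hf.smul _).sub (hg.smul _)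
  have h1 : qCoeff (⇑(qCoeff g 1 • f - qCoeff f 1 • g)) 1 = 0 := by
    rw [qCoeff_sub, qCoeff_smul, qCoeff_smul]
    ring
  exact sub_eq_zero.mp (h.eq_zero hp h1)

/-- the `lam`-eigenspace. -/
def eigenSubmodule (p : ℕ) (lam : ℕ → ℂ) : Submodule ℂ (CuspForm (Gamma0 p) 2) where
  carrier := {f | IsEigen p lam f}
  zero_mem' := fun ℓ hℓ hℓp => by rw [map_zero, smul_zero]
  add_mem' := fun {f g} hf hg ℓ hℓ hℓp => by rw [map_add, hf ℓ hℓ hℓp, hg ℓ hℓ hℓp, smul_add]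
  smul_mem' := fun c f hf => IsEigen.smul hf c

theorem mem_eigenSubmodule {lam : ℕ → ℂ} {f : CuspForm (Gamma0 p) 2} :
    f ∈ eigenSubmodule p lam ↔ IsEigen p lam f := Iff.rfl

/-- any submodule of an anemic eigenspace in `S₂(Γ₀(p))` is at most a line. -/
theorem finrank_le_one_of_le (hp : p.Prime) (lam : ℕ → ℂ)
    (E : Submodule ℂ (CuspForm (Gamma0 p) 2)) (hE : E ≤ eigenSubmodule p lam) :
    Module.finrank ℂ E ≤ 1 := by
  by_cases hall : ∀ f : E, qCoeff (f : CuspForm (Gamma0 p) 2) 1 = 0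
  · have : ∀ f : E, f = 0 := fun f =>
      Subtype.ext (IsEigen.eq_zero hp (hE f.2) (hall f))
    have : Subsingleton E := ⟨fun a b => by rw [this a, this b]⟩
    rw [Module.finrank_zero_of_subsingleton]
    exact Nat.zero_le 1
  · push Not at hall
    obtain ⟨f, hf⟩ := hall
    refine finrank_le_one f fun g => ⟨qCoeff (g : CuspForm (Gamma0 p) 2) 1 /
      qCoeff (f : CuspForm (Gamma0 p) 2) 1, ?_⟩
    apply Subtype.ext
    have h := IsEigen.smul_eq_smul hp (hE f.2) (hE g.2)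
    show (qCoeff (g : CuspForm (Gamma0 p) 2) 1 / qCoeff (f : CuspForm (Gamma0 p) 2) 1) •
      (f : CuspForm (Gamma0 p) 2) = g
    rw [div_eq_inv_mul, mul_smul, h, smul_smul, inv_mul_cancel₀ hf, one_smul]

/-- **(M2'), dimension form**: every anemic eigenspace in `S₂(Γ₀(p))` is at most a line. -/
theorem finrank_eigenSubmodule_le_one (hp : p.Prime) (lam : ℕ → ℂ) :
    Module.finrank ℂ (eigenSubmodule p lam) ≤ 1 :=
  finrank_le_one_of_le hp lam _ le_rfl

/-! ### The Hecke algebra -/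

section Algebra

variable [NeZero p] (S : Set ℕ)

/-- **(M3) multiplicity one, pairing form**: if `a₁(t f) = 0` for all `t` in the anemic Hecke
algebra (away from `S`, where `S` contains no prime other than `p`), then `f = 0`. -/
theorem eq_zero_of_pairing (hp : p.Prime) (hS : ∀ ℓ : ℕ, ℓ.Prime → ℓ ≠ p → ℓ ∉ S)
    (f : CuspForm (Gamma0 p) 2)
    (h : ∀ t ∈ heckeAlgebra p 2 S, qCoeff (t f) 1 = 0) : f = 0 := by
  refine eq_zero_of_stable hp (fun g => ∀ t ∈ heckeAlgebra p 2 S, qCoeff (t g) 1 = 0)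
    (fun g hg => hg 1 (one_mem _)) (fun g hg ℓ hℓ hℓp t ht => ?_) f h
  have hℓS : ℓ ∉ S := hS ℓ hℓ fun hℓe => hℓp (hℓe ▸ dvd_rfl)
  exact hg (t * CuspForm.heckeTLin 2 hℓ hℓp)
    (mul_mem ht (heckeTLin_mem_heckeAlgebra hℓ hℓp hℓS))

/-- **(M2''), character form**: for a map `χ` on the anemic Hecke algebra the `χ`-eigenspace in
`S₂(Γ₀(p))` is at most a line. -/
def charSubmodule (χ : heckeAlgebra p 2 S → ℂ) : Submodule ℂ (CuspForm (Gamma0 p) 2) where
  carrier := {f | ∀ t : heckeAlgebra p 2 S,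
    (t : Module.End ℂ (CuspForm (Gamma0 p) 2)) f = χ t • f}
  zero_mem' := fun t => by rw [map_zero, smul_zero]
  add_mem' := fun {f g} hf hg t => by rw [map_add, hf t, hg t, smul_add]
  smul_mem' := fun c f hf t => by rw [map_smul, hf t, smul_comm]

theorem finrank_charSubmodule_le_one (hp : p.Prime) (hS : ∀ ℓ : ℕ, ℓ.Prime → ℓ ≠ p → ℓ ∉ S)
    (χ : heckeAlgebra p 2 S → ℂ) : Module.finrank ℂ (charSubmodule S χ) ≤ 1 := by
  classical
  let lam : ℕ → ℂ := fun ℓ =>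
    if h : ℓ.Prime ∧ ¬ ℓ ∣ p ∧ ℓ ∉ S then χ (heckeAlgebra.T h.1 h.2.1 h.2.2) else 0
  have hle : charSubmodule S χ ≤ eigenSubmodule p lam := by
    intro f hf ℓ hℓ hℓp
    have hℓS : ℓ ∉ S := hS ℓ hℓ fun hℓe => hℓp (hℓe ▸ dvd_rfl)
    have := hf (heckeAlgebra.T hℓ hℓp hℓS)
    rw [heckeAlgebra.coe_T] at this
    rw [this]
    show _ = (if h : ℓ.Prime ∧ ¬ ℓ ∣ p ∧ ℓ ∉ S then χ (heckeAlgebra.T h.1 h.2.1 h.2.2) else 0) • f
    rw [dif_pos ⟨hℓ, hℓp, hℓS⟩]
  exact finrank_le_one_of_le hp lam _ hle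

end Algebra

end Fermat.Agent.MAZ.PT.MultOne80
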