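/-
Program MAZ (S15), G-side, pole (P1) = (PT), route PT-GAL, brick G6 (P-TATE half), helper59.

THE `P`-PART OF THE TATE MODULE, abstractly.  `r` a prime, `J` an abelian group with an action of a
commutative ring `T`, `P` an ideal of `T`; `J[r]` finite.

* `lev T r J k` : the `T`-submodule `J[r^k]`; `eLevel P r J k : T` a `PrimaryPart19` projector of it;
* `pProj P : TateModule r J →ₗ[ℤ_[r]] TateModule r J` : the level-wise projector
  (`proj k (pProj P x) = eLevel P r J k • proj k x`), idempotent, commuting with `map g` for every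
  additive `g : J →+ J` commuting with the `T`-action (Galois, Hecke);
* `pTate P : Submodule ℤ_[r] (TateModule r J)` : the sequences all of whose terms are `P`-primary;
  `pTate P = range (pProj P)`, stable under those `map g`, finite free over `ℤ_[r]`;
* `levelP P k : AddSubgroup J` : the `P`-primary part of `J[r^k]`;
  `projP P k : ↥(pTate P) →+ ↥(levelP P k)` is surjective (if `J` is `r`-divisible) with kernel
  `r^k • pTate P`, equivariantly (`projP_mapP`); `card_levelP : #levelP P k = r^(k · rank pTate P)`;
* `card_eq_pow_of_level` : the abstract count `#A = r^(k · rank L)` for a level-`k` quotient `A` of a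
  finite free `ℤ_[r]`-module `L`.

Status: PT-GAL ruling #2346 removed the Tate-module route from the critical path; this file is
landed as a library / resume point (it is what helper76's `PTGalois76` route would consume).
-/
import Mathlib
import Fermat.Agent.ES.J.TateModule13
import Fermat.Agent.ES.J.TateLevels13
import Fermat.Agent.MAZ.Desc.PrimaryPart19

set_option autoImplicit false
set_option linter.unusedSectionVars false

noncomputable section

namespace Fermat.Agent.MAZ.PT.PTate59

open Fermat.Agent.ES.J.TateModule13 Fermat.Agent.ES.J.TateLevels13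
open Fermat.Agent.MAZ.Desc.PrimaryPart19

/-! ### projectors are unique -/

section Uniq

variable {T : Type*} [CommRing T] {P : Ideal T} {M : Type*} [AddCommGroup M] [Module T M]

/-- two `P`-projectors of the same module act in the same way. -/
theorem isProj_smul_eq {e e' : T} (h : IsProj P e M) (h' : IsProj P e' M) (x : M) :
    e • x = e' • x := by
  have h1 : e' • (e • x) = e • x := h'.smul_eq (h.smul_mem x)
  have h2 : e • (e' • x) = e' • x := h.smul_eq (h'.smul_mem x)
  rw [← h1, smul_comm, h2]

end Uniq

/-! ### the levels -/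

section Levels

variable (T : Type*) [CommRing T] (r : ℕ) (J : Type*) [AddCommGroup J] [Module T J]

/-- `J[r^k]` as a `T`-submodule. -/
def lev (k : ℕ) : Submodule T J where
  carrier := {y | r ^ k • y = 0}
  zero_mem' := smul_zero _
  add_mem' := fun {a b} ha hb => by
    have ha' : r ^ k • a = 0 := ha
    have hb' : r ^ k • b = 0 := hb
    show r ^ k • (a + b) = 0
    rw [smul_add, ha', hb', add_zero]
  smul_mem' := fun t y hy => by
    have hy' : r ^ k • y = 0 := hy
    show r ^ k • (t • y) = 0
    rw [smul_comm, hy', smul_zero]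

variable {T r J}

theorem mem_lev {k : ℕ} {y : J} : y ∈ lev T r J k ↔ r ^ k • y = 0 := Iff.rfl

theorem lev_mono (k : ℕ) : lev T r J k ≤ lev T r J (k + 1) := fun y hy => by
  have hy' : r ^ k • y = 0 := hy
  show r ^ (k + 1) • y = 0
  rw [pow_succ', mul_smul, hy', smul_zero]

/-- `J[m]`, `J[n]` finite ⇒ `J[m n]` finite. -/
theorem finite_torsion_mul' {m n : ℕ} (hm : {y : J | m • y = 0}.Finite)
    (hn : {y : J | n • y = 0}.Finite) : {y : J | (m * n) • y = 0}.Finite := by
  refine Set.Finite.of_finite_fibers (fun y : J => n • y) (hm.subset ?_) ?_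
  · rintro _ ⟨y, hy, rfl⟩
    show m • (n • y) = 0
    rw [← mul_smul]
    exact hy
  · rintro _ ⟨y₀, _, rfl⟩
    refine (hn.image (fun z => y₀ + z)).subset ?_
    rintro y ⟨_, hy⟩
    refine ⟨y - y₀, ?_, add_sub_cancel y₀ y⟩
    show n • (y - y₀) = 0
    rw [smul_sub, sub_eq_zero]
    exact hy

theorem finite_torsion_pow' (h : {y : J | r • y = 0}.Finite) (k : ℕ) :
    {y : J | r ^ k • y = 0}.Finite := by
  induction k with
  | zero =>
    refine (Set.finite_singleton (0 : J)).subset ?_
    intro y hy
    have : (r ^ 0) • y = 0 := hy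
    rw [pow_zero, one_smul] at this
    exact this
  | succ k ih =>
    rw [pow_succ]
    exact finite_torsion_mul' ih h

instance finite_lev [h : Finite {y : J // r • y = 0}] (k : ℕ) : Finite ↥(lev T r J k) := by
  have h1 : {y : J | r • y = 0}.Finite := Set.finite_coe_iff.mp h
  have h2 := (finite_torsion_pow' h1 k).to_subtype
  exact Finite.of_injective (fun y : ↥(lev T r J k) => (⟨y.1, y.2⟩ : ↥{y : J | r ^ k • y = 0}))
    (fun a b hab => Subtype.ext (congrArg (fun z : ↥{y : J | r ^ k • y = 0} => (z : J)) hab))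

end Levels

/-! ### counting a finite level of a free `ℤ_[r]`-module -/

section Count

variable {r : ℕ} [hr : Fact r.Prime]

/-- **the order of a "level `k` quotient" of a finite free `ℤ_[r]`-module**: if `π : L → A` is
additive, surjective, `ℤ_[r]`-semilinear through the `k`-th truncation and has kernel `r^k L`, then
`#A = r^(k · rank L)`. -/
theorem card_eq_pow_of_level {L : Type*} [AddCommGroup L] [Module ℤ_[r] L]
    [Module.Finite ℤ_[r] L] [Module.Free ℤ_[r] L] {A : Type*} [AddCommGroup A] (k : ℕ)
    (π : L →+ A) (hsurj : Function.Surjective π)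
    (hsmul : ∀ (a : ℤ_[r]) (x : L), π (a • x) = cf r a k • π x)
    (hker : ∀ x : L, π x = 0 ↔ ∃ z : L, x = ((r : ℤ_[r]) ^ k) • z) :
    Nat.card A = r ^ (k * Module.finrank ℤ_[r] L) := by
  classical
  set d := Module.finrank ℤ_[r] L with hd
  let b : Module.Basis (Fin d) ℤ_[r] L := Module.finBasis ℤ_[r] L
  have hkill : ∀ y : A, r ^ k • y = 0 := by
    intro y
    obtain ⟨x, rfl⟩ := hsurj y
    rw [← map_nsmul]
    refine (hker _).mpr ⟨x, ?_⟩
    rw [← Nat.cast_smul_eq_nsmul ℤ_[r], Nat.cast_pow]
  -- the comparison map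
  let Θ : (Fin d → ZMod (r ^ k)) →+ A :=
    { toFun := fun c => ∑ i, (c i).val • π (b i)
      map_zero' := by
        refine Finset.sum_eq_zero fun i _ => ?_
        rw [Pi.zero_apply, ZMod.val_zero, zero_smul]
      map_add' := fun c c' => by
        rw [← Finset.sum_add_distrib]
        refine Finset.sum_congr rfl fun i _ => ?_
        rw [← add_smul]
        refine nsmul_eq_of_modEq (hkill _) ?_
        rw [Pi.add_apply, ZMod.val_add]
        exact Nat.mod_modEq _ _ }
  have hΘ : ∀ c, Θ c = ∑ i, (c i).val • π (b i) := fun _ => rfl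
  have hsurjΘ : Function.Surjective Θ := by
    intro y
    obtain ⟨x, rfl⟩ := hsurj y
    refine ⟨fun i => PadicInt.toZModPow k (b.repr x i), ?_⟩
    rw [hΘ]
    conv_rhs => rw [← b.sum_repr x, map_sum]
    refine Finset.sum_congr rfl fun i _ => ?_
    rw [hsmul]
    rfl
  have hinjΘ : Function.Injective Θ := by
    rw [injective_iff_map_eq_zero]
    intro c hc
    set x : L := ∑ i, ((c i).val : ℤ_[r]) • b i with hx
    have hπx : π x = 0 := by
      rw [← hc, hΘ, hx, map_sum]
      refine Finset.sum_congr rfl fun i _ => ?_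
      rw [hsmul]
      exact nsmul_eq_of_modEq (hkill _) (cf_natCast r _ k)
    obtain ⟨z, hz⟩ := (hker x).mp hπx
    funext i
    have h1 : b.repr x i = ((c i).val : ℤ_[r]) := by
      rw [hx, b.repr_sum_self]
    have h2 : b.repr x i = (r : ℤ_[r]) ^ k * b.repr z i := by
      rw [hz, map_smul, Finsupp.smul_apply, smul_eq_mul]
    have h3 : PadicInt.toZModPow k ((c i).val : ℤ_[r]) = 0 := by
      rw [← h1, h2, map_mul, map_pow, map_natCast, ← Nat.cast_pow, ZMod.natCast_self, zero_mul]
    rw [map_natCast, ZMod.natCast_zmod_val] at h3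
    exact h3
  have hcard : Nat.card A = Nat.card (Fin d → ZMod (r ^ k)) :=
    (Nat.card_congr (Equiv.ofBijective Θ ⟨hinjΘ, hsurjΘ⟩)).symm
  rw [hcard, Nat.card_fun, Nat.card_zmod, Nat.card_fin, ← pow_mul]

end Count

/-! ### the level-wise projector -/

section Proj

variable {T : Type*} [CommRing T] (P : Ideal T) {r : ℕ} [hr : Fact r.Prime]
  {J : Type*} [AddCommGroup J] [Module T J] [hfin : Finite {y : J // r • y = 0}]

variable (r J) in
/-- a `P`-projector of `J[r^k]`. -/
def eLevel (k : ℕ) : T := (exists_isProj (P := P) (M := ↥(lev T r J k))).choose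

theorem eLevel_spec (k : ℕ) : IsProj P (eLevel P r J k) ↥(lev T r J k) :=
  (exists_isProj (P := P) (M := ↥(lev T r J k))).choose_spec

/-- the projectors of consecutive levels agree on the lower level. -/
theorem eLevel_succ_smul {k : ℕ} {y : J} (hy : r ^ k • y = 0) :
    eLevel P r J (k + 1) • y = eLevel P r J k • y := by
  have h1 : IsProj P (eLevel P r J (k + 1)) ↥(lev T r J k) :=
    (eLevel_spec P (k + 1)).of_injective (Submodule.inclusion (lev_mono k))
      (Submodule.inclusion_injective _)
  have h2 := isProj_smul_eq h1 (eLevel_spec P k) (⟨y, hy⟩ : ↥(lev T r J k))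
  exact congrArg Subtype.val h2

/-- membership of the primary part, in a level and in `J`. -/
theorem mem_primaryPart_lev {k : ℕ} (y : ↥(lev T r J k)) :
    y ∈ primaryPart P ↥(lev T r J k) ↔ (y : J) ∈ primaryPart P J := by
  constructor
  · rintro ⟨j, hj⟩
    exact ⟨j, fun t ht => by
      have := congrArg Subtype.val (hj t ht)
      exact this⟩
  · rintro ⟨j, hj⟩
    exact ⟨j, fun t ht => Subtype.ext (hj t ht)⟩

theorem eLevel_smul_mem {k : ℕ} {y : J} (hy : r ^ k • y = 0) :
    eLevel P r J k • y ∈ primaryPart P J := by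
  have h := (eLevel_spec P (r := r) (J := J) k).smul_mem (⟨y, hy⟩ : ↥(lev T r J k))
  exact (mem_primaryPart_lev P _).mp h

theorem eLevel_smul_eq {k : ℕ} {y : J} (hy : r ^ k • y = 0) (hyP : y ∈ primaryPart P J) :
    eLevel P r J k • y = y := by
  have h := (eLevel_spec P (r := r) (J := J) k).smul_eq
    ((mem_primaryPart_lev P (⟨y, hy⟩ : ↥(lev T r J k))).mpr hyP)
  exact congrArg Subtype.val h

/-- **the level-wise `P`-projector of the Tate module.** -/
def pProj : TateModule r J →ₗ[ℤ_[r]] TateModule r J :=
  mapLevels (fun k y => eLevel P r J k • y) (fun _ _ _ _ _ => smul_add _ _ _)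
    (fun k x hx => by
      show r • (eLevel P r J (k + 1) • x) = eLevel P r J k • (r • x)
      rw [smul_comm]
      exact eLevel_succ_smul P (pow_smul_p_smul hx))

theorem proj_pProj (x : TateModule r J) (k : ℕ) :
    proj k (pProj P x) = eLevel P r J k • proj k x := rfl

/-- **the `P`-part of the Tate module**: the sequences of `P`-primary elements. -/
def pTate : Submodule ℤ_[r] (TateModule r J) where
  carrier := {x | ∀ k, proj k x ∈ primaryPart P J}
  zero_mem' := fun k => by
    show proj k (0 : TateModule r J) ∈ primaryPart P J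
    rw [map_zero]
    exact (primaryPart P J).zero_mem
  add_mem' := fun {a b} ha hb k => by
    show proj k (a + b) ∈ primaryPart P J
    rw [map_add]
    exact (primaryPart P J).add_mem (ha k) (hb k)
  smul_mem' := fun a x hx k => by
    show proj k (a • x) ∈ primaryPart P J
    rw [proj_smul]
    exact ((primaryPart P J).toAddSubmonoid).nsmul_mem (hx k) _

theorem mem_pTate {x : TateModule r J} : x ∈ pTate P ↔ ∀ k, proj k x ∈ primaryPart P J := Iff.rfl

theorem pProj_mem (x : TateModule r J) : pProj P x ∈ pTate P := fun k => by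
  rw [proj_pProj]
  exact eLevel_smul_mem P (pow_smul_proj k x)

theorem pProj_eq_self {x : TateModule r J} (hx : x ∈ pTate P) : pProj P x = x := by
  ext k
  exact eLevel_smul_eq P (pow_smul_proj k x) (hx k)

theorem mem_pTate_iff_pProj {x : TateModule r J} : x ∈ pTate P ↔ pProj P x = x :=
  ⟨pProj_eq_self P, fun h => h ▸ pProj_mem P x⟩

theorem pProj_pProj (x : TateModule r J) : pProj P (pProj P x) = pProj P x :=
  pProj_eq_self P (pProj_mem P x)

theorem range_pProj : LinearMap.range (pProj (r := r) (J := J) P) = pTate P := by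
  apply le_antisymm
  · rintro _ ⟨x, rfl⟩
    exact pProj_mem P x
  · intro x hx
    exact ⟨x, pProj_eq_self P hx⟩

/-- the Tate module is the direct sum of its `P`-part and the kernel of the projector. -/
theorem isCompl_pTate_ker : IsCompl (pTate (r := r) (J := J) P) (LinearMap.ker (pProj P)) := by
  rw [← range_pProj]
  have h : IsIdempotentElem (pProj (r := r) (J := J) P) :=
    LinearMap.ext fun x => pProj_pProj P x
  exact LinearMap.IsIdempotentElem.isCompl h

/-! ### equivariance -/

/-- `map g` commutes with the projector, for every additive `g` commuting with the `T`-action. -/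
theorem pProj_map (g : J →+ J) (hg : ∀ (t : T) (y : J), g (t • y) = t • g y)
    (x : TateModule r J) : pProj P (map g x) = map g (pProj P x) := by
  ext k
  show eLevel P r J k • g (proj k x) = g (eLevel P r J k • proj k x)
  rw [hg]

theorem map_mem_pTate (g : J →+ J) (hg : ∀ (t : T) (y : J), g (t • y) = t • g y)
    {x : TateModule r J} (hx : x ∈ pTate P) : map g x ∈ pTate P := by
  rw [mem_pTate_iff_pProj, pProj_map P g hg, pProj_eq_self P hx]

/-- the endomorphism of the `P`-part induced by `g`. -/
def mapP (g : J →+ J) (hg : ∀ (t : T) (y : J), g (t • y) = t • g y) :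
    ↥(pTate (r := r) (J := J) P) →ₗ[ℤ_[r]] ↥(pTate (r := r) (J := J) P) :=
  (map g).restrict (fun _ hx => map_mem_pTate P g hg hx)

theorem coe_mapP (g : J →+ J) (hg : ∀ (t : T) (y : J), g (t • y) = t • g y)
    (x : ↥(pTate (r := r) (J := J) P)) : ((mapP P g hg x : ↥(pTate P)) : TateModule r J) = map g x :=
  rfl

/-! ### finite free -/

instance finite_pTate : Module.Finite ℤ_[r] ↥(pTate (r := r) (J := J) P) := by
  have := module_finite (p := r) (J := J)
  refine Module.Finite.of_surjective
    (LinearMap.codRestrict (pTate P) (pProj P) (pProj_mem P)) ?_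
  intro x
  exact ⟨x.1, Subtype.ext (pProj_eq_self P x.2)⟩

instance free_pTate : Module.Free ℤ_[r] ↥(pTate (r := r) (J := J) P) := by
  have := finite_pTate (r := r) (J := J) P
  exact Module.free_of_finite_type_torsion_free'

/-! ### the finite levels -/

variable (r J) in
/-- the `P`-primary part of `J[r^k]`. -/
def levelP (k : ℕ) : AddSubgroup J where
  carrier := {y | r ^ k • y = 0 ∧ y ∈ primaryPart P J}
  zero_mem' := ⟨smul_zero _, (primaryPart P J).zero_mem⟩
  add_mem' := fun {_ _} ha hb => ⟨by rw [smul_add, ha.1, hb.1, add_zero],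
    (primaryPart P J).add_mem ha.2 hb.2⟩
  neg_mem' := fun {_} ha => ⟨by rw [smul_neg, ha.1, neg_zero], (primaryPart P J).neg_mem ha.2⟩

theorem mem_levelP {k : ℕ} {y : J} :
    y ∈ levelP P r J k ↔ r ^ k • y = 0 ∧ y ∈ primaryPart P J := Iff.rfl

instance finite_levelP (k : ℕ) : Finite ↥(levelP P r J k) :=
  Finite.of_injective (fun y : ↥(levelP P r J k) => (⟨y.1, y.2.1⟩ : ↥(lev T r J k)))
    (fun _ _ hab => Subtype.ext (congrArg (fun z : ↥(lev T r J k) => (z : J)) hab))

/-- the projection of the `P`-part to the `P`-part of level `k`. -/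
def projP (k : ℕ) : ↥(pTate (r := r) (J := J) P) →+ ↥(levelP P r J k) where
  toFun x := ⟨proj k x.1, pow_smul_proj k x.1, x.2 k⟩
  map_zero' := rfl
  map_add' _ _ := rfl

theorem coe_projP (k : ℕ) (x : ↥(pTate (r := r) (J := J) P)) :
    ((projP P k x : ↥(levelP P r J k)) : J) = proj k (x : TateModule r J) := rfl

/-- every `r^k`-torsion element lifts to the Tate module, if `J` is `r`-divisible. -/
theorem exists_proj_eq (hdiv : ∀ y : J, ∃ z : J, r • z = y) {k : ℕ} {y : J}
    (hy : r ^ k • y = 0) : ∃ x : TateModule r J, proj k x = y := by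
  let u : ℕ → J := fun n => Nat.rec y (fun _ z => (hdiv z).choose) n
  have hus : ∀ n, r • u (n + 1) = u n := fun n => (hdiv (u n)).choose_spec
  have hpow : ∀ n, r ^ n • u n = y := by
    intro n
    induction n with
    | zero => rw [pow_zero, one_smul]; rfl
    | succ n ih => rw [pow_succ, mul_smul, hus, ih]
  refine ⟨⟨fun i => r ^ k • u i, ?_, fun i => ?_⟩, ?_⟩
  · show r ^ k • u 0 = 0
    exact hy
  · show r • (r ^ k • u (i + 1)) = r ^ k • u i
    rw [smul_comm, hus]
  · show r ^ k • u k = y
    exact hpow k

/-- **the `P`-part of the Tate module surjects onto the `P`-part of every level.** -/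
theorem projP_surjective (hdiv : ∀ y : J, ∃ z : J, r • z = y) (k : ℕ) :
    Function.Surjective (projP (r := r) (J := J) P k) := by
  rintro ⟨y, hy, hyP⟩
  obtain ⟨x, hx⟩ := exists_proj_eq hdiv hy
  refine ⟨⟨pProj P x, pProj_mem P x⟩, Subtype.ext ?_⟩
  show eLevel P r J k • proj k x = y
  rw [hx]
  exact eLevel_smul_eq P hy hyP

/-- **the kernel of `projP k` is `r^k • pTate`.** -/
theorem projP_eq_zero_iff (k : ℕ) (x : ↥(pTate (r := r) (J := J) P)) :
    projP P k x = 0 ↔ ∃ z : ↥(pTate (r := r) (J := J) P), x = ((r : ℤ_[r]) ^ k) • z := by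
  constructor
  · intro h
    have h0 : proj k (x : TateModule r J) = 0 := congrArg Subtype.val h
    obtain ⟨y, hy⟩ := (proj_eq_zero_iff' k _).mp h0
    have hyP : y ∈ pTate P := by
      rw [mem_pTate_iff_pProj]
      have h1 : ((r : ℤ_[r]) ^ k) • (pProj P y - y) = 0 := by
        rw [smul_sub, ← map_smul, ← hy, pProj_eq_self P x.2, sub_self]
      exact sub_eq_zero.mp (eq_zero_of_pow_smul k h1)
    exact ⟨⟨y, hyP⟩, Subtype.ext hy⟩
  · rintro ⟨z, rfl⟩
    apply Subtype.ext
    show proj k (((r : ℤ_[r]) ^ k) • (z : TateModule r J)) = 0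
    rw [proj_pow_smul, pow_smul_proj]

/-- equivariance of the level maps. -/
theorem projP_mapP (g : J →+ J) (hg : ∀ (t : T) (y : J), g (t • y) = t • g y) (k : ℕ)
    (x : ↥(pTate (r := r) (J := J) P)) :
    ((projP P k (mapP P g hg x) : ↥(levelP P r J k)) : J) = g (projP P k x : ↥(levelP P r J k)) :=
  rfl

/-- **the order of the `P`-part of `J[r^k]`** is `r^(k · rank)` of the `P`-part of the Tate module. -/
theorem card_levelP (hdiv : ∀ y : J, ∃ z : J, r • z = y) (k : ℕ) :
    Nat.card ↥(levelP P r J k) =
      r ^ (k * Module.finrank ℤ_[r] ↥(pTate (r := r) (J := J) P)) :=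
  card_eq_pow_of_level k (projP P k) (projP_surjective P hdiv k)
    (fun a x => Subtype.ext (by
      rw [AddSubgroup.coe_nsmul]
      exact proj_smul a k (x : TateModule r J)))
    (projP_eq_zero_iff P k)

end Proj

end Fermat.Agent.MAZ.PT.PTate59
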