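/-
MAZ (S15), chapter PT (purely toric reduction), brick (RAT4), abstract half (helper79):
**over a rational function field the chart is a polynomial ring.**

`R` an integrally closed domain with fraction field `K`, `F = K(t)` with `t` transcendental over `K`.
Then the chart `chart R t` of `RED/PUR/ChartGeneric22` (the integral closure of `R[t]` in `F`) is `R[t]`
itself, `R[t] ≃ R[X]`, and for a prime element `π` of `R` the reduction `R[t] / π` is the polynomial ring
`(R / π)[X]`: the special fibre of the chart is the affine line, its function field is rational, so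
every divisor of degree `0` on it is principal.  (Level `n = 4, 9`: `F_n = K(t)`, `RED/BASE/TGen19`.)

Mathlib + `ChartGeneric22` only.
-/
import Mathlib
import Fermat.Agent.RED.PUR.ChartGeneric22

set_option autoImplicit false
set_option linter.unusedSectionVars false

noncomputable section

namespace Fermat.Agent.MAZ.PT.RatChart79

open Polynomial
open Fermat.Agent.RED.PUR.ChartGeneric22

variable {R K F : Type*} [CommRing R] [IsDomain R] [Field K] [Algebra R K] [IsFractionRing R K]
  [Field F] [Algebra R F] [Algebra K F] [IsScalarTower R K F]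

/-- `t` transcendental over `K = Frac R` is transcendental over `R`. -/
theorem transcendental_base {t : F} (htr : Transcendental K t) : Transcendental R t :=
  htr.restrictScalars (IsFractionRing.injective R K)

/-- Every element of `K(t)` is a quotient of two elements of `R[t]`. -/
theorem exists_div_of_adjoin_eq_top {t : F} (hgen : IntermediateField.adjoin K {t} = ⊤) (z : F) :
    ∃ x y : Algebra.adjoin R {t}, z = (x : F) / (y : F) := by
  have hz : z ∈ IntermediateField.adjoin K {t} := by rw [hgen]; trivial
  obtain ⟨r, s, rfl⟩ := (IntermediateField.mem_adjoin_simple_iff K z).mp hz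
  obtain ⟨b, hb, hbr⟩ := IsLocalization.integerNormalization_spec (nonZeroDivisors R) r
  obtain ⟨c, hc, hcs⟩ := IsLocalization.integerNormalization_spec (nonZeroDivisors R) s
  set r₀ := IsLocalization.integerNormalization (nonZeroDivisors R) r
  set s₀ := IsLocalization.integerNormalization (nonZeroDivisors R) s
  have hb0 : (algebraMap R F b) ≠ 0 := by
    rw [IsScalarTower.algebraMap_apply R K F]
    exact (map_ne_zero_iff _ (algebraMap K F).injective).mpr
      ((map_ne_zero_iff _ (IsFractionRing.injective R K)).mpr (nonZeroDivisors.ne_zero hb))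
  have hc0 : (algebraMap R F c) ≠ 0 := by
    rw [IsScalarTower.algebraMap_apply R K F]
    exact (map_ne_zero_iff _ (algebraMap K F).injective).mpr
      ((map_ne_zero_iff _ (IsFractionRing.injective R K)).mpr (nonZeroDivisors.ne_zero hc))
  -- `aeval t r₀ = b • aeval t r`
  have hsm : ∀ (a : R) (u : K[X]), aeval t (a • u) = algebraMap R F a * aeval t u := by
    intro a u
    rw [← algebraMap_smul K a u, Polynomial.smul_eq_C_mul, map_mul, aeval_C,
      ← IsScalarTower.algebraMap_apply R K F]
  have hr : aeval t r₀ = algebraMap R F b * aeval t r := by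
    have h1 : aeval t (r₀.map (algebraMap R K)) = aeval t r₀ := aeval_map_algebraMap K t r₀
    rw [← h1, hbr, hsm]
  have hs : aeval t s₀ = algebraMap R F c * aeval t s := by
    have h1 : aeval t (s₀.map (algebraMap R K)) = aeval t s₀ := aeval_map_algebraMap K t s₀
    rw [← h1, hcs, hsm]
  have hmem : ∀ p : R[X], aeval t p ∈ Algebra.adjoin R {t} := fun p => by
    rw [Algebra.adjoin_singleton_eq_range_aeval]
    exact ⟨p, rfl⟩
  refine ⟨⟨algebraMap R F c * aeval t r₀, ?_⟩, ⟨algebraMap R F b * aeval t s₀, ?_⟩, ?_⟩
  · exact mul_mem (Subalgebra.algebraMap_mem _ c) (hmem r₀)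
  · exact mul_mem (Subalgebra.algebraMap_mem _ b) (hmem s₀)
  · change aeval t r / aeval t s = (algebraMap R F c * aeval t r₀) / (algebraMap R F b * aeval t s₀)
    rw [hr, hs]
    by_cases h0 : aeval t s = 0
    · rw [h0, div_zero, mul_zero, mul_zero, div_zero]
    · field_simp

/-- `F = K(t)` is the fraction field of `R[t]`. -/
theorem isFractionRing_adjoin {t : F} (hgen : IntermediateField.adjoin K {t} = ⊤) :
    IsFractionRing (Algebra.adjoin R {t}) F := by
  have : FaithfulSMul (Algebra.adjoin R {t}) F :=
    (faithfulSMul_iff_algebraMap_injective _ _).mpr Subtype.val_injective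
  exact IsFractionRing.of_field (Algebra.adjoin R {t}) F
    (fun z => exists_div_of_adjoin_eq_top (R := R) hgen z)

variable [IsIntegrallyClosed R]

/-- `R[t] ≃ R[X]` is integrally closed. -/
theorem isIntegrallyClosed_adjoin {t : F} (htr : Transcendental K t) :
    IsIntegrallyClosed (Algebra.adjoin R {t}) :=
  IsIntegrallyClosed.of_equiv
    (algEquivOfTranscendental R t (transcendental_base htr)).toRingEquiv

/-- **(RAT4), abstract form.** An element of `K(t)` integral over `R[t]` lies in `R[t]`. -/
theorem mem_adjoin_of_isIntegral {t : F} (htr : Transcendental K t)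
    (hgen : IntermediateField.adjoin K {t} = ⊤) {x : F}
    (hx : IsIntegral (Algebra.adjoin R {t}) x) : x ∈ Algebra.adjoin R {t} := by
  have h1 := isFractionRing_adjoin (R := R) hgen
  have h2 := isIntegrallyClosed_adjoin (R := R) htr
  obtain ⟨y, rfl⟩ := IsIntegrallyClosed.isIntegral_iff.mp hx
  exact y.2

/-- **The chart over a rational function field is the polynomial ring**: `chart R t = R[t]`. -/
theorem chart_eq_adjoin {t : F} (htr : Transcendental K t)
    (hgen : IntermediateField.adjoin K {t} = ⊤) : chart R t = Algebra.adjoin R {t} :=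
  le_antisymm (fun _ hx => mem_adjoin_of_isIntegral htr hgen (mem_chart_iff.mp hx))
    (adjoin_le_chart t)

/-- The chart as a polynomial ring: `R[X] ≃ₐ[R] chart R t`, `X ↦ t`. -/
def polyEquivChart {t : F} (htr : Transcendental K t)
    (hgen : IntermediateField.adjoin K {t} = ⊤) : R[X] ≃ₐ[R] chart R t :=
  (algEquivOfTranscendental R t (transcendental_base htr)).trans
    (Subalgebra.equivOfEq _ _ (chart_eq_adjoin htr hgen).symm)

@[simp]
theorem coe_polyEquivChart {t : F} (htr : Transcendental K t)
    (hgen : IntermediateField.adjoin K {t} = ⊤) (p : R[X]) :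
    ((polyEquivChart htr hgen p : chart R t) : F) = aeval t p := by
  change ((algEquivOfTranscendental R t (transcendental_base htr) p : Algebra.adjoin R {t}) : F) = _
  rw [algEquivOfTranscendental_apply]
  exact (aeval_algHom_apply (Algebra.adjoin R {t}).val
    (⟨t, Algebra.self_mem_adjoin_singleton R t⟩ : Algebra.adjoin R {t}) p).symm

end Fermat.Agent.MAZ.PT.RatChart79
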