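/-
MAZ (S15), chapter PT (purely toric reduction), brick (RAT4), abstract half (helper79),
literal (79-a) of helper90's table: **in a rational function field `κ(t)` a function all of whose
orders are divisible by `m` is a constant times an `m`-th power.**

`κ` ANY field (no algebraic closedness, any characteristic), `E = κ(t)`, `t` transcendental,
Prelude places `AlgebraicCurve.Place κ E`.  Only the places coming from the monic irreducible
polynomials (the height one primes of `κ[t]`) are used; the place at infinity is not needed.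

* `RatCore κ E m` : the statement;
* `exists_unit_mul_pow` : in a principal ideal domain `B` with fraction field `E`, `h ∈ B` nonzero with
  all orders divisible by `m` is a unit times an `m`-th power;
* `exists_unit_mul_pow_of_fraction` : the same for `f ∈ E` (reduced fractions);
* `ratCore_of_adjoin` : `RatCore κ E m` for `E = κ(t)`.
-/
import Mathlib
import Fermat.Prelude.Def_AlgebraicCurve_DivisorClassGroup
import Fermat.Agent.X0.FFDedekind
import Fermat.Agent.X0.FFDict

set_option autoImplicit false
set_option linter.unusedSectionVars false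

open AlgebraicCurve IsDedekindDomain Polynomial

noncomputable section

namespace Fermat.Agent.MAZ.PT.RatCore79

open Fermat.Agent.X0.FFDedekind Fermat.Agent.X0.FF

/-- **(79-a)** every function whose divisor is divisible by `m` is a constant times an `m`-th
power. -/
def RatCore (κ E : Type*) [Field κ] [Field E] [Algebra κ E] (m : ℕ) : Prop :=
  ∀ f : E, f ≠ 0 → (∀ Q : Place κ E, (m : ℤ) ∣ Q.ord f) →
    ∃ c : κ, ∃ g : E, f = algebraMap κ E c * g ^ m

section PID

variable {K E : Type*} [Field K] [Field E] [Algebra K E]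
variable {B : Type*} [CommRing B] [IsDomain B] [IsPrincipalIdealRing B] [Algebra B E]
  [IsFractionRing B E] [Algebra K B] [IsScalarTower K B E]

/-- the place of `E` attached to a height one prime of `B`. -/
abbrev plc (w : HeightOneSpectrum B) : Place K E := Place.ofHeightOneSpectrum (K := K) (F := E) w

/-- the height one prime generated by an irreducible element. -/
def primeOf {q : B} (hq : Irreducible q) : HeightOneSpectrum B :=
  ⟨Ideal.span {q}, (Ideal.span_singleton_prime hq.ne_zero).mpr hq.prime,
    by rw [Ne, Ideal.span_singleton_eq_bot]; exact hq.ne_zero⟩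

theorem ord_pos_of_dvd {q : B} (hq : Irreducible q) {h : B} (h0 : h ≠ 0) (hqh : q ∣ h) :
    0 < (plc (K := K) (E := E) (primeOf hq)).ord (algebraMap B E h) :=
  (ord_ofHeightOneSpectrum_algebraMap_pos_iff (K := K) (F := E) (primeOf hq) h0).mpr
    (Ideal.mem_span_singleton.mpr hqh)

theorem dvd_of_ord_pos {q : B} (hq : Irreducible q) {h : B} (h0 : h ≠ 0)
    (hpos : 0 < (plc (K := K) (E := E) (primeOf hq)).ord (algebraMap B E h)) : q ∣ h :=
  Ideal.mem_span_singleton.mp
    ((ord_ofHeightOneSpectrum_algebraMap_pos_iff (K := K) (F := E) (primeOf hq) h0).mp hpos)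

/-- `ord ≥ m` at the prime `(q)` means `q ^ m ∣ h`. -/
theorem pow_dvd_of_le_ord {q : B} (hq : Irreducible q) {h : B} (h0 : h ≠ 0) (m : ℕ)
    (hm : (m : ℤ) ≤ (plc (K := K) (E := E) (primeOf hq)).ord (algebraMap B E h)) : q ^ m ∣ h := by
  have hval : (primeOf hq).intValuation h ≤ WithZero.exp (-(m : ℤ)) := by
    rw [ord_ofHeightOneSpectrum, HeightOneSpectrum.valuation_of_algebraMap] at hm
    have hne : (primeOf hq).intValuation h ≠ 0 := (primeOf hq).intValuation_ne_zero h h0
    rw [← WithZero.log_le_iff_le_exp hne]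
    omega
  have hmem := ((primeOf hq).intValuation_le_pow_iff_mem h m).mp hval
  change h ∈ (Ideal.span {q}) ^ m at hmem
  rw [Ideal.span_singleton_pow] at hmem
  exact Ideal.mem_span_singleton.mp hmem

theorem ord_map_ne (_w : HeightOneSpectrum B) {h : B} (h0 : h ≠ 0) : algebraMap B E h ≠ 0 :=
  (map_ne_zero_iff _ (IsFractionRing.injective B E)).mpr h0

/-- **UFD step**: an element of a principal ideal domain all of whose orders are divisible by `m` is
a unit times an `m`-th power. -/
theorem exists_unit_mul_pow (m : ℕ) (h : B) (h0 : h ≠ 0)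
    (hdiv : ∀ w : HeightOneSpectrum B,
      (m : ℤ) ∣ (plc (K := K) (E := E) w).ord (algebraMap B E h)) :
    ∃ (u : Bˣ) (g : B), h = u * g ^ m := by
  revert h0 hdiv
  refine WellFounded.induction (C := fun h : B => h ≠ 0 →
    (∀ w : HeightOneSpectrum B, (m : ℤ) ∣ (plc (K := K) (E := E) w).ord (algebraMap B E h)) →
      ∃ (u : Bˣ) (g : B), h = u * g ^ m) (wellFounded_dvdNotUnit (α := B)) h ?_
  intro h ih h0 hdiv
  by_cases hu : IsUnit h
  · exact ⟨hu.unit, 1, by rw [one_pow, mul_one, IsUnit.unit_spec]⟩
  obtain ⟨q, hq, hqh⟩ := WfDvdMonoid.exists_irreducible_factor hu h0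
  have hpos := ord_pos_of_dvd (K := K) (E := E) hq h0 hqh
  obtain ⟨c, hc⟩ := hdiv (primeOf hq)
  have hm1 : 1 ≤ m := by
    rcases Nat.eq_zero_or_pos m with rfl | hm
    · rw [hc] at hpos
      simp at hpos
    · exact hm
  have hc1 : 1 ≤ c := by
    by_contra hlt
    push Not at hlt
    have hc0 : c ≤ 0 := by omega
    have : (m : ℤ) * c ≤ 0 := mul_nonpos_of_nonneg_of_nonpos (by positivity) hc0
    rw [hc] at hpos
    omega
  have hge : (m : ℤ) ≤ (plc (K := K) (E := E) (primeOf hq)).ord (algebraMap B E h) := by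
    rw [hc]
    nlinarith
  obtain ⟨h', rfl⟩ := pow_dvd_of_le_ord (K := K) (E := E) hq h0 m hge
  have h'0 : h' ≠ 0 := right_ne_zero_of_mul h0
  have hq0 : q ≠ 0 := hq.ne_zero
  have hnu : ¬ IsUnit (q ^ m) := fun hun =>
    hq.not_isUnit ((isUnit_pow_iff (by omega)).mp hun)
  have hdnu : DvdNotUnit h' (q ^ m * h') := ⟨h'0, q ^ m, hnu, mul_comm _ _⟩
  have hdiv' : ∀ w : HeightOneSpectrum B,
      (m : ℤ) ∣ (plc (K := K) (E := E) w).ord (algebraMap B E h') := by
    intro w
    have h1 := hdiv w
    rw [map_mul, map_pow,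
      (plc (K := K) (E := E) w).ord_mul (pow_ne_zero m (ord_map_ne w hq0)) (ord_map_ne w h'0),
      ord_pow] at h1
    exact (Int.dvd_add_right (Dvd.intro _ rfl)).mp h1
  obtain ⟨u, g, hug⟩ := ih h' hdnu h'0 hdiv'
  exact ⟨u, q * g, by rw [hug, mul_pow]; ring⟩

/-- at a height one prime, coprime elements are not both of positive order. -/
theorem ord_eq_zero_of_isRelPrime {a b : B} (ha : a ≠ 0) (hb : b ≠ 0) (hrel : IsRelPrime a b)
    (w : HeightOneSpectrum B)
    (hpa : 0 < (plc (K := K) (E := E) w).ord (algebraMap B E a)) :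
    (plc (K := K) (E := E) w).ord (algebraMap B E b) = 0 := by
  by_contra hne
  have hpb : 0 < (plc (K := K) (E := E) w).ord (algebraMap B E b) :=
    lt_of_le_of_ne (ord_ofHeightOneSpectrum_algebraMap_nonneg (K := K) (F := E) w b) (Ne.symm hne)
  have hmema := (ord_ofHeightOneSpectrum_algebraMap_pos_iff (K := K) (F := E) w ha).mp hpa
  have hmemb := (ord_ofHeightOneSpectrum_algebraMap_pos_iff (K := K) (F := E) w hb).mp hpb
  obtain ⟨q, hq⟩ := (IsPrincipalIdealRing.principal w.asIdeal).principal
  rw [hq] at hmema hmemb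
  obtain ⟨x, hx⟩ := Submodule.mem_span_singleton.mp hmema
  obtain ⟨y, hy⟩ := Submodule.mem_span_singleton.mp hmemb
  have hqu : IsUnit q := hrel (Dvd.intro_left x hx) (Dvd.intro_left y hy)
  apply w.isPrime.ne_top
  rw [hq]
  exact Ideal.eq_top_of_isUnit_mem _ (Submodule.mem_span_singleton_self q) hqu

/-- **the same for fractions.** -/
theorem exists_unit_mul_pow_of_fraction (m : ℕ) (f : E) (hf : f ≠ 0)
    (hdiv : ∀ w : HeightOneSpectrum B, (m : ℤ) ∣ (plc (K := K) (E := E) w).ord f) :
    ∃ (u : Bˣ) (g : E), f = algebraMap B E u * g ^ m := by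
  obtain ⟨a, b, hrel, hab⟩ := IsFractionRing.exists_reduced_fraction (A := B) (K := E) f
  have hb0 : (b : B) ≠ 0 := nonZeroDivisors.ne_zero b.2
  have hbE : algebraMap B E b ≠ 0 := (map_ne_zero_iff _ (IsFractionRing.injective B E)).mpr hb0
  have hfab : f * algebraMap B E b = algebraMap B E a := by
    rw [← hab, IsLocalization.mk'_spec]
  have ha0 : a ≠ 0 := by
    rintro rfl
    rw [map_zero] at hfab
    exact hf ((mul_eq_zero.mp hfab).resolve_right hbE)
  have haE : algebraMap B E a ≠ 0 := (map_ne_zero_iff _ (IsFractionRing.injective B E)).mpr ha0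
  have hord : ∀ w : HeightOneSpectrum B, (plc (K := K) (E := E) w).ord f +
      (plc (K := K) (E := E) w).ord (algebraMap B E b) =
      (plc (K := K) (E := E) w).ord (algebraMap B E a) := by
    intro w
    rw [← (plc (K := K) (E := E) w).ord_mul hf hbE, hfab]
  have hda : ∀ w : HeightOneSpectrum B,
      (m : ℤ) ∣ (plc (K := K) (E := E) w).ord (algebraMap B E a) := by
    intro w
    by_cases hpa : 0 < (plc (K := K) (E := E) w).ord (algebraMap B E a)
    · have hb := ord_eq_zero_of_isRelPrime (K := K) (E := E) ha0 hb0 hrel w hpa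
      rw [← hord w, hb, add_zero]
      exact hdiv w
    · have h0 : (plc (K := K) (E := E) w).ord (algebraMap B E a) = 0 :=
        le_antisymm (not_lt.mp hpa)
          (ord_ofHeightOneSpectrum_algebraMap_nonneg (K := K) (F := E) w a)
      rw [h0]
      exact dvd_zero _
  have hdb : ∀ w : HeightOneSpectrum B,
      (m : ℤ) ∣ (plc (K := K) (E := E) w).ord (algebraMap B E b) := by
    intro w
    by_cases hpb : 0 < (plc (K := K) (E := E) w).ord (algebraMap B E b)
    · have ha := ord_eq_zero_of_isRelPrime (K := K) (E := E) hb0 ha0 hrel.symm w hpb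
      have h1 := hord w
      rw [ha] at h1
      have h2 : (plc (K := K) (E := E) w).ord (algebraMap B E b) =
          -(plc (K := K) (E := E) w).ord f := by omega
      rw [h2]
      exact (dvd_neg.mpr (hdiv w))
    · have h0 : (plc (K := K) (E := E) w).ord (algebraMap B E b) = 0 :=
        le_antisymm (not_lt.mp hpb)
          (ord_ofHeightOneSpectrum_algebraMap_nonneg (K := K) (F := E) w b)
      rw [h0]
      exact dvd_zero _
  obtain ⟨u, g, hug⟩ := exists_unit_mul_pow (K := K) (E := E) m a ha0 hda
  obtain ⟨u', g', hug'⟩ := exists_unit_mul_pow (K := K) (E := E) m (b : B) hb0 hdb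
  have hu'E : algebraMap B E (u' : B) ≠ 0 :=
    (map_ne_zero_iff _ (IsFractionRing.injective B E)).mpr u'.ne_zero
  have h1 : f = algebraMap B E a / algebraMap B E b := by
    rw [eq_div_iff hbE, hfab]
  have hinv : algebraMap B E ((u'⁻¹ : Bˣ) : B) = (algebraMap B E (u' : B))⁻¹ := by
    exact eq_inv_of_mul_eq_one_left (by rw [← map_mul, Units.inv_mul, map_one])
  refine ⟨u * u'⁻¹, algebraMap B E g / algebraMap B E g', ?_⟩
  rcases Nat.eq_zero_or_pos m with rfl | hm
  · rw [pow_zero, mul_one] at hug hug'
    rw [h1, hug, hug', pow_zero, mul_one, Units.val_mul, map_mul, hinv, div_eq_mul_inv]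
  · have hg'0 : algebraMap B E g' ≠ 0 := by
      intro h0
      apply hbE
      rw [hug', map_mul, map_pow, h0, zero_pow (by omega), mul_zero]
    rw [h1, hug, hug', map_mul, map_mul, map_pow, map_pow, Units.val_mul, map_mul, div_pow, hinv]
    field_simp

end PID

section Rational

variable {κ E : Type*} [Field κ] [Field E] [Algebra κ E]

/-- `κ[t] ⊆ E` is a principal ideal domain. -/
theorem isPrincipalIdealRing_adjoin {t : E} (ht : Transcendental κ t) :
    IsPrincipalIdealRing (Algebra.adjoin κ {t}) :=
  IsPrincipalIdealRing.of_surjective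
    (algEquivOfTranscendental κ t ht).toRingEquiv.toRingHom
    (algEquivOfTranscendental κ t ht).surjective

/-- `E = κ(t)` is the fraction field of `κ[t]`. -/
theorem isFractionRing_adjoin {t : E} (hgen : IntermediateField.adjoin κ {t} = ⊤) :
    IsFractionRing (Algebra.adjoin κ {t}) E := by
  have : FaithfulSMul (Algebra.adjoin κ {t}) E :=
    (faithfulSMul_iff_algebraMap_injective _ _).mpr Subtype.val_injective
  refine IsFractionRing.of_field (Algebra.adjoin κ {t}) E (fun z => ?_)
  have hz : z ∈ IntermediateField.adjoin κ {t} := by rw [hgen]; trivial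
  obtain ⟨r, s, rfl⟩ := (IntermediateField.mem_adjoin_simple_iff κ z).mp hz
  have hmem : ∀ p : κ[X], aeval t p ∈ Algebra.adjoin κ {t} := fun p => by
    rw [Algebra.adjoin_singleton_eq_range_aeval]
    exact ⟨p, rfl⟩
  exact ⟨⟨aeval t r, hmem r⟩, ⟨aeval t s, hmem s⟩, rfl⟩

/-- the units of `κ[t]` are the nonzero constants. -/
theorem unit_adjoin_eq_algebraMap {t : E} (ht : Transcendental κ t)
    (u : (Algebra.adjoin κ {t})ˣ) : ∃ c : κ, ((u : Algebra.adjoin κ {t}) : E) = algebraMap κ E c := by
  set e := algEquivOfTranscendental κ t ht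
  have hu : IsUnit (e.symm (u : Algebra.adjoin κ {t})) := u.isUnit.map e.symm
  obtain ⟨c, -, hc⟩ := Polynomial.isUnit_iff.mp hu
  refine ⟨c, ?_⟩
  have h1 : (u : Algebra.adjoin κ {t}) = e (C c) := by rw [hc, AlgEquiv.apply_symm_apply]
  rw [h1]
  have h2 : e (C c) = algebraMap κ (Algebra.adjoin κ {t}) c := by
    rw [← Polynomial.algebraMap_eq, AlgEquiv.commutes]
  rw [h2]
  rfl

/-- **(79-a)** in `E = κ(t)` every function whose divisor is divisible by `m` is a constant times
an `m`-th power. -/
theorem ratCore_of_adjoin (t : E) (ht : Transcendental κ t)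
    (hgen : IntermediateField.adjoin κ {t} = ⊤) (m : ℕ) : RatCore κ E m := by
  intro f hf hQ
  have := isPrincipalIdealRing_adjoin ht
  have := isFractionRing_adjoin hgen
  obtain ⟨u, g, hug⟩ := exists_unit_mul_pow_of_fraction (K := κ) (E := E)
    (B := Algebra.adjoin κ {t}) m f hf (fun w => hQ (plc w))
  obtain ⟨c, hc⟩ := unit_adjoin_eq_algebraMap ht u
  exact ⟨c, g, by rw [hug, ← hc]; rfl⟩

end Rational

end Fermat.Agent.MAZ.PT.RatCore79
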